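import Fermat.Agent.RIB.Main.Step
import Fermat.Agent.ML.Ihara.Spec

/-!
# ML / Main / Ctx : the global residual context of the project ML (S59)

`MCtx p T θ rbar0` : the residual hypotheses for a GENERAL semistable curve `W` and an ODD prime `p` (`p = 3` allowed).
It is `RIB.ECtx` with
* `hp5` replaced by `hp2 : p ≠ 2`;
* the Frey-only fields `unram`, `ram2`, `unip2` replaced by
  `unramT` (`rbar0` unramified outside `T`) and `unipI` (inertia at every `q ≠ p` is unipotent, in the bilinear form);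
* the new field `nonEis` (helper50's `NonEisAP`, for every finite set of excluded primes).

`T : Finset ℕ` = `2`, `p`, the bad primes of `W` and the primes of the starting level.   `θ r = a_r(W)`.

* `Ram rbar0 q` : `rbar0` is ramified at `q`.
* `ECtx.toMCtx` is NOT provided (not needed); `MCtx.unram_of_not_ram` gives the `ECtx.unram` shape at a prime which is not `Ram`.
* `MTW p T θ L₀ t n qv` : `RIB.TWCtx` without the field `hpL` (`p ∣ L₀` is allowed in the ordinary case); `MTW.toTWCtx`.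
* `MStep` : `RIB.StepCtx` without `hpL`; `MStep.toStepCtx`.
-/

set_option autoImplicit false

noncomputable section

open AlgebraicCurve ModularCurve

namespace Fermat.Agent.ML

open Fermat.Agent.RIB

local notation "Qbar" => AlgebraicClosure ℚ
local notation "GQ" => (AlgebraicClosure ℚ ≃ₐ[ℚ] AlgebraicClosure ℚ)
local notation "M₂" => Matrix (Fin 2) (Fin 2)

/-- the residual context (general semistable `W`, `p` odd). -/
structure MCtx (p : ℕ) [Fact p.Prime] (T : Finset ℕ) (θ : ℕ → ℤ) (rbar0 : GQ →* M₂ (ZMod p)) :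
    Prop where
  hp2 : p ≠ 2
  two_mem : 2 ∈ T
  p_mem : p ∈ T
  cont : GaloisFactorsThroughFiniteLevel rbar0
  det : ∀ g : GQ, (rbar0 g).det = ((ExtCitation.cycloChar p g : (ZMod p)ˣ) : ZMod p)
  /-- Eichler–Shimura relation on `W[p]` at ALL the primes outside `T` (the TW primes included) -/
  frob : ∀ r : ℕ, r.Prime → r ∉ T → ∀ A : ValuationSubring Qbar, A.LiesOverPrime r →
    ∀ φ : GQ, A.IsFrobeniusAt φ r →
      (rbar0 φ).trace = ((θ r : ℤ) : ZMod p) ∧ (rbar0 φ).det = ((r : ℕ) : ZMod p)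
  /-- Wiles' normal form -/
  nf : ∃ (σ₀ τ₀ : GQ) (u : ZMod p),
    u * TW.TR.xF (fun g => (rbar0 g).trace) (2 : ZMod p)⁻¹ complexConjugation σ₀ τ₀ = 1 ∧
    ∀ g, rbar0 g = Rho.rhoMat (fun g => (rbar0 g).trace) (2 : ZMod p)⁻¹ complexConjugation σ₀ τ₀ u g
  /-- unramified outside `T` -/
  unramT : ∀ q : ℕ, q.Prime → q ∉ T → ∀ A : ValuationSubring Qbar, A.LiesOverPrime q →
    ∀ σ ∈ A.inertiaSubgroupIn ℚ, rbar0 σ = 1
  /-- inertia at `q ≠ p` is unipotent (semistability) -/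
  unipI : ∀ q : ℕ, q.Prime → q ≠ p → ∀ A : ValuationSubring Qbar, A.LiesOverPrime q →
    ∀ σ ∈ A.inertiaSubgroupIn ℚ, ∀ τ ∈ A.inertiaSubgroupIn ℚ, (rbar0 τ - 1) * (rbar0 σ - 1) = 0
  noLine : ∀ v : Fin 2 → ZMod p, v ≠ 0 → ∃ σ : GQ, ∀ c : ZMod p, (rbar0 σ).mulVec v ≠ c • v
  /-- not Eisenstein on any arithmetic progression `1 mod M₀`, outside any finite set -/
  nonEis : ∀ S : Finset ℕ, NonEisAP p (↑S : Set ℕ) θ

/-- `rbar0` is ramified at `q`. -/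
def Ram {p : ℕ} (rbar0 : GQ →* M₂ (ZMod p)) (q : ℕ) : Prop :=
  ∃ A : ValuationSubring Qbar, A.LiesOverPrime q ∧ ∃ σ ∈ A.inertiaSubgroupIn ℚ, rbar0 σ ≠ 1

theorem unram_of_not_ram {p : ℕ} {rbar0 : GQ →* M₂ (ZMod p)} {q : ℕ} (h : ¬ Ram rbar0 q)
    (A : ValuationSubring Qbar) (hA : A.LiesOverPrime q) (σ : GQ)
    (hσ : σ ∈ A.inertiaSubgroupIn ℚ) : rbar0 σ = 1 := by
  by_contra h1
  exact h ⟨A, hA, σ, hσ, h1⟩

theorem MCtx.not_ram_of_not_mem {p : ℕ} [Fact p.Prime] {T : Finset ℕ} {θ : ℕ → ℤ}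
    {rbar0 : GQ →* M₂ (ZMod p)} (C : MCtx p T θ rbar0) {q : ℕ} (hq : q.Prime) (hqT : q ∉ T) :
    ¬ Ram rbar0 q := by
  rintro ⟨A, hA, σ, hσ, h1⟩
  exact h1 (C.unramT q hq hqT A hA σ hσ)

/-- enlarging `T`. -/
theorem MCtx.mono {p : ℕ} [Fact p.Prime] {T T' : Finset ℕ} {θ : ℕ → ℤ}
    {rbar0 : GQ →* M₂ (ZMod p)} (C : MCtx p T θ rbar0) (h : T ⊆ T') : MCtx p T' θ rbar0 where
  hp2 := C.hp2
  two_mem := h C.two_mem
  p_mem := h C.p_mem
  cont := C.cont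
  det := C.det
  frob := fun r hr hrT => C.frob r hr fun h' => hrT (h h')
  nf := C.nf
  unramT := fun q hq hqT => C.unramT q hq fun h' => hqT (h h')
  unipI := C.unipI
  noLine := C.noLine
  nonEis := C.nonEis

/-- the Taylor–Wiles primes relative to the base level `L₀` (`p ∣ L₀` allowed). -/
structure MTW (p : ℕ) (T : Finset ℕ) (θ : ℕ → ℤ) (L₀ t n : ℕ) (qv : Fin t → Nat.Primes) :
    Prop where
  inj : Function.Injective qv
  notT : ∀ i, ((qv i : Nat.Primes) : ℕ) ∉ T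
  pow : ∀ i, p ^ (n + 1) ∣ ((qv i : Nat.Primes) : ℕ) - 1
  /-- distinct Frobenius eigenvalues (`α β = l ≡ 1`) -/
  disc : ∀ i, IsCoprime (p : ℤ) (θ ((qv i : Nat.Primes) : ℕ) ^ 2 - 4)
  lev : ∀ r : ℕ, r.Prime → r ∣ L₀ * p → r ∈ T
  rigid : 4 ∣ L₀

theorem MTW.toTWCtx {p : ℕ} {T : Finset ℕ} {θ : ℕ → ℤ} {L₀ t n : ℕ} {qv : Fin t → Nat.Primes}
    (h : MTW p T θ L₀ t n qv) (hpL : ¬ p ∣ L₀) : TWCtx p T θ L₀ t n qv where
  inj := h.inj
  notT := h.notT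
  pow := h.pow
  disc := h.disc
  lev := h.lev
  rigid := h.rigid
  hpL := hpL

theorem _root_.Fermat.Agent.RIB.TWCtx.toMTW {p : ℕ} {T : Finset ℕ} {θ : ℕ → ℤ} {L₀ t n : ℕ}
    {qv : Fin t → Nat.Primes} (h : TWCtx p T θ L₀ t n qv) : MTW p T θ L₀ t n qv where
  inj := h.inj
  notT := h.notT
  pow := h.pow
  disc := h.disc
  lev := h.lev
  rigid := h.rigid

theorem MTW.of_dvd {p : ℕ} {T : Finset ℕ} {θ : ℕ → ℤ} {L₀ L₁ t n : ℕ} {qv : Fin t → Nat.Primes}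
    (h : MTW p T θ L₀ t n qv) (hd : L₁ ∣ L₀) (h4 : 4 ∣ L₁) : MTW p T θ L₁ t n qv where
  inj := h.inj
  notT := h.notT
  pow := h.pow
  disc := h.disc
  lev := fun r hr hrd => h.lev r hr (hrd.trans (Nat.mul_dvd_mul_right hd p))
  rigid := h4

/-- changing the base level inside the primes of `T`. -/
theorem MTW.of_lev {p : ℕ} {T : Finset ℕ} {θ : ℕ → ℤ} {L₀ L₁ t n : ℕ} {qv : Fin t → Nat.Primes}
    (h : MTW p T θ L₀ t n qv) (hlev : ∀ r : ℕ, r.Prime → r ∣ L₁ * p → r ∈ T) (h4 : 4 ∣ L₁) :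
    MTW p T θ L₁ t n qv where
  inj := h.inj
  notT := h.notT
  pow := h.pow
  disc := h.disc
  lev := hlev
  rigid := h4

theorem MTW.le_nuP {p : ℕ} [Fact p.Prime] {T : Finset ℕ} {θ : ℕ → ℤ} {L₀ t n : ℕ}
    {qv : Fin t → Nat.Primes} (h : MTW p T θ L₀ t n qv) (i : Fin t) : n + 1 ≤ nuP p qv i := by
  have h1 : ((qv i : Nat.Primes) : ℕ) - 1 ≠ 0 := by
    have := (qv i).2.two_le
    omega
  exact (padicValNat_dvd_iff_le h1).1 (h.pow i)

/-- one Taylor–Wiles step `L ⟶ L * l * l` (`p ∣ L` allowed). -/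
structure MStep (p : ℕ) (T : Finset ℕ) (θ : ℕ → ℤ) (S : Finset ℕ) (L l ν : ℕ) : Prop where
  hl : l.Prime
  hlT : l ∉ T
  hTS : T ⊆ S
  hlL : ¬ l ∣ L
  rigid : 4 ∣ L
  hS : ∀ r : ℕ, r.Prime → r ∣ L * l * l * p → r ∈ S
  hν : 1 ≤ ν
  hdvd : p ^ ν ∣ l - 1
  hex : ¬ p ^ (ν + 1) ∣ l - 1
  disc : IsCoprime (p : ℤ) (θ l ^ 2 - 4)

theorem MStep.toStepCtx {p : ℕ} {T : Finset ℕ} {θ : ℕ → ℤ} {S : Finset ℕ} {L l ν : ℕ}
    (h : MStep p T θ S L l ν) (hpL : ¬ p ∣ L) : StepCtx p T θ S L l ν where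
  hl := h.hl
  hlT := h.hlT
  hTS := h.hTS
  hlL := h.hlL
  rigid := h.rigid
  hpL := hpL
  hS := h.hS
  hν := h.hν
  hdvd := h.hdvd
  hex := h.hex
  disc := h.disc

end Fermat.Agent.ML
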