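import Fermat.Agent.ML.Top.Mod
import Fermat.Agent.ML.Top.Start
import Fermat.Agent.ML.ESide.Ctx
import Fermat.Agent.ML.AtP.Lower

/-!
# ML / Main / Spec1 : LAYER 1 of S59 : the interface  START → BASE → LIFT → TOP

* `Hyp59 W p` : the hypotheses of S59 on `(W, p)`.
* `Rz W L₀`, `finLevel W L₀` : the raising set (bad primes of `W` not dividing the base level) and the final level.
* `Occ2 p T θ rbar0 L₀` : `θ` occurs at the non-rigid level `L₀ / 4` resp. `L₀ / 2` (in the cases where this is needed).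
* `BasePre`, `BasePlan W p T rbar0 L₀` : the base level.
* `LowerStmt`, `Type2Stmt` : the contracts of LOWER and AT-2;  `BaseStmt`, `LiftStmt` : the two contracts of layer 1.
* `base_of_lower_type2 : LowerStmt → Type2Stmt → BaseStmt`   (`ML/Main/Asm1.lean`; the `p`-split (Ma)/(Mb) is pure logic).
* `s59_of_base_lift : BaseStmt → LiftStmt →` the statement of S59.
-/

set_option autoImplicit false

noncomputable section

open AlgebraicCurve ModularCurve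

namespace Fermat.Agent.ML

open Fermat.Agent.RIB Fermat.Agent.ML.ESide

local notation "Qbar" => AlgebraicClosure ℚ
local notation "GQ" => (AlgebraicClosure ℚ ≃ₐ[ℚ] AlgebraicClosure ℚ)
local notation "M₂" => Matrix (Fin 2) (Fin 2)

/-- the hypotheses of S59 on `(W, p)`. -/
structure Hyp59 (W : WeierstrassCurve ℤ) (p : ℕ) : Prop where
  hp35 : p = 3 ∨ p = 5
  hΔ : W.Δ ≠ 0
  hss : W.IsSemistableModel
  hirr : W.ModRepIsIrreducible p

theorem Hyp59.prime {W : WeierstrassCurve ℤ} {p : ℕ} (H : Hyp59 W p) : p.Prime := by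
  rcases H.hp35 with rfl | rfl <;> norm_num

theorem Hyp59.ne_two {W : WeierstrassCurve ℤ} {p : ℕ} (H : Hyp59 W p) : p ≠ 2 := by
  rcases H.hp35 with rfl | rfl <;> norm_num

theorem Hyp59.odd {W : WeierstrassCurve ℤ} {p : ℕ} (H : Hyp59 W p) : Odd p := by
  rcases H.hp35 with rfl | rfl <;> decide

/-! ### the final level -/

/-- the raising set: the bad primes of `W` which do not divide the base level. -/
def Rz (W : WeierstrassCurve ℤ) (L₀ : ℕ) : Finset ℕ :=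
  W.Δ.natAbs.primeFactors.filter fun q => ¬ q ∣ L₀

/-- the final level. -/
def finLevel (W : WeierstrassCurve ℤ) (L₀ : ℕ) : ℕ := L₀ * ∏ q ∈ Rz W L₀, q

theorem mem_Rz {W : WeierstrassCurve ℤ} (hΔ : W.Δ ≠ 0) {L₀ q : ℕ} :
    q ∈ Rz W L₀ ↔ q.Prime ∧ (q : ℤ) ∣ W.Δ ∧ ¬ q ∣ L₀ := by
  rw [Rz, Finset.mem_filter, Nat.mem_primeFactors, Int.natCast_dvd]
  have : W.Δ.natAbs ≠ 0 := Int.natAbs_ne_zero.2 hΔ
  tauto

theorem prime_of_mem_Rz {W : WeierstrassCurve ℤ} {L₀ q : ℕ} (h : q ∈ Rz W L₀) : q.Prime :=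
  Nat.prime_of_mem_primeFactors (Finset.mem_filter.1 h).1

theorem not_dvd_of_mem_Rz {W : WeierstrassCurve ℤ} {L₀ q : ℕ} (h : q ∈ Rz W L₀) : ¬ q ∣ L₀ :=
  (Finset.mem_filter.1 h).2

theorem prod_Rz_ne_zero (W : WeierstrassCurve ℤ) (L₀ : ℕ) : ∏ q ∈ Rz W L₀, q ≠ 0 :=
  Finset.prod_ne_zero_iff.2 fun _ hq => (prime_of_mem_Rz hq).ne_zero

theorem finLevel_ne_zero (W : WeierstrassCurve ℤ) {L₀ : ℕ} (h : L₀ ≠ 0) : finLevel W L₀ ≠ 0 :=
  mul_ne_zero h (prod_Rz_ne_zero W L₀)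

/-- a product of distinct primes is squarefree. -/
theorem squarefree_prod_primes (s : Finset ℕ) (hs : ∀ q ∈ s, q.Prime) :
    Squarefree (∏ q ∈ s, q) := by
  classical
  induction s using Finset.induction_on with
  | empty => simp
  | insert a s ha ih =>
    rw [Finset.prod_insert ha]
    have hap : a.Prime := hs a (Finset.mem_insert_self a s)
    have hs' : ∀ q ∈ s, q.Prime := fun q hq => hs q (Finset.mem_insert_of_mem hq)
    refine (Nat.squarefree_mul_iff).2 ⟨?_, hap.squarefree, ih hs'⟩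
    refine Nat.Coprime.prod_right fun q hq => ?_
    exact (Nat.coprime_primes hap (hs' q hq)).2 fun h => ha (h ▸ hq)

theorem prime_dvd_prod_iff {s : Finset ℕ} (hs : ∀ q ∈ s, q.Prime) {r : ℕ} (hr : r.Prime) :
    r ∣ ∏ q ∈ s, q ↔ r ∈ s := by
  constructor
  · intro h
    obtain ⟨q, hq, hrq⟩ := (Prime.dvd_finset_prod_iff hr.prime _).1 h
    rwa [(Nat.prime_dvd_prime_iff_eq hr (hs q hq)).1 hrq]
  · exact fun h => Finset.dvd_prod_of_mem _ h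

/-- the shape of the final level. -/
theorem finLevel_shape (W : WeierstrassCurve ℤ) {L₀ M : ℕ} (hL : L₀ = M * 4) (hodd : Odd M)
    (hsq : Squarefree M) :
    ∃ M' : ℕ, finLevel W L₀ = M' * 4 ∧ Odd M' ∧ Squarefree M' := by
  have hpr : ∀ q ∈ Rz W L₀, q.Prime := fun q hq => prime_of_mem_Rz hq
  refine ⟨M * ∏ q ∈ Rz W L₀, q, by rw [finLevel, hL]; ring, ?_, ?_⟩
  · refine hodd.mul ?_
    rw [← Nat.not_even_iff_odd, even_iff_two_dvd, prime_dvd_prod_iff hpr Nat.prime_two]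
    intro h2
    exact not_dvd_of_mem_Rz h2 (hL ▸ Dvd.dvd.mul_left (by norm_num) M)
  · refine (Nat.squarefree_mul_iff).2 ⟨?_, hsq, squarefree_prod_primes _ hpr⟩
    refine Nat.Coprime.prod_right fun q hq => ?_
    refine (Nat.Coprime.symm ((hpr q hq).coprime_iff_not_dvd.2 fun hd => ?_))
    exact not_dvd_of_mem_Rz hq (hL ▸ hd.mul_right 4)

/-- `M * 4`, `M` odd and squarefree, is cube-free. -/
theorem not_cube_dvd_of_shape {M : ℕ} (hodd : Odd M) (hsq : Squarefree M) (q : ℕ)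
    (hq : q.Prime) : ¬ q ^ 3 ∣ M * 4 := by
  intro h
  by_cases hq2 : q = 2
  · subst hq2
    have h1 : 2 * 4 ∣ M * 4 := by simpa using h
    have h2 : 2 ∣ M := Nat.dvd_of_mul_dvd_mul_right (by norm_num) h1
    exact (Nat.not_even_iff_odd.2 hodd) (even_iff_two_dvd.2 h2)
  · have hc : Nat.Coprime (q ^ 3) 4 := by
      have : Nat.Coprime q 2 := (Nat.coprime_primes hq Nat.prime_two).2 hq2
      exact Nat.Coprime.pow_left 3 (by simpa using Nat.Coprime.pow_right 2 this)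
    have h1 : q ^ 3 ∣ M := hc.dvd_of_dvd_mul_right h
    have h2 : q * q ∣ M := (Dvd.intro q (by ring)).trans h1
    exact hq.one_lt.ne' (Nat.isUnit_iff.1 (hsq q h2))

/-- `M * 4`, `M` odd and squarefree, is not divisible by the square of an odd prime. -/
theorem not_sq_dvd_of_shape {M : ℕ} (hsq : Squarefree M) (q : ℕ) (hq : q.Prime) (hq2 : q ≠ 2) :
    ¬ q ^ 2 ∣ M * 4 := by
  intro h
  have hc : Nat.Coprime (q ^ 2) 4 := by
    have : Nat.Coprime q 2 := (Nat.coprime_primes hq Nat.prime_two).2 hq2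
    exact Nat.Coprime.pow_left 2 (by simpa using Nat.Coprime.pow_right 2 this)
  have h1 : q ^ 2 ∣ M := hc.dvd_of_dvd_mul_right h
  rw [pow_two] at h1
  exact hq.one_lt.ne' (Nat.isUnit_iff.1 (hsq q h1))

/-! ### the prime `2` -/

/-- the mixed case at `2` : `tr rbar0 (Frob₂)² = 9` (level raising congruence at `2`). -/
def Mixed2 {p : ℕ} (rbar0 : GQ →* M₂ (ZMod p)) : Prop :=
  ∃ A : ValuationSubring Qbar, A.LiesOverPrime 2 ∧ ∃ φ : GQ, A.IsFrobeniusAt φ 2 ∧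
    (rbar0 φ).trace ^ 2 = 9

/-- **[TYPE2]** (board #2662, ACK #2696) : occurrence of `θ` at the NON-rigid levels `M`, `M * 2` (`L₀ = M * 4`):
* `rbar0` unramified at `2`, mixed case ((5s), (3s)) : `θ` occurs at the odd level `M`;
* `rbar0` ramified at `2`, `p = 3` ((3r)) : `θ` occurs at the level `M * 2`.
Nothing is asked in the cases (5r), (5g), (3g). -/
def Occ2 (p : ℕ) (T : Finset ℕ) (θ : ℕ → ℤ) (rbar0 : GQ →* M₂ (ZMod p)) (L₀ : ℕ) : Prop :=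
  ∀ M : ℕ, L₀ = M * 4 →
    (¬ Ram rbar0 2 → Mixed2 rbar0 → ∀ [NeZero M], WS M p (↑T : Set ℕ) θ ≠ ⊥) ∧
    (Ram rbar0 2 → p = 3 → ∀ [NeZero (M * 2)], WS (M * 2) p (↑T : Set ℕ) θ ≠ ⊥)

/-! ### the base level -/

/-- the base level, without the condition at `2`. -/
structure BasePre (W : WeierstrassCurve ℤ) (p : ℕ) (T : Finset ℕ) (rbar0 : GQ →* M₂ (ZMod p))
    (L₀ : ℕ) [NeZero L₀] : Prop where
  shape : ∃ M : ℕ, L₀ = M * 4 ∧ Odd M ∧ Squarefree M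
  levT : ∀ r : ℕ, r.Prime → r ∣ L₀ * p → r ∈ T
  /-- (LOWER) -/
  ram : ∀ q : ℕ, q.Prime → q ∣ L₀ → q ≠ 2 → q ≠ p → Ram rbar0 q
  /-- (AT-P (G1)) -/
  goodp : W.IsGoodPrimeFor p → ¬ p ∣ L₀
  /-- (AT-P (Ma)) : if `p` divides the base level then `θ` does not occur at the level `L₀ / p` -/
  newp : ∀ (L₁ : ℕ) [NeZero L₁], L₀ = L₁ * p → WS L₁ p (↑T : Set ℕ) W.apOfModel = ⊥
  occ : WS L₀ p (↑T : Set ℕ) W.apOfModel ≠ ⊥

/-- the base level. -/
structure BasePlan (W : WeierstrassCurve ℤ) (p : ℕ) (T : Finset ℕ) (rbar0 : GQ →* M₂ (ZMod p))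
    (L₀ : ℕ) [NeZero L₀] : Prop extends BasePre W p T rbar0 L₀ where
  /-- (AT-2) -/
  occ2 : Occ2 p T W.apOfModel rbar0 L₀

/-! ### the contracts -/

/-- the contract of **LOWER** (= the conclusion of helper94's `Low.lower`, `ML/Low/Lower.lean`). -/
def LowerStmt : Prop :=
  ∀ (p : ℕ) [Fact p.Prime], (p = 3 ∨ p = 5) → ∀ (T : Finset ℕ) (θ : ℕ → ℤ)
    (rbar0 : GQ →* M₂ (ZMod p)), MCtx p T θ rbar0 → ∀ (M₁ : ℕ) [NeZero (M₁ * 4)], Odd M₁ →
    (∀ q : ℕ, q.Prime → ¬ q ^ 3 ∣ M₁) → ¬ p ^ 2 ∣ M₁ → (∀ q : ℕ, q.Prime → q ∣ M₁ → q ∈ T) →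
    WS (M₁ * 4) p (↑T : Set ℕ) θ ≠ ⊥ →
    ∃ (M : ℕ) (_ : NeZero (M * 4)), M ∣ M₁ ∧ Squarefree M ∧
      WS (M * 4) p (↑T : Set ℕ) θ ≠ ⊥ ∧ ∀ q : ℕ, q.Prime → q ∣ M → q ≠ p → Ram rbar0 q

/-- the contract of **AT-2**. -/
def Type2Stmt : Prop :=
  ∀ (W : WeierstrassCurve ℤ) (p : ℕ) [Fact p.Prime], Hyp59 W p → ∀ (T : Finset ℕ),
    (∀ r : ℕ, r.Prime → (r : ℤ) ∣ W.Δ → r ∈ T) →
    ∀ b : Module.Basis (Fin 2) (ZMod p) (TorsW W p), MCtx p T W.apOfModel (rbarB b) →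
    ∀ (L₀ : ℕ) [NeZero L₀], BasePre W p T (rbarB b) L₀ → Occ2 p T W.apOfModel (rbarB b) L₀

/-- the contract **BASE**. -/
def BaseStmt : Prop :=
  ∀ (W : WeierstrassCurve ℤ) (p : ℕ) [Fact p.Prime], Hyp59 W p → ∀ (T : Finset ℕ),
    (∀ r : ℕ, r.Prime → (r : ℤ) ∣ W.Δ → r ∈ T) →
    ∀ b : Module.Basis (Fin 2) (ZMod p) (TorsW W p), MCtx p T W.apOfModel (rbarB b) →
    ∀ (M₁ : ℕ) [NeZero (M₁ * 4)], Odd M₁ → (∀ q : ℕ, q.Prime → ¬ q ^ 3 ∣ M₁) → ¬ p ^ 2 ∣ M₁ →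
    (∀ q : ℕ, q.Prime → q ∣ M₁ → q ∈ T) → (W.IsGoodPrimeFor p → ¬ p ∣ M₁) →
    WS (M₁ * 4) p (↑T : Set ℕ) W.apOfModel ≠ ⊥ →
    ∃ (L₀ : ℕ) (_ : NeZero L₀), BasePlan W p T (rbarB b) L₀

/-- the contract **LIFT**. -/
def LiftStmt : Prop :=
  ∀ (W : WeierstrassCurve ℤ) (p : ℕ) [Fact p.Prime], Hyp59 W p → ∀ (T : Finset ℕ),
    (∀ r : ℕ, r.Prime → (r : ℤ) ∣ W.Δ → r ∈ T) →
    ∀ b : Module.Basis (Fin 2) (ZMod p) (TorsW W p), MCtx p T W.apOfModel (rbarB b) →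
    ∀ (L₀ : ℕ) [NeZero L₀], BasePlan W p T (rbarB b) L₀ →
    ∀ (L : ℕ) [NeZero L], L = finLevel W L₀ → ModStmt W p L T

end Fermat.Agent.ML
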