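import Fermat.Agent.ML.Main.Lift1
import Fermat.Agent.ML.Gen.Out
import Fermat.Agent.ML.Rbar.Hyp
import Fermat.Agent.ML.Tower.Def

/-!
# ML / Main / Cell : layer 2b of S59 : CELLS.   `BaseCellStmt → StepCellStmt → FinCellStmt → EigTopStmt`

Everything between two stages is expressed by the GALOIS ACTION and by CARDINALITIES only (no ring survives from one stage to the next):

* local conditions on a set `G` of points of a `G_ℚ`-module : `LocUr q G`, `LocUnip q G`, `LocSt q ε G` (Steinberg type, sign `ε`),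
  `LocPSt p e k G` (strictly ordinary at `p`, sign character `e`);
* `InBox p qv a x` : `p^a x = 0` and `z(τ)^a x = 0` for ALL `τ` in the inertia groups at the Taylor-Wiles primes (`z(τ) = τ + τ⁻¹ - 2`);
* `IsCell .. Lc t qv a P G` : `G ≤ thetaPart (Lc ∏ qv²)`, Galois stable, in the box `a`, of the type of `W` at the primes of `P` (the primes
  already RAISED), unramified at the primes not yet raised;
* `CellBig .. P` : there is a cell with at least `p^(m^(t+1))` elements;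
* `Frm` : the numerical frame `(t, F, C₀; a, m, n, K, qv)`;  monotone in `(F, C₀)`;
* the three contracts and the assembly `eigTop_of_cells`.
-/

set_option autoImplicit false

noncomputable section

open AlgebraicCurve ModularCurve

namespace Fermat.Agent.ML

open Fermat.Agent.RIB Fermat.Agent.RIB.Rho Fermat.Agent.ML.ESide Fermat.Agent.S56 Fermat.Agent.S56.Flat

local notation "Qbar" => AlgebraicClosure ℚ
local notation "GQ" => (AlgebraicClosure ℚ ≃ₐ[ℚ] AlgebraicClosure ℚ)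
local notation "M₂" => Matrix (Fin 2) (Fin 2)

/-! ### local conditions, in terms of the Galois action -/

section Loc

variable {X : Type*} [AddCommGroup X] [SMul GQ X]

/-- unramified at `q`. -/
def LocUr (q : ℕ) (G : Set X) : Prop :=
  ∀ A : ValuationSubring Qbar, A.LiesOverPrime q → ∀ τ ∈ A.inertiaSubgroupIn ℚ, ∀ x ∈ G, τ • x = x

/-- inertia at `q` is unipotent : `(τ' - 1)(τ - 1) = 0`. -/
def LocUnip (q : ℕ) (G : Set X) : Prop :=
  ∀ A : ValuationSubring Qbar, A.LiesOverPrime q → ∀ τ ∈ A.inertiaSubgroupIn ℚ,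
    ∀ τ' ∈ A.inertiaSubgroupIn ℚ, ∀ x ∈ G, τ' • (τ • x - x) = τ • x - x

/-- Steinberg type at `q` with the sign `ε` : `(σ - εq)(τ - 1) = 0`, `(τ - 1)(σ - ε) = 0`, `(σ - εq)(σ - ε) = 0`. -/
def LocSt (q : ℕ) (ε : ℤ) (G : Set X) : Prop :=
  ∀ A : ValuationSubring Qbar, A.LiesOverPrime q → ∀ σ : GQ, A.IsFrobeniusAt σ q →
    ∀ τ ∈ A.inertiaSubgroupIn ℚ, ∀ x ∈ G,
      σ • (τ • x - x) = (ε * q) • (τ • x - x) ∧ τ • (σ • x - ε • x) = σ • x - ε • x ∧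
      σ • (σ • x - ε • x) = (ε * q) • (σ • x - ε • x)

/-- strictly ordinary at `p` (at the place `Ap p`), on `p^k`-torsion : `(s₁ - χ(s₁) e(s₁))(s₂ - e(s₂)) = 0` on `D_p`. -/
def LocPSt (p : ℕ) [Fact p.Prime] (e : GQ → ℤ) (k : ℕ) (G : Set X) : Prop :=
  ∀ s₁ ∈ (Ap p).decompositionSubgroup ℚ, ∀ s₂ ∈ (Ap p).decompositionSubgroup ℚ, ∀ x ∈ G,
    ∀ a : ℕ, (∀ μ : Qbar, μ ^ (p ^ k) = 1 → s₁ μ = μ ^ a) →
      s₁ • (s₂ • x - e s₂ • x) = ((a : ℤ) * e s₁) • (s₂ • x - e s₂ • x)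

/-- `z(τ) = τ + τ⁻¹ - 2`. -/
def zOp (τ : GQ) (x : X) : X := τ • x + τ⁻¹ • x - (2 : ℕ) • x

/-- the box `(p^a, z^a)`. -/
def InBox (p : ℕ) {t : ℕ} (qv : Fin t → Nat.Primes) (a : ℕ) (x : X) : Prop :=
  p ^ a • x = 0 ∧ ∀ i : Fin t, ∀ A : ValuationSubring Qbar, A.LiesOverPrime ((qv i : Nat.Primes) : ℕ) →
    ∀ τ ∈ A.inertiaSubgroupIn ℚ, (zOp τ)^[a] x = 0

end Loc

/-! ### the `E`-side signs -/

/-- `eps q` is the sign of `W` at the bad primes `q ≠ p`   ([E-ST]). -/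
def SignE (W : WeierstrassCurve ℤ) (p : ℕ) (eps : ℕ → ℤ) : Prop :=
  ∀ q : ℕ, q.Prime → q ≠ p → (q : ℤ) ∣ W.Δ → (eps q = 1 ∨ eps q = -1) ∧
    ∀ K : ℕ, LocSt q (eps q) {x : S58.EQ W | p ^ K • x = 0}

/-- `eP` is the sign character of `W` at `p`   ([E-ORD]). -/
def SignP (W : WeierstrassCurve ℤ) (p : ℕ) [Fact p.Prime] (eP : GQ → ℤ) : Prop :=
  (∀ s, eP s = 1 ∨ eP s = -1) ∧ (∀ s ∈ (Ap p).inertiaSubgroupIn ℚ, eP s = 1) ∧
  (∀ s ∈ (Ap p).decompositionSubgroup ℚ, ∀ s' ∈ (Ap p).decompositionSubgroup ℚ,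
    eP (s * s') = eP s * eP s') ∧
  ∀ K : ℕ, LocPSt p eP K {x : S58.EQ W | p ^ K • x = 0}

/-! ### the static context -/

/-- the static data of LIFT. -/
structure LCtx (W : WeierstrassCurve ℤ) (p : ℕ) [Fact p.Prime] (T : Finset ℕ)
    (b : Module.Basis (Fin 2) (ZMod p) (TorsW W p)) (L₀ : ℕ) [NeZero L₀] (eps : ℕ → ℤ)
    (eP : GQ → ℤ) : Prop where
  H : Hyp59 W p
  hbadT : ∀ r : ℕ, r.Prime → (r : ℤ) ∣ W.Δ → r ∈ T
  C : MCtx p T W.apOfModel (rbarB b)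
  BP : BasePlan W p T (rbarB b) L₀
  sgn : SignE W p eps
  sgnP : (p : ℤ) ∣ W.Δ → SignP W p eP

open Classical in
/-- the set of the primes to be raised: the bad primes of `W` which do not divide `L₀`, and `2` if `W` is bad at `2` and `rbar0` is
unramified at `2`. -/
def Pfin (W : WeierstrassCurve ℤ) {p : ℕ} (rbar0 : GQ →* M₂ (ZMod p)) (L₀ : ℕ) : Finset ℕ :=
  W.Δ.natAbs.primeFactors.filter fun q => ¬ q ∣ L₀ ∨ (q = 2 ∧ ¬ Ram rbar0 2)

/-- the level of a cell (the prime `2` does not change the level: `4 ∣ L₀`). -/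
def cellLevel (L₀ : ℕ) (P : Finset ℕ) : ℕ := L₀ * ∏ q ∈ P.erase 2, q

/-! ### cells -/

/-- a cell. -/
structure IsCell (p : ℕ) [Fact p.Prime] (T : Finset ℕ) (θ : ℕ → ℤ) (rbar0 : GQ →* M₂ (ZMod p))
    (eps : ℕ → ℤ) (eP : GQ → ℤ) (Lc : ℕ) [NeZero Lc] {t : ℕ} (qv : Fin t → Nat.Primes) (a : ℕ)
    (P : Finset ℕ) (G : AddSubgroup (JZero (lvl Lc (extP qv) t))) : Prop where
  le : G ≤ thetaPart (lvl Lc (extP qv) t) p (↑(cutS T qv) : Set ℕ) θ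
  gal : ∀ g : GQ, ∀ x ∈ G, g • x ∈ G
  box : ∀ x ∈ G, InBox p qv a x
  /-- `G` is new at all the Taylor-Wiles primes -/
  new : ∀ x ∈ G, ∀ i : Fin t, Tower.IsNewAt (lvl Lc (extP qv) t) ((qv i : Nat.Primes) : ℕ) x
  /-- the raised primes -/
  st : ∀ q ∈ P, q ≠ p → LocSt q (eps q) (G : Set (JZero (lvl Lc (extP qv) t))) ∧
    LocUnip q (G : Set (JZero (lvl Lc (extP qv) t)))
  /-- the primes of `T` at which `rbar0` is unramified and which are not raised (a condition at `2` only; NOT the Taylor-Wiles primes) -/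
  ur : ∀ q : ℕ, q.Prime → q ∈ T → q ∉ P → q ≠ p → ¬ Ram rbar0 q →
    LocUr q (G : Set (JZero (lvl Lc (extP qv) t)))
  /-- the primes at which `rbar0` is ramified (a condition at `2` only) -/
  unip : ∀ q : ℕ, q.Prime → q ≠ p → Ram rbar0 q →
    LocUnip q (G : Set (JZero (lvl Lc (extP qv) t)))
  /-- at `p`, if `p` divides the level (otherwise: flat, automatic) -/
  atp : p ∣ Lc → LocPSt p eP a (G : Set (JZero (lvl Lc (extP qv) t)))

/-- there is a BIG cell in the state `P`. -/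
def CellBig (p : ℕ) [Fact p.Prime] (T : Finset ℕ) (θ : ℕ → ℤ) (rbar0 : GQ →* M₂ (ZMod p))
    (eps : ℕ → ℤ) (eP : GQ → ℤ) (L₀ : ℕ) {t : ℕ} (qv : Fin t → Nat.Primes) (a m : ℕ)
    (P : Finset ℕ) : Prop :=
  ∀ (Lc : ℕ) [NeZero Lc], Lc = cellLevel L₀ P →
    ∃ G : AddSubgroup (JZero (lvl Lc (extP qv) t)), IsCell p T θ rbar0 eps eP Lc qv a P G ∧
      p ^ (m ^ (t + 1)) ≤ Nat.card G

/-! ### frames -/

/-- the numerical frame. -/
structure Frm (p : ℕ) [Fact p.Prime] (hp2 : p ≠ 2) (T : Finset ℕ) (θ : ℕ → ℤ)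
    (rbar0 : GQ →* M₂ (ZMod p)) (t F C₀ a m n K : ℕ) (qv : Fin t → Nat.Primes) : Prop where
  ha : (t + 1) * m + F ≤ a
  hC : C₀ * (a + 1) ^ t < m ^ (t + 1)
  hn : 2 * a ≤ n
  hK : a ≤ K
  tw : ∀ L₁ : ℕ, (∀ r : ℕ, r.Prime → r ∣ L₁ * p → r ∈ T) → 4 ∣ L₁ → MTW p T θ L₁ t n qv
  gen : TWGenL p (two_ne_zero_kM hp2) (mapK (kM p) rbar0) (toP T) t qv

theorem Frm.mono {p : ℕ} [Fact p.Prime] {hp2 : p ≠ 2} {T : Finset ℕ} {θ : ℕ → ℤ}
    {rbar0 : GQ →* M₂ (ZMod p)} {t F C₀ a m n K : ℕ} {qv : Fin t → Nat.Primes}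
    (h : Frm p hp2 T θ rbar0 t F C₀ a m n K qv) {F' C₀' : ℕ} (hF : F' ≤ F) (hC : C₀' ≤ C₀) :
    Frm p hp2 T θ rbar0 t F' C₀' a m n K qv where
  ha := by have := h.ha; omega
  hC := lt_of_le_of_lt (Nat.mul_le_mul_right _ hC) h.hC
  hn := h.hn
  hK := h.hK
  tw := h.tw
  gen := h.gen

/-- frames exist. -/
theorem MCtx.exists_frm {p : ℕ} [Fact p.Prime] {T : Finset ℕ} {θ : ℕ → ℤ}
    {rbar0 : GQ →* M₂ (ZMod p)} (C : MCtx p T θ rbar0) (hp : p = 3 ∨ p = 5) :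
    ∃ t : ℕ, ∀ F C₀ : ℕ, ∃ (a m n K : ℕ) (qv : Fin t → Nat.Primes),
      Frm p C.hp2 T θ rbar0 t F C₀ a m n K qv := by
  obtain ⟨t, ht⟩ := C.exists_tw (C.irr2 hp)
  refine ⟨t, fun F C₀ => ?_⟩
  set m := F + C₀ * (t + 2) ^ t + 1 with hm
  set a := (t + 1) * m + F with ha
  obtain ⟨qv, -, h1, h2⟩ := ht (2 * a) ∅
  refine ⟨a, m, 2 * a, a, qv, ⟨le_rfl, ?_, le_rfl, le_rfl, h1, h2⟩⟩
  have h3 : a + 1 ≤ (t + 2) * m := by
    have h5 : F + 1 ≤ m := by rw [hm]; omega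
    have h6 : (t + 2) * m = (t + 1) * m + m := by ring
    rw [ha, h6]
    omega
  have h4 : (a + 1) ^ t ≤ (t + 2) ^ t * m ^ t := by
    rw [← mul_pow]
    exact Nat.pow_le_pow_left h3 t
  have hm0 : 0 < m := by omega
  calc C₀ * (a + 1) ^ t ≤ C₀ * ((t + 2) ^ t * m ^ t) := Nat.mul_le_mul_left _ h4
    _ = (C₀ * (t + 2) ^ t) * m ^ t := by ring
    _ < m * m ^ t := Nat.mul_lt_mul_of_pos_right (by omega) (pow_pos hm0 t)
    _ = m ^ (t + 1) := by rw [pow_succ']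

/-! ### the contracts -/

/-- **(E-SIGN)** : the signs exist. -/
def ESignStmt : Prop :=
  ∀ (W : WeierstrassCurve ℤ) (p : ℕ) [Fact p.Prime], Hyp59 W p →
    (∃ eps : ℕ → ℤ, SignE W p eps) ∧ ((p : ℤ) ∣ W.Δ → ∃ eP : GQ → ℤ, SignP W p eP)

/-- **(C-BASE)** : a big cell at the base level, nothing raised.   (TWFREE + AT-2 + AT-P) -/
def BaseCellStmt : Prop :=
  ∀ (W : WeierstrassCurve ℤ) (p : ℕ) [Fact p.Prime] (T : Finset ℕ)
    (b : Module.Basis (Fin 2) (ZMod p) (TorsW W p)) (L₀ : ℕ) [NeZero L₀] (eps : ℕ → ℤ)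
    (eP : GQ → ℤ) (X : LCtx W p T b L₀ eps eP) (t : ℕ),
    ∃ F₀ C₀ : ℕ, ∀ (a m n K : ℕ) (qv : Fin t → Nat.Primes),
      Frm p X.C.hp2 T W.apOfModel (rbarB b) t F₀ C₀ a m n K qv →
      CellBig p T W.apOfModel (rbarB b) eps eP L₀ qv a m ∅

/-- **(C-STEP)** : raising one more prime `q`; the primes are raised in the order of a rank function `rk` chosen by the prover.
(RAISE + HARD + AT-2 (N2) + AT-P (Mb)) -/
def StepCellStmt : Prop :=
  ∀ (W : WeierstrassCurve ℤ) (p : ℕ) [Fact p.Prime] (T : Finset ℕ)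
    (b : Module.Basis (Fin 2) (ZMod p) (TorsW W p)) (L₀ : ℕ) [NeZero L₀] (eps : ℕ → ℤ)
    (eP : GQ → ℤ) (X : LCtx W p T b L₀ eps eP) (t : ℕ),
    ∃ rk : ℕ → ℕ, ∀ (P : Finset ℕ) (q : ℕ), P ⊆ Pfin W (rbarB b) L₀ → q ∈ Pfin W (rbarB b) L₀ →
      q ∉ P → (∀ q' ∈ P, rk q' ≤ rk q) → (∀ q' ∈ Pfin W (rbarB b) L₀, q' ∉ P → rk q ≤ rk q') →
      ∃ F₀ C₀ : ℕ, ∀ (a m n K : ℕ) (qv : Fin t → Nat.Primes),
        Frm p X.C.hp2 T W.apOfModel (rbarB b) t F₀ C₀ a m n K qv →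
        CellBig p T W.apOfModel (rbarB b) eps eP L₀ qv a m P →
        CellBig p T W.apOfModel (rbarB b) eps eP L₀ qv a m (insert q P)

/-- **(C-FIN)** : a big cell of the type of `W` contains eigenclasses of large order.   (COUNT-LIFT at `x_W`) -/
def FinCellStmt : Prop :=
  ∀ (W : WeierstrassCurve ℤ) (p : ℕ) [Fact p.Prime] (T : Finset ℕ)
    (b : Module.Basis (Fin 2) (ZMod p) (TorsW W p)) (L₀ : ℕ) [NeZero L₀] (eps : ℕ → ℤ)
    (eP : GQ → ℤ) (X : LCtx W p T b L₀ eps eP) (t k : ℕ),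
    ∃ F₀ C₀ : ℕ, ∀ (a m n K : ℕ) (qv : Fin t → Nat.Primes),
      Frm p X.C.hp2 T W.apOfModel (rbarB b) t F₀ C₀ a m n K qv →
      ∀ (L : ℕ) [NeZero L], L = cellLevel L₀ (Pfin W (rbarB b) L₀) →
      ∀ G : AddSubgroup (JZero (lvl L (extP qv) t)),
        IsCell p T W.apOfModel (rbarB b) eps eP L qv a (Pfin W (rbarB b) L₀) G →
        p ^ (m ^ (t + 1)) ≤ Nat.card G →
        ∀ B : Module.Basis (Fin 2) (ZMod (p ^ (K + 1))) (TorsW W (p ^ (K + 1))),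
          (∀ i, redK W p K (B i) = b i) → Rho.EK (p ^ (K + 1)) T W.apOfModel (rEB B) →
          (∀ g, (rEB B g).map (castK p K) = rbarB b g) →
          ∃ x ∈ G, IsEig (fun g => (rEB B g).trace) x ∧ p ^ k • x ≠ 0

end Fermat.Agent.ML
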