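import Fermat.Agent.ML.ESide.StMat
import Fermat.Agent.ML.Rho.Bridge
import Fermat.Agent.ML.Raise.St2
import Fermat.Agent.ML.Gen.Loc
import Fermat.Agent.SS.Mod.S34Wire
import Fermat.Agent.SS.Mod.CuspOrdC
import Fermat.Agent.SS.Top35.SMO

/-!
# ML / Main / LiftRho : ONE ring at the top of the tower, and the local shape of `ρ`

`N` the top level, `m = p^(K+1)`, `X ≤ J₀(N)[m]` a `G_ℚ`-stable subgroup of the `θ`-part, `rE = rEB B` (`B` a basis of `W[m]` lifting the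
basis `b` of `W[p]`), `H : Rho.IsRhoK N m X (rEB B) πE ρ Φ`.

* `TopCtx` : the standing hypotheses;   `pi0 πE : R →+* ZMod p`;
* `TopCtx.lift`, `det_int`, `det_inertia`, `det_frob`, `tr_int` : global shape (fields `lift det tr` of (GEN));
* `TopCtx.unram`, `lev` : unramified outside `N p Δ`;
* `TopCtx.sq_zero`, `trace_inertia` : `q ‖ N`, `q ≠ p` : `(ρ τ - 1)² = 0`, `tr ρ τ = 2`;
* `TopCtx.st2` : `q ‖ N = M q`, `M` rigid, `q ∣ Δ` : `(ρ φ² - q²)(ρ τ - 1) = 0`;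
* `TopCtx.piE_trace`, `piE_frob`, `piE_c`, `piE_z` : the point `x_W = πE` : `πE (tr ρ φ_r) = a_r`, `c_q ∈ ker πE`, `z_l ∈ ker πE`;
* `TopCtx.hecke` : `tr ρ(φ_r)` acts on `X` as `T_r`;  `TopCtx.eigen` : `X[ker πE]` consists of eigenvectors with eigenvalues `a_r(W)`;
* `TopCtx.hasFlat_mapRep` : flatness at `p ∤ N`, `W` good at `p`;
* `exists_topRho` : existence of `(R, πE, ρ, Φ)`.
-/

set_option autoImplicit false
set_option linter.unusedSectionVars false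

noncomputable section

open ModularCurve Module

namespace Fermat.Agent.ML.Lift

open Fermat.Agent.GAL Fermat.Agent.GAL.PC Fermat.Agent.RIB Fermat.Agent.RIB.Rho
  Fermat.Agent.ML.ESide Fermat.Agent.ML.Rho
open CFT (levS)

local notation "Qbar" => AlgebraicClosure ℚ
local notation "GQ" => (AlgebraicClosure ℚ ≃ₐ[ℚ] AlgebraicClosure ℚ)
local notation "M₂" => Matrix (Fin 2) (Fin 2)

/-- the standing hypotheses at the top of the tower. -/
structure TopCtx (W : WeierstrassCurve ℤ) (p : ℕ) [Fact p.Prime]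
    (b : Module.Basis (Fin 2) (ZMod p) (TorsW W p)) (K : ℕ)
    (B : Module.Basis (Fin 2) (ZMod (p ^ (K + 1))) (TorsW W (p ^ (K + 1)))) (N : ℕ) [NeZero N]
    (X : AddSubgroup (JZero N)) : Prop where
  hΔ : W.Δ ≠ 0
  hss : W.IsSemistableModel
  hp2 : p ≠ 2
  hirr : W.ModRepIsIrreducible p
  hB : ∀ i, redK W p K (B i) = b i
  hXm : ∀ x ∈ X, p ^ (K + 1) • x = 0

variable {W : WeierstrassCurve ℤ} {p : ℕ} [Fact p.Prime]
  {b : Module.Basis (Fin 2) (ZMod p) (TorsW W p)} {K : ℕ}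
  {B : Module.Basis (Fin 2) (ZMod (p ^ (K + 1))) (TorsW W (p ^ (K + 1)))} {N : ℕ} [NeZero N]
  {X : AddSubgroup (JZero N)} {R : Type} [CommRing R] [Algebra (ZMod (p ^ (K + 1))) R]
  [Module R ↥X] {πE : R →ₐ[ZMod (p ^ (K + 1))] ZMod (p ^ (K + 1))} {ρ : GQ →* M₂ R}
  {Φ : M₂ R →ₐ[R] Module.End R ↥X}

/-- the residual point. -/
def pi0 (πE : R →ₐ[ZMod (p ^ (K + 1))] ZMod (p ^ (K + 1))) : R →+* ZMod p :=
  (castK p K).comp (πE : R →+* ZMod (p ^ (K + 1)))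

theorem pi0_apply (a : R) : pi0 πE a = castK p K (πE a) := rfl

/-- `(A - 1)² = 0`, `det A = 1` `⟹ tr A = 2`  (any commutative ring). -/
theorem trace_eq_two_of_sq_zero_det {Λ : Type*} [CommRing Λ] {A : M₂ Λ}
    (h : (A - 1) * (A - 1) = 0) (hdet : A.det = 1) : A.trace = 2 := by
  have h00 := congrFun (congrFun h 0) 0
  have h01 := congrFun (congrFun h 0) 1
  simp only [Matrix.mul_apply, Fin.sum_univ_two, Matrix.sub_apply, Matrix.one_apply_eq,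
    Matrix.one_apply_ne (show (0 : Fin 2) ≠ 1 by decide),
    Matrix.one_apply_ne (show (1 : Fin 2) ≠ 0 by decide), sub_zero, Matrix.zero_apply] at h00 h01
  rw [Matrix.det_fin_two] at hdet
  rw [Matrix.trace_fin_two]
  linear_combination (A 1 1) * h00 - (A 1 0) * h01 + (A 1 1 - (A 0 0 + A 1 1 - 2)) * hdet

/-- `c.val • y = r • y` if `c = r` in `ZMod m` and `m • y = 0`. -/
theorem val_nsmul_eq {G : Type*} [AddCommGroup G] {m : ℕ} [NeZero m] {c : ZMod m} {r : ℕ}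
    (hc : c = (r : ZMod m)) {y : G} (hy : m • y = 0) : c.val • y = r • y := by
  rw [hc, ZMod.val_natCast]
  conv_rhs => rw [← Nat.mod_add_div r m, add_nsmul, mul_nsmul, hy, smul_zero, add_zero]

/-- `c.val • y = a • y` if `c = a` in `ZMod m`, `a : ℤ`, and `m • y = 0`. -/
theorem val_nsmul_eq_int {G : Type*} [AddCommGroup G] {m : ℕ} [NeZero m] {c : ZMod m} {a : ℤ}
    (hc : c = ((a : ℤ) : ZMod m)) {y : G} (hy : m • y = 0) : c.val • y = a • y := by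
  have h1 : (((c.val : ℕ) : ℤ) : ZMod m) = ((a : ℤ) : ZMod m) := by
    rw [Int.cast_natCast, ZMod.natCast_zmod_val, hc]
  obtain ⟨k, hk⟩ := (ZMod.intCast_eq_intCast_iff_dvd_sub _ _ m).1 h1
  have h2 : a = (c.val : ℤ) + (m : ℤ) * k := by rw [← hk]; ring
  rw [h2, add_zsmul, natCast_zsmul, mul_comm, mul_zsmul, natCast_zsmul, hy, smul_zero, add_zero]

namespace TopCtx

variable (C : TopCtx W p b K B N X) (H : Fermat.Agent.ML.Rho.IsRhoK N (p ^ (K + 1)) X (rEB B) πE ρ Φ)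

include C H

theorem ptors {x : JZero N} (hx : x ∈ X) : ∃ n : ℕ, p ^ n • x = 0 := ⟨K + 1, C.hXm x hx⟩

theorem odd : Odd (p ^ (K + 1)) := odd_pow_of_ne_two C.hp2 _

theorem coprime {q : ℕ} (hq : q.Prime) (hqp : q ≠ p) : Nat.Coprime (p ^ (K + 1)) q :=
  Nat.Coprime.pow_left _ ((Nat.coprime_primes Fact.out hq).2 (Ne.symm hqp))

/-- field `lift` of (GEN). -/
theorem lift (σ : GQ) : (ρ σ).map (pi0 πE) = rbarB b σ := by
  have h : (ρ σ).map (pi0 πE) = ((ρ σ).map πE).map (castK p K) := by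
    ext i j
    rfl
  rw [h, H.toE, rEB_map_cast b B C.hB]

/-- field `det` of (GEN). -/
theorem det_int (σ : GQ) : ∃ c : ℤ, (ρ σ).det = (c : R) := by
  refine ⟨((chiM (p ^ (K + 1)) σ).val : ℤ), ?_⟩
  rw [H.det]
  conv_lhs => rw [← ZMod.natCast_zmod_val (chiM (p ^ (K + 1)) σ)]
  rw [map_natCast, Int.cast_natCast]

theorem det_inertia {q : ℕ} (hq : q.Prime) (hqp : q ≠ p) {A : ValuationSubring Qbar}
    (hA : A.LiesOverPrime q) {σ : GQ} (hσ : σ ∈ A.inertiaSubgroupIn ℚ) : (ρ σ).det = 1 := by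
  rw [H.det, chiM_apply, cycloChar_of_mem_inertia' _ hq (C.coprime H hq hqp).symm hA hσ,
    Units.val_one, map_one]

theorem det_frob {q : ℕ} (hq : q.Prime) (hqp : q ≠ p) {A : ValuationSubring Qbar}
    (hA : A.LiesOverPrime q) {φ : GQ} (hφ : A.IsFrobeniusAt φ q) : (ρ φ).det = (q : R) := by
  rw [H.det, chiM_apply, cycloChar_of_isFrobeniusAt' _ hq (C.coprime H hq hqp).symm hA hφ,
    map_natCast]

/-- field `tr` of (GEN). -/
theorem tr_int : Algebra.adjoin ℤ (Set.range fun σ : GQ => (ρ σ).trace) = ⊤ :=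
  adjoin_int_eq_top_of_zmod H.tr

theorem eq_one_of {σ : GQ} (hX : ∀ x ∈ X, σ • x = x) (hE : rEB B σ = 1) : ρ σ = 1 :=
  H.rhoAct.eq_one (H.gal_eq_self hX hE)

/-- `ρ` is unramified outside `N p Δ`. -/
theorem unram {q : ℕ} (hq : q.Prime) (hqN : ¬ q ∣ N * p) (hgood : W.IsGoodPrimeFor q)
    {A : ValuationSubring Qbar} (hA : A.LiesOverPrime q) {σ : GQ}
    (hσ : σ ∈ A.inertiaSubgroupIn ℚ) : ρ σ = 1 := by
  have hqp : q ≠ p := fun h => hqN (h ▸ Dvd.intro_left N rfl)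
  exact C.eq_one_of H (fun x hx => (SS.es_all N p).1 q hq hqN A hA σ hσ x (C.ptors H hx))
    (rEB_unram B (C.odd H) hq (C.coprime H hq hqp) hgood A hA hσ)

theorem level : ∃ F : IntermediateField ℚ Qbar, FiniteDimensional ℚ F ∧
    ∀ σ : GQ, (∀ x ∈ F, σ x = x) → ∀ v : VJ X (rEB B) πE ρ Φ, σ • v = v :=
  H.level C.hXm (rEB_cont B (C.odd H))

theorem cont : GaloisFactorsThroughFiniteLevel ρ := H.rhoAct.cont (C.level H)

/-- field `lev` of (GEN). -/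
theorem lev (T : Finset Nat.Primes)
    (hT : ∀ q : Nat.Primes, q ∉ T → ¬ (q : ℕ) ∣ N * p ∧ W.IsGoodPrimeFor q) :
    ∃ U ∈ (levS T).carrier, ∀ s ∈ U, ρ s = 1 :=
  Fermat.Agent.S56.exists_level_of_unram ρ (C.cont H) T fun q hq _ hA _ hσ =>
    C.unram H q.2 (hT q hq).1 (hT q hq).2 hA hσ

/-- unipotency of inertia at `q ‖ N`, `q ≠ p`. -/
theorem sq_zero {q : ℕ} (hq : q.Prime) (hqp : q ≠ p) (hqN : q ∣ N) (hq2 : ¬ q ^ 2 ∣ N)
    {A : ValuationSubring Qbar} (hA : A.LiesOverPrime q) {τ : GQ}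
    (hτ : τ ∈ A.inertiaSubgroupIn ℚ) : (ρ τ - 1) * (ρ τ - 1) = 0 := by
  have hun := SS.unip_of_cuspOrd (fun M q _ _ _ => SS.cuspOrd M q) hq (Fact.out : p.Prime) hqp
    hqN hq2
  refine H.rhoAct.sq_zero_of_unip (H.gal_unip (fun x hx => ?_)
    (rEB_unip B C.hΔ (C.odd H) hq (C.coprime H hq hqp) (C.hss q hq) A hA hτ hτ))
  have h := hun A hA τ hτ x (C.ptors H hx)
  rw [smul_sub, sub_eq_sub_iff_add_eq_add, ← sub_eq_zero, ← h, two_nsmul]
  abel

/-- `tr ρ τ = 2` for `τ` in the inertia group at `q ‖ N`, `q ≠ p`. -/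
theorem trace_inertia {q : ℕ} (hq : q.Prime)
    (hqp : q ≠ p) (hqN : q ∣ N) (hq2 : ¬ q ^ 2 ∣ N) {A : ValuationSubring Qbar}
    (hA : A.LiesOverPrime q) {τ : GQ} (hτ : τ ∈ A.inertiaSubgroupIn ℚ) : (ρ τ).trace = 2 :=
  trace_eq_two_of_sq_zero_det (C.sq_zero H hq hqp hqN hq2 hA hτ) (C.det_inertia H hq hqp hA hτ)

/-! ### the point `x_W = πE` -/

theorem piE_trace (g : GQ) : πE (ρ g).trace = (rEB B g).trace := by
  rw [← H.toE g, Matrix.trace_fin_two, Matrix.trace_fin_two, map_add]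
  rfl

/-- `πE (tr ρ φ_r) = a_r(W)`. -/
theorem piE_frob {r : ℕ} (hr : r.Prime) (hgood : W.IsGoodPrimeFor r) (hrp : r ≠ p)
    {A : ValuationSubring Qbar} (hA : A.LiesOverPrime r) {φ : GQ} (hφ : A.IsFrobeniusAt φ r) :
    πE (ρ φ).trace = ((W.apOfModel r : ℤ) : ZMod (p ^ (K + 1))) := by
  rw [C.piE_trace H]
  exact (rEB_frob b B C.hB C.hΔ C.hp2 C.hirr hr hgood hrp A hA φ hφ).1

/-- `z_σ = tr ρ σ - 2 ∈ ker πE` if `σ` acts trivially on `W[m]`. -/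
theorem piE_z {σ : GQ} (hσ : rEB B σ = 1) : πE ((ρ σ).trace - 2) = 0 := by
  rw [map_sub, C.piE_trace H, hσ, map_ofNat]
  simp

/-- `c_q = tr ρ φ - ε (q+1) ∈ ker πE` at a prime `q ≠ p` of multiplicative reduction. -/
theorem exists_piE_c {q : ℕ} (hq : q.Prime) (hqp : q ≠ p) (hqΔ : (q : ℤ) ∣ W.Δ)
    (A : ValuationSubring Qbar) (hA : A.LiesOverPrime q) :
    ∃ ε : ℤ, (ε = 1 ∨ ε = -1) ∧ ∀ φ : GQ, A.IsFrobeniusAt φ q →
      StShape q ε (A.inertiaSubgroupIn ℚ : Set GQ) (rEB B) φ ∧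
      πE ((ρ φ).trace - ((ε * (q + 1) : ℤ) : R)) = 0 := by
  obtain ⟨ε, hε, h⟩ := exists_steinberg_rEB hq C.hΔ hqΔ (C.hss q hq hqΔ) A hA
  refine ⟨ε, hε, fun φ hφ => ?_⟩
  have hqm : ¬ q ∣ p ^ (K + 1) := fun hd =>
    hqp ((Nat.prime_dvd_prime_iff_eq hq Fact.out).1 (hq.dvd_of_dvd_pow hd))
  have hS := h _ (C.odd H) hqm B φ hφ
  refine ⟨hS, ?_⟩
  have hdet : (rEB B φ).det = ((q : ℕ) : ZMod (p ^ (K + 1))) := by
    rw [rEB_det b B C.hB C.hΔ C.hp2 C.hirr, chiM_apply]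
    exact cycloChar_of_isFrobeniusAt' _ hq (C.coprime H hq hqp).symm hA hφ
  rw [map_sub, C.piE_trace H, trace_of_stShape (rEB B) hε hdet hS.frob, map_intCast, sub_self]

/-! ### Hecke operators -/

/-- `tr ρ(g)` acts on `X` as `g + χ(g) g⁻¹`. -/
theorem trace_smul_coe (g : GQ) (x : ↥X) :
    (((ρ g).trace • x : ↥X) : JZero N)
      = g • (x : JZero N) + (chiM (p ^ (K + 1)) g).val • g⁻¹ • (x : JZero N) := by
  have h := congrArg Prod.fst (H.rhoAct.trace_smul g ((x : XJ X ρ Φ), (0 : EMJ (rEB B) πE)))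
  have h' : ((ρ g).trace • x : ↥X) = Φ (ρ g) x + (ρ g).det • Φ (ρ g⁻¹) x := h
  rw [h', H.det, AddSubgroup.coe_add, H.act, H.alg, H.act]

/-- `tr ρ(φ_r)` acts on `X` as `T_r`, `r ∤ N p`. -/
theorem hecke {r : ℕ} (hr : r.Prime) (hrN : ¬ r ∣ N * p) {A : ValuationSubring Qbar}
    (hA : A.LiesOverPrime r) {φ : GQ} (hφ : A.IsFrobeniusAt φ r) (x : ↥X) :
    (((ρ φ).trace • x : ↥X) : JZero N) = heckeOperatorBar N ⟨r, hr⟩ (x : JZero N) := by
  have hrp : r ≠ p := fun h => hrN (h ▸ Dvd.intro_left N rfl)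
  rw [C.trace_smul_coe H]
  have hχ : (chiM (p ^ (K + 1)) φ) = ((r : ℕ) : ZMod (p ^ (K + 1))) := by
    rw [chiM_apply]
    exact cycloChar_of_isFrobeniusAt' _ hr (C.coprime H hr hrp).symm hA hφ
  -- `φ⁻¹ x` is again `p`-power torsion
  have hy : p ^ (K + 1) • (φ⁻¹ • (x : JZero N)) = 0 := by
    have e : p ^ (K + 1) • φ⁻¹ • (x : JZero N) = φ⁻¹ • (p ^ (K + 1) • (x : JZero N)) :=
      (map_nsmul (DistribSMul.toAddMonoidHom (JZero N) φ⁻¹) _ _).symm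
    rw [e, C.hXm _ x.2]
    exact map_zero (DistribSMul.toAddMonoidHom (JZero N) φ⁻¹)
  have h := (SS.es_all N p).2 r hr hrN A hA φ hφ (φ⁻¹ • (x : JZero N)) ⟨K + 1, hy⟩
  rw [smul_inv_smul] at h
  rw [val_nsmul_eq hχ hy, ← sub_eq_zero, ← h]
  abel

/-- `X[ker πE]` consists of eigenvectors with the eigenvalues of `W`. -/
theorem eigen {r : ℕ} (hr : r.Prime) (hrN : ¬ r ∣ N * p) (hgood : W.IsGoodPrimeFor r) (x : ↥X)
    (hx : ∀ a : R, πE a = 0 → a • x = 0) :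
    heckeOperatorBar N ⟨r, hr⟩ (x : JZero N) = W.apOfModel r • (x : JZero N) := by
  have hrp : r ≠ p := fun h => hrN (h ▸ Dvd.intro_left N rfl)
  obtain ⟨A, φ, hA, hφ⟩ := Fermat.Agent.S54.exists_isFrobeniusAt hr
  rw [← C.hecke H hr hrN hA hφ x]
  set c : ZMod (p ^ (K + 1)) := ((W.apOfModel r : ℤ) : ZMod (p ^ (K + 1))) with hc
  have h1 : ((ρ φ).trace - algebraMap (ZMod (p ^ (K + 1))) R c) • x = 0 := hx _ (by
    rw [map_sub, C.piE_frob H hr hgood hrp hA hφ, AlgHom.commutes]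
    exact sub_self _)
  rw [sub_smul, sub_eq_zero] at h1
  rw [h1, H.alg]
  exact val_nsmul_eq_int hc (C.hXm _ x.2)

/-! ### the Steinberg relation [ST2] at a prime `q ‖ N` -/

omit H in
/-- [ST2] on the `E`-side (good or multiplicative reduction at `q ≠ p`). -/
theorem rEB_st2 {q : ℕ} (hq : q.Prime) (hqp : q ≠ p) {A : ValuationSubring Qbar}
    (hA : A.LiesOverPrime q) {φ : GQ} (hφ : A.IsFrobeniusAt φ q) {τ : GQ}
    (hτ : τ ∈ A.inertiaSubgroupIn ℚ) :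
    (rEB B φ * rEB B φ - ((q ^ 2 : ℕ) : ZMod (p ^ (K + 1))) • 1) * (rEB B τ - 1) = 0 := by
  have hodd : Odd (p ^ (K + 1)) := odd_pow_of_ne_two C.hp2 _
  have hcop : Nat.Coprime (p ^ (K + 1)) q :=
    Nat.Coprime.pow_left _ ((Nat.coprime_primes Fact.out hq).2 (Ne.symm hqp))
  by_cases hqΔ : (q : ℤ) ∣ W.Δ
  · obtain ⟨ε, hε, h⟩ := exists_steinberg_rEB hq C.hΔ hqΔ (C.hss q hq hqΔ) A hA
    have hqm : ¬ q ∣ p ^ (K + 1) := fun hd =>
      hqp ((Nat.prime_dvd_prime_iff_eq hq Fact.out).1 (hq.dvd_of_dvd_pow hd))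
    have h1 := (h _ hodd hqm B φ hφ).frob_in τ hτ
    set S := rEB B φ
    set Nn := rEB B τ - 1
    set e : ZMod (p ^ (K + 1)) := ((ε * q : ℤ) : ZMod (p ^ (K + 1))) with he
    have h2 : S * Nn = e • Nn := by
      rw [sub_mul, smul_mul_assoc, one_mul, sub_eq_zero] at h1
      exact h1
    have h3 : e * e = ((q ^ 2 : ℕ) : ZMod (p ^ (K + 1))) := by
      rw [he, ← Int.cast_mul]
      rcases hε with rfl | rfl <;> push_cast <;> ring
    rw [sub_mul, smul_mul_assoc, one_mul, mul_assoc, h2, mul_smul_comm, h2, smul_smul, h3, sub_self]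
  · rw [rEB_unram B hodd hq hcop hqΔ A hA hτ, sub_self, mul_zero]

/-- **[ST2]** over `R` : `(ρ φ² - q²)(ρ τ - 1) = 0`, `N = M q`, `M` rigid, `q ∤ M`, `q ≠ p`. -/
theorem st2 {M q : ℕ} [NeZero M] [hq : Fact q.Prime] (hN : N = M * q) (hqM : ¬ q ∣ M)
    (h49 : 4 ∣ M ∨ 9 ∣ M) (hqp : q ≠ p) {A : ValuationSubring Qbar} (hA : A.LiesOverPrime q)
    {φ : GQ} (hφ : A.IsFrobeniusAt φ q) {τ : GQ} (hτ : τ ∈ A.inertiaSubgroupIn ℚ) :
    (ρ φ * ρ φ - ((q ^ 2 : ℕ) : R) • 1) * (ρ τ - 1) = 0 := by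
  subst hN
  refine H.matrix_eq_zero _ (fun x => ?_) ?_
  · rw [map_mul, map_sub, map_sub, map_mul, map_smul, map_one, Module.End.mul_apply,
      LinearMap.sub_apply, LinearMap.sub_apply, Module.End.mul_apply, LinearMap.smul_apply,
      Module.End.one_apply, Module.End.one_apply, Nat.cast_smul_eq_nsmul, sub_eq_zero]
    apply Subtype.ext
    rw [H.act, H.act, AddSubgroup.coe_nsmul, AddSubgroup.coe_sub, H.act]
    exact ML.st2 hqM h49 Fact.out (Ne.symm hqp) A hA hφ hτ (K + 1) _ (C.hXm _ x.2)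
  · have e : ∀ M' : M₂ R, M'.map πE = (πE : R →+* ZMod (p ^ (K + 1))).mapMatrix M' := fun _ => rfl
    have e2 : (πE : R →+* ZMod (p ^ (K + 1))).mapMatrix (((q ^ 2 : ℕ) : R) • (1 : M₂ R))
        = ((q ^ 2 : ℕ) : ZMod (p ^ (K + 1))) • 1 := by
      rw [Nat.cast_smul_eq_nsmul, Nat.cast_smul_eq_nsmul, map_nsmul, map_one]
    rw [e, map_mul, map_sub, map_sub, map_mul, map_one, e2, ← e (ρ φ), ← e (ρ τ), H.toE, H.toE]
    exact C.rEB_st2 hq.out hqp hA hφ hτ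

/-! ### flatness at `p` -/

/-- **(L4)** `p ∤ N`, `W` good at `p` : every push-forward of `ρ` to a finite ring is flat at `p`. -/
theorem hasFlat_mapRep [Finite ↥X] (hpN : ¬ p ∣ N) (hgood : W.IsGoodPrimeFor p)
    {Bk : Type} [CommRing Bk] [Finite Bk] (φ : R →+* Bk) :
    S56.Flat.HasFlat (S56.Flat.Ap p).valuation
      (S56.Flat.matAct (S56.Flat.Ip p) (S53.mapRep φ ρ)) :=
  H.rhoAct.hasFlat_mapRep (H.hasFlat hpN (K + 1) C.hXm
    (hasFlat_EM Fact.out C.hp2 hgood (Fermat.Agent.S56.liesOverPrime_primeLocalPlace (ExtCitation.pPrime p)) (K + 1) B)) φ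

/-! ### `R` is local with residue map `pi0` -/

omit C in
theorem isNilpotent_of_pi0 {a : R} (h : pi0 πE a = 0) : IsNilpotent a := by
  have h1 : IsNilpotent (πE a) :=
    isNilpotent_of_castHom_eq_zero rfl (dvd_pow_self p K.succ_ne_zero) _ h
  have h2 : IsNilpotent (a - algebraMap (ZMod (p ^ (K + 1))) R (πE a)) := H.nil _ (by
    rw [map_sub, AlgHom.commutes]
    exact sub_self _)
  have := (Commute.all _ _).isNilpotent_add h2 (h1.map (algebraMap (ZMod (p ^ (K + 1))) R))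
  rwa [sub_add_cancel] at this

omit C in
theorem isUnit_of_pi0 {a : R} (h : pi0 πE a ≠ 0) : IsUnit a := by
  have h1 : IsUnit (πE a) := isUnit_of_castK_ne_zero _ h
  have h2 : IsNilpotent (a - algebraMap (ZMod (p ^ (K + 1))) R (πE a)) := H.nil _ (by
    rw [map_sub, AlgHom.commutes]
    exact sub_self _)
  have := h2.isUnit_add_left_of_commute (h1.map (algebraMap (ZMod (p ^ (K + 1))) R))
    (Commute.all _ _)
  rwa [add_sub_cancel] at this

omit C H in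
theorem pi0_surjective : Function.Surjective (pi0 πE) := by
  intro c
  obtain ⟨d, rfl⟩ := ZMod.castHom_surjective (dvd_pow_self p K.succ_ne_zero) c
  exact ⟨algebraMap (ZMod (p ^ (K + 1))) R d, by
    rw [pi0_apply, AlgHom.commutes]
    rfl⟩

omit C in
theorem ker_pi0_le_nilradical : RingHom.ker (pi0 πE) ≤ nilradical R := fun _ ha =>
  mem_nilradical.2 (isNilpotent_of_pi0 H ((RingHom.mem_ker).1 ha))

end TopCtx

/-- **existence of the ring at the top of the tower.** -/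
theorem exists_topRho (hΔ : W.Δ ≠ 0) (hss : W.IsSemistableModel) (hp2 : p ≠ 2)
    (hirr : W.ModRepIsIrreducible p)
    (hnf : ∃ (σ₀ τ₀ : GQ) (u : ZMod p),
      u * TW.TR.xF (fun g => (rbarB b g).trace) (2 : ZMod p)⁻¹ complexConjugation σ₀ τ₀ = 1 ∧
      ∀ g, rbarB b g
        = rhoMat (fun g => (rbarB b g).trace) (2 : ZMod p)⁻¹ complexConjugation σ₀ τ₀ u g)
    (K : ℕ) (S : Finset ℕ) (hS : ∀ r : ℕ, r.Prime → r ∣ N * p → r ∈ S)
    (hgood : ∀ r : ℕ, r.Prime → r ∉ S → W.IsGoodPrimeFor r)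
    (X : AddSubgroup (JZero N)) (hXG : ∀ (g : GQ), ∀ x ∈ X, g • x ∈ X)
    (hXm : ∀ x ∈ X, p ^ (K + 1) • x = 0) (hXθ : X ≤ thetaPart N p (↑S : Set ℕ) W.apOfModel) :
    ∃ B : Module.Basis (Fin 2) (ZMod (p ^ (K + 1))) (TorsW W (p ^ (K + 1))),
      TopCtx W p b K B N X ∧ Fermat.Agent.ML.Rho.EK (p ^ (K + 1)) S W.apOfModel (rEB B) ∧
      ∃ (R : Type) (_ : CommRing R) (_ : IsLocalRing R) (_ : Finite R)
        (_ : Algebra (ZMod (p ^ (K + 1))) R) (_ : Module R ↥X)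
        (πE : R →ₐ[ZMod (p ^ (K + 1))] ZMod (p ^ (K + 1))) (ρ : GQ →* M₂ R)
        (Φ : M₂ R →ₐ[R] Module.End R ↥X),
        Fermat.Agent.ML.Rho.IsRhoK N (p ^ (K + 1)) X (rEB B) πE ρ Φ := by
  have hpS : p ∈ S := hS p Fact.out (Dvd.intro_left N rfl)
  obtain ⟨B, hB, hEK, -⟩ := exists_EK hΔ hp2 hirr S
    (fun r hr hrS => ⟨hgood r hr hrS, fun h => hrS (h ▸ hpS)⟩) b hnf K
  exact ⟨B, ⟨hΔ, hss, hp2, hirr, hB, hXm⟩, hEK,
    Fermat.Agent.ML.Rho.exists_rhoK Fact.out rfl (dvd_pow_self p K.succ_ne_zero) S hS W.apOfModel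
      hEK X hXG hXm (fun r hr x hx => (hXθ hx).2 r hr)⟩

end Fermat.Agent.ML.Lift
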