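import Fermat.Agent.ML.Main.Cell
import Fermat.Agent.ML.Lift.Trace
import Fermat.Agent.Common.PlaceBridge

/-!
# ML / Main / LocCalc : the calculus of the vocabulary of `ML/Main/Cell.lean`

`LocUr`, `LocUnip`, `LocSt`, `LocPSt`, `InBox` are stable under
* `mono` : passing to a subset;
* `image` : equivariant additive maps `f : X →+ Y` (pull-backs, push-forwards, multipliers commuting with `G_ℚ`);
* `of_image` : they descend along INJECTIVE equivariant additive maps;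
* `closure` : passing to the additive subgroup generated by a set;
and `LocUr → LocUnip`, `InBox.mono` (in `a`), `InBox.add/neg/zero/gal`, the bridge `zOp_eq_lift : ML.zOp τ x = Lift.zOp τ x`;
* `LocUr.of_place`, `LocUnip.of_place`, `LocSt.of_place`, `InBox.of_place` : for a GALOIS-STABLE set it is enough to check the
  condition at ONE place above `q` (all the places are conjugate).
-/

set_option autoImplicit false

noncomputable section

namespace Fermat.Agent.ML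

open scoped Pointwise

local notation "Qbar" => AlgebraicClosure ℚ
local notation "GQ" => (AlgebraicClosure ℚ ≃ₐ[ℚ] AlgebraicClosure ℚ)

section Mono

variable {X : Type*} [AddCommGroup X] [SMul GQ X]

omit [AddCommGroup X] in
theorem LocUr.mono {q : ℕ} {G G' : Set X} (h : LocUr q G) (hG : G' ⊆ G) : LocUr q G' :=
  fun A hA τ hτ x hx => h A hA τ hτ x (hG hx)

theorem LocUnip.mono {q : ℕ} {G G' : Set X} (h : LocUnip q G) (hG : G' ⊆ G) : LocUnip q G' :=
  fun A hA τ hτ τ' hτ' x hx => h A hA τ hτ τ' hτ' x (hG hx)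

theorem LocSt.mono {q : ℕ} {ε : ℤ} {G G' : Set X} (h : LocSt q ε G) (hG : G' ⊆ G) :
    LocSt q ε G' :=
  fun A hA σ hσ τ hτ x hx => h A hA σ hσ τ hτ x (hG hx)

theorem LocPSt.mono {p : ℕ} [Fact p.Prime] {e : GQ → ℤ} {k : ℕ} {G G' : Set X}
    (h : LocPSt p e k G) (hG : G' ⊆ G) : LocPSt p e k G' :=
  fun s₁ h₁ s₂ h₂ x hx => h s₁ h₁ s₂ h₂ x (hG hx)

end Mono

section Act

variable {X : Type*} [AddCommGroup X] [DistribMulAction GQ X]
variable {Y : Type*} [AddCommGroup Y] [DistribMulAction GQ Y]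

/-- unramified ⟹ unipotent. -/
theorem LocUr.locUnip {q : ℕ} {G : Set X} (h : LocUr q G) : LocUnip q G := by
  intro A hA τ hτ τ' _ x hx
  rw [h A hA τ hτ x hx, sub_self, smul_zero]

/-! ### images under equivariant maps -/

theorem LocUr.image {q : ℕ} {G : Set X} (h : LocUr q G) (f : X →+ Y)
    (hf : ∀ (g : GQ) x, f (g • x) = g • f x) : LocUr q (f '' G) := by
  rintro A hA τ hτ _ ⟨x, hx, rfl⟩
  rw [← hf, h A hA τ hτ x hx]

theorem LocUnip.image {q : ℕ} {G : Set X} (h : LocUnip q G) (f : X →+ Y)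
    (hf : ∀ (g : GQ) x, f (g • x) = g • f x) : LocUnip q (f '' G) := by
  rintro A hA τ hτ τ' hτ' _ ⟨x, hx, rfl⟩
  rw [← hf, ← map_sub, ← hf, h A hA τ hτ τ' hτ' x hx]

theorem LocSt.image {q : ℕ} {ε : ℤ} {G : Set X} (h : LocSt q ε G) (f : X →+ Y)
    (hf : ∀ (g : GQ) x, f (g • x) = g • f x) : LocSt q ε (f '' G) := by
  rintro A hA σ hσ τ hτ _ ⟨x, hx, rfl⟩
  obtain ⟨h1, h2, h3⟩ := h A hA σ hσ τ hτ x hx
  refine ⟨?_, ?_, ?_⟩
  · rw [← hf, ← map_sub, ← hf, h1, map_zsmul]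
  · rw [← hf, ← map_zsmul, ← map_sub, ← hf, h2]
  · rw [← hf, ← map_zsmul, ← map_sub, ← hf, h3, map_zsmul]

theorem LocPSt.image {p : ℕ} [Fact p.Prime] {e : GQ → ℤ} {k : ℕ} {G : Set X}
    (h : LocPSt p e k G) (f : X →+ Y) (hf : ∀ (g : GQ) x, f (g • x) = g • f x) :
    LocPSt p e k (f '' G) := by
  rintro s₁ h₁ s₂ h₂ _ ⟨x, hx, rfl⟩ a ha
  rw [← hf, ← map_zsmul, ← map_sub, ← hf, h s₁ h₁ s₂ h₂ x hx a ha, map_zsmul]

/-! ### descent along injective equivariant maps -/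

theorem LocUr.of_image {q : ℕ} {G : Set X} (f : X →+ Y) (hf : ∀ (g : GQ) x, f (g • x) = g • f x)
    (hinj : Function.Injective f) (h : LocUr q (f '' G)) : LocUr q G := by
  intro A hA τ hτ x hx
  apply hinj
  rw [hf]
  exact h A hA τ hτ _ ⟨x, hx, rfl⟩

theorem LocUnip.of_image {q : ℕ} {G : Set X} (f : X →+ Y)
    (hf : ∀ (g : GQ) x, f (g • x) = g • f x) (hinj : Function.Injective f)
    (h : LocUnip q (f '' G)) : LocUnip q G := by
  intro A hA τ hτ τ' hτ' x hx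
  apply hinj
  rw [hf, map_sub, hf]
  exact h A hA τ hτ τ' hτ' _ ⟨x, hx, rfl⟩

theorem LocSt.of_image {q : ℕ} {ε : ℤ} {G : Set X} (f : X →+ Y)
    (hf : ∀ (g : GQ) x, f (g • x) = g • f x) (hinj : Function.Injective f)
    (h : LocSt q ε (f '' G)) : LocSt q ε G := by
  intro A hA σ hσ τ hτ x hx
  obtain ⟨h1, h2, h3⟩ := h A hA σ hσ τ hτ _ ⟨x, hx, rfl⟩
  refine ⟨hinj ?_, hinj ?_, hinj ?_⟩
  · rw [hf, map_zsmul, map_sub, hf]; exact h1
  · rw [hf, map_sub, hf, map_zsmul]; exact h2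
  · rw [hf, map_zsmul, map_sub, hf, map_zsmul]; exact h3

theorem LocPSt.of_image {p : ℕ} [Fact p.Prime] {e : GQ → ℤ} {k : ℕ} {G : Set X} (f : X →+ Y)
    (hf : ∀ (g : GQ) x, f (g • x) = g • f x) (hinj : Function.Injective f)
    (h : LocPSt p e k (f '' G)) : LocPSt p e k G := by
  intro s₁ h₁ s₂ h₂ x hx a ha
  apply hinj
  rw [hf, map_zsmul, map_sub, hf, map_zsmul]
  exact h s₁ h₁ s₂ h₂ _ ⟨x, hx, rfl⟩ a ha

/-! ### the subgroup generated by a set -/

theorem LocUr.closure {q : ℕ} {G : Set X} (h : LocUr q G) :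
    LocUr q (AddSubgroup.closure G : Set X) := by
  intro A hA τ hτ x hx
  induction hx using AddSubgroup.closure_induction with
  | mem x hx => exact h A hA τ hτ x hx
  | zero => exact smul_zero _
  | add x y _ _ hx hy => rw [smul_add, hx, hy]
  | neg x _ hx => rw [smul_neg, hx]

theorem LocUnip.closure {q : ℕ} {G : Set X} (h : LocUnip q G) :
    LocUnip q (AddSubgroup.closure G : Set X) := by
  intro A hA τ hτ τ' hτ' x hx
  induction hx using AddSubgroup.closure_induction with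
  | mem x hx => exact h A hA τ hτ τ' hτ' x hx
  | zero => simp
  | add x y _ _ hx hy =>
    have e : τ • (x + y) - (x + y) = (τ • x - x) + (τ • y - y) := by rw [smul_add]; abel
    rw [e, smul_add, hx, hy]
  | neg x _ hx =>
    have e : τ • (-x) - (-x) = -(τ • x - x) := by rw [smul_neg]; abel
    rw [e, smul_neg, hx]

theorem LocSt.closure {q : ℕ} {ε : ℤ} {G : Set X} (h : LocSt q ε G) :
    LocSt q ε (AddSubgroup.closure G : Set X) := by
  intro A hA σ hσ τ hτ x hx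
  induction hx using AddSubgroup.closure_induction with
  | mem x hx => exact h A hA σ hσ τ hτ x hx
  | zero => simp
  | add x y _ _ hx hy =>
    obtain ⟨a1, a2, a3⟩ := hx
    obtain ⟨b1, b2, b3⟩ := hy
    have e1 : τ • (x + y) - (x + y) = (τ • x - x) + (τ • y - y) := by rw [smul_add]; abel
    have e2 : σ • (x + y) - ε • (x + y) = (σ • x - ε • x) + (σ • y - ε • y) := by
      rw [smul_add, smul_add]; abel
    refine ⟨?_, ?_, ?_⟩
    · rw [e1, smul_add, a1, b1, smul_add]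
    · rw [e2, smul_add, a2, b2]
    · rw [e2, smul_add, a3, b3, smul_add]
  | neg x _ hx =>
    obtain ⟨a1, a2, a3⟩ := hx
    have e1 : τ • (-x) - (-x) = -(τ • x - x) := by rw [smul_neg]; abel
    have e2 : σ • (-x) - ε • (-x) = -(σ • x - ε • x) := by rw [smul_neg, smul_neg]; abel
    refine ⟨?_, ?_, ?_⟩
    · rw [e1, smul_neg, a1, smul_neg]
    · rw [e2, smul_neg, a2]
    · rw [e2, smul_neg, a3, smul_neg]

theorem LocPSt.closure {p : ℕ} [Fact p.Prime] {e : GQ → ℤ} {k : ℕ} {G : Set X}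
    (h : LocPSt p e k G) : LocPSt p e k (AddSubgroup.closure G : Set X) := by
  intro s₁ h₁ s₂ h₂ x hx a ha
  induction hx using AddSubgroup.closure_induction with
  | mem x hx => exact h s₁ h₁ s₂ h₂ x hx a ha
  | zero => simp
  | add x y _ _ hx hy =>
    have e2 : s₂ • (x + y) - e s₂ • (x + y) = (s₂ • x - e s₂ • x) + (s₂ • y - e s₂ • y) := by
      rw [smul_add, smul_add]; abel
    rw [e2, smul_add, hx, hy, smul_add]
  | neg x _ hx =>
    have e2 : s₂ • (-x) - e s₂ • (-x) = -(s₂ • x - e s₂ • x) := by rw [smul_neg, smul_neg]; abel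
    rw [e2, smul_neg, hx, smul_neg]

/-! ### the box -/

/-- the two `zOp` agree. -/
theorem zOp_eq_lift (τ : GQ) (x : X) : zOp τ x = Lift.zOp τ x := rfl

theorem zOp_iterate_eq_lift (τ : GQ) (n : ℕ) (x : X) : (zOp τ)^[n] x = (Lift.zOp τ)^[n] x := by
  have : (zOp τ : X → X) = ⇑(Lift.zOp τ : X →+ X) := funext (zOp_eq_lift τ)
  rw [this]

theorem map_zOp_iter (f : X →+ Y) (hf : ∀ (g : GQ) x, f (g • x) = g • f x) (τ : GQ) (n : ℕ)
    (x : X) : f ((zOp τ)^[n] x) = (zOp τ)^[n] (f x) := by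
  rw [zOp_iterate_eq_lift, zOp_iterate_eq_lift, Lift.map_zOp_iterate f hf]

theorem zOp_iterate_zero (τ : GQ) (n : ℕ) : (zOp τ)^[n] (0 : X) = 0 := by
  rw [zOp_iterate_eq_lift]; exact iterate_map_zero _ _

theorem zOp_iterate_add (τ : GQ) (n : ℕ) (x y : X) :
    (zOp τ)^[n] (x + y) = (zOp τ)^[n] x + (zOp τ)^[n] y := by
  simp only [zOp_iterate_eq_lift]; exact iterate_map_add _ _ _ _

theorem zOp_iterate_neg (τ : GQ) (n : ℕ) (x : X) : (zOp τ)^[n] (-x) = -(zOp τ)^[n] x := by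
  simp only [zOp_iterate_eq_lift]; exact iterate_map_neg _ _ _

variable {p t : ℕ} {qv : Fin t → Nat.Primes} {a : ℕ}

theorem InBox.zero : InBox p qv a (0 : X) :=
  ⟨smul_zero _, fun _ _ _ τ _ => zOp_iterate_zero τ a⟩

theorem InBox.add {x y : X} (hx : InBox p qv a x) (hy : InBox p qv a y) :
    InBox p qv a (x + y) :=
  ⟨by rw [smul_add, hx.1, hy.1, add_zero], fun i A hA τ hτ => by
    rw [zOp_iterate_add, hx.2 i A hA τ hτ, hy.2 i A hA τ hτ, add_zero]⟩

theorem InBox.neg {x : X} (hx : InBox p qv a x) : InBox p qv a (-x) :=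
  ⟨by rw [smul_neg, hx.1, neg_zero], fun i A hA τ hτ => by
    rw [zOp_iterate_neg, hx.2 i A hA τ hτ, neg_zero]⟩

/-- equivariant additive maps preserve the box. -/
theorem InBox.map {x : X} (hx : InBox p qv a x) (f : X →+ Y)
    (hf : ∀ (g : GQ) x, f (g • x) = g • f x) : InBox p qv a (f x) :=
  ⟨by rw [← map_nsmul, hx.1, map_zero], fun i A hA τ hτ => by
    rw [← map_zOp_iter f hf, hx.2 i A hA τ hτ, map_zero]⟩

/-- injective equivariant additive maps reflect the box. -/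
theorem InBox.of_map {x : X} (f : X →+ Y) (hf : ∀ (g : GQ) x, f (g • x) = g • f x)
    (hinj : Function.Injective f) (hx : InBox p qv a (f x)) : InBox p qv a x :=
  ⟨hinj (by rw [map_nsmul, hx.1, map_zero]), fun i A hA τ hτ => hinj (by
    rw [map_zOp_iter f hf, hx.2 i A hA τ hτ, map_zero])⟩

/-- conjugation : `z(τ) g = g z(g⁻¹ τ g)`. -/
theorem zOp_smul (τ g : GQ) (x : X) : zOp τ (g • x) = g • zOp (g⁻¹ * τ * g) x := by
  have e1 : g • ((g⁻¹ * τ * g) • x) = τ • g • x := by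
    rw [mul_smul, mul_smul, smul_inv_smul]
  have e2 : g • ((g⁻¹ * τ * g)⁻¹ • x) = τ⁻¹ • g • x := by
    rw [mul_inv_rev, mul_inv_rev, inv_inv, mul_smul, mul_smul, smul_inv_smul]
  unfold zOp
  rw [smul_sub, smul_add, e1, e2, smul_comm g (2 : ℕ) x]

theorem zOp_iterate_smul (τ g : GQ) (n : ℕ) (x : X) :
    (zOp τ)^[n] (g • x) = g • (zOp (g⁻¹ * τ * g))^[n] x := by
  induction n generalizing x with
  | zero => rfl
  | succ n ih => rw [Function.iterate_succ_apply, Function.iterate_succ_apply, zOp_smul, ih]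

/-- the box is Galois stable. -/
theorem InBox.gal {x : X} (hx : InBox p qv a x) (g : GQ) : InBox p qv a (g • x) := by
  refine ⟨by rw [smul_comm, hx.1, smul_zero], fun i A hA τ hτ => ?_⟩
  have hA' : (g⁻¹ • A).LiesOverPrime ((qv i : Nat.Primes) : ℕ) := Bridge.liesOverPrime_smul hA g⁻¹
  have hτ' : g⁻¹ * τ * g ∈ (g⁻¹ • A).inertiaSubgroupIn ℚ := by
    rw [← Bridge.mem_inertia_smul_iff (qv i).2 hA', smul_inv_smul]
    exact hτ
  rw [zOp_iterate_smul, hx.2 i _ hA' _ hτ', smul_zero]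

theorem InBox.mono {x : X} {a' : ℕ} (hx : InBox p qv a x) (h : a ≤ a') : InBox p qv a' x := by
  obtain ⟨c, rfl⟩ := Nat.exists_eq_add_of_le h
  refine ⟨by rw [pow_add, mul_comm, mul_smul, hx.1, smul_zero], fun i A hA τ hτ => ?_⟩
  rw [Nat.add_comm, Function.iterate_add_apply, hx.2 i A hA τ hτ, zOp_iterate_zero]

/-- the box as a subgroup. -/
def boxSub (p : ℕ) {t : ℕ} (qv : Fin t → Nat.Primes) (a : ℕ) (U : AddSubgroup X) :
    AddSubgroup X where
  carrier := {x | x ∈ U ∧ InBox p qv a x}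
  zero_mem' := ⟨U.zero_mem, InBox.zero⟩
  add_mem' := fun h h' => ⟨U.add_mem h.1 h'.1, h.2.add h'.2⟩
  neg_mem' := fun h => ⟨U.neg_mem h.1, h.2.neg⟩

theorem mem_boxSub {U : AddSubgroup X} {x : X} : x ∈ boxSub p qv a U ↔ x ∈ U ∧ InBox p qv a x :=
  Iff.rfl

/-! ### one place is enough -/

/-- for a Galois-stable set the box may be checked at one place above each Taylor-Wiles prime. -/
theorem InBox.of_place {G : Set X} (hG : ∀ g : GQ, ∀ x ∈ G, g • x ∈ G)
    (A : Fin t → ValuationSubring Qbar) (hA : ∀ i, (A i).LiesOverPrime ((qv i : Nat.Primes) : ℕ))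
    (hp : ∀ x ∈ G, p ^ a • x = 0)
    (h : ∀ i, ∀ τ ∈ (A i).inertiaSubgroupIn ℚ, ∀ x ∈ G, (zOp τ)^[a] x = 0) :
    ∀ x ∈ G, InBox p qv a x := by
  intro x hx
  refine ⟨hp x hx, fun i A' hA' τ hτ => ?_⟩
  obtain ⟨g, rfl⟩ := Bridge.exists_smul_eq (qv i).2 (hA i) hA'
  rw [Bridge.mem_inertia_smul_iff (qv i).2 (hA i)] at hτ
  have := zOp_iterate_smul τ g a (g⁻¹ • x)
  rw [smul_inv_smul] at this
  rw [this, h i _ hτ _ (hG _ x hx), smul_zero]

theorem LocUr.of_place {q : ℕ} (hq : q.Prime) {G : Set X} (hG : ∀ g : GQ, ∀ x ∈ G, g • x ∈ G)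
    (A : ValuationSubring Qbar) (hA : A.LiesOverPrime q)
    (h : ∀ τ ∈ A.inertiaSubgroupIn ℚ, ∀ x ∈ G, τ • x = x) : LocUr q G := by
  intro A' hA' τ hτ x hx
  obtain ⟨g, rfl⟩ := Bridge.exists_smul_eq hq hA hA'
  rw [Bridge.mem_inertia_smul_iff hq hA] at hτ
  have := h _ hτ _ (hG g⁻¹ x hx)
  rw [mul_smul, mul_smul, smul_inv_smul, inv_smul_eq_iff, smul_inv_smul] at this
  exact this

theorem LocUnip.of_place {q : ℕ} (hq : q.Prime) {G : Set X}
    (hG : ∀ g : GQ, ∀ x ∈ G, g • x ∈ G) (A : ValuationSubring Qbar) (hA : A.LiesOverPrime q)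
    (h : ∀ τ ∈ A.inertiaSubgroupIn ℚ, ∀ τ' ∈ A.inertiaSubgroupIn ℚ, ∀ x ∈ G,
      τ' • (τ • x - x) = τ • x - x) : LocUnip q G := by
  intro A' hA' τ hτ τ' hτ' x hx
  obtain ⟨g, rfl⟩ := Bridge.exists_smul_eq hq hA hA'
  rw [Bridge.mem_inertia_smul_iff hq hA] at hτ hτ'
  have e : ∀ (s : GQ) (y : X), (g⁻¹ * s * g) • (g⁻¹ • y) = g⁻¹ • (s • y) := by
    intro s y
    rw [mul_smul, mul_smul, smul_inv_smul]
  have := h _ hτ _ hτ' _ (hG g⁻¹ x hx)
  rw [e, ← smul_sub, e] at this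
  exact MulAction.injective g⁻¹ this

theorem LocSt.of_place {q : ℕ} (hq : q.Prime) {ε : ℤ} {G : Set X}
    (hG : ∀ g : GQ, ∀ x ∈ G, g • x ∈ G) (A : ValuationSubring Qbar) (hA : A.LiesOverPrime q)
    (h : ∀ σ : GQ, A.IsFrobeniusAt σ q → ∀ τ ∈ A.inertiaSubgroupIn ℚ, ∀ x ∈ G,
      σ • (τ • x - x) = (ε * q) • (τ • x - x) ∧ τ • (σ • x - ε • x) = σ • x - ε • x ∧
      σ • (σ • x - ε • x) = (ε * q) • (σ • x - ε • x)) : LocSt q ε G := by
  intro A' hA' σ hσ τ hτ x hx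
  obtain ⟨g, rfl⟩ := Bridge.exists_smul_eq hq hA hA'
  rw [Bridge.isFrobeniusAt_smul_iff hq hA] at hσ
  rw [Bridge.mem_inertia_smul_iff hq hA] at hτ
  have e : ∀ (s : GQ) (y : X), (g⁻¹ * s * g) • (g⁻¹ • y) = g⁻¹ • (s • y) := by
    intro s y
    rw [mul_smul, mul_smul, smul_inv_smul]
  have ez : ∀ (n : ℤ) (y : X), n • (g⁻¹ • y) = g⁻¹ • (n • y) := fun n y => smul_comm n g⁻¹ y
  have hinj : Function.Injective (fun y : X => g⁻¹ • y) := MulAction.injective g⁻¹
  obtain ⟨h1, h2, h3⟩ := h _ hσ _ hτ _ (hG g⁻¹ x hx)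
  refine ⟨hinj ?_, hinj ?_, hinj ?_⟩
  · rw [e, ← smul_sub, e, ez] at h1
    exact h1
  · rw [e, ez, ← smul_sub, e] at h2
    exact h2
  · rw [e, ez, ← smul_sub, e, ez] at h3
    exact h3

end Act

end Fermat.Agent.ML
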