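import Fermat.Agent.ML.Main.CellMk
import Fermat.Agent.ML.AtP.Cell
import Fermat.Agent.ML.AtP.MaNew

/-!
# ML / Main / CellMk2 : the constructor of `IsCell` when `p` is not raised

* `LCtx.cellMk_mem_T`, `LCtx.cellMk_four_dvd`, `LCtx.cellMk_mtw` : the Taylor-Wiles context at every cell level;
* `LCtx.cellMk_atp_Ma` : case (Ma) (`p ∣ L₀`) : the field `atp` holds for EVERY Galois stable subgroup of the `θ`-part killed by `p^a`, at every
  cell level (from `LowerStmt`; helper62's `LCtx.locPSt_of_new` + helper47's `LCtx.cell_push_eq_zero`);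
* `LCtx.isCell_of'` : the constructor for `p ∉ P`.
-/

set_option autoImplicit false

noncomputable section

open AlgebraicCurve ModularCurve

namespace Fermat.Agent.ML

open Fermat.Agent.RIB Fermat.Agent.RIB.Rho Fermat.Agent.ML.ESide Fermat.Agent.GAL

local notation "Qbar" => AlgebraicClosure ℚ
local notation "GQ" => (AlgebraicClosure ℚ ≃ₐ[ℚ] AlgebraicClosure ℚ)
local notation "M₂" => Matrix (Fin 2) (Fin 2)

variable {W : WeierstrassCurve ℤ} {p : ℕ} [Fact p.Prime] {T : Finset ℕ}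
  {b : Module.Basis (Fin 2) (ZMod p) (TorsW W p)} {L₀ : ℕ} [NeZero L₀] {eps : ℕ → ℤ} {eP : GQ → ℤ}

/-- the primes of a cell level belong to `T`. -/
theorem LCtx.cellMk_mem_T (X : LCtx W p T b L₀ eps eP) {P : Finset ℕ}
    (hP : P ⊆ Pfin W (rbarB b) L₀) {r : ℕ} (hr : r.Prime) (hd : r ∣ cellLevel L₀ P * p) :
    r ∈ T := by
  have e : cellLevel L₀ P * p = (L₀ * p) * ∏ q ∈ P.erase 2, q := by rw [cellLevel]; ring
  rw [e] at hd
  rcases (Nat.Prime.dvd_mul hr).1 hd with h | h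
  · exact X.BP.levT r hr h
  · have hP' : ∀ q' ∈ P.erase 2, q'.Prime := fun q' h =>
      X.prime_of_mem_Pfin (hP (Finset.mem_of_mem_erase h))
    have h1 := hP (Finset.mem_of_mem_erase ((cellMk_dvd_prod_primes_iff hP' hr).1 h))
    exact X.hbadT r hr (X.dvd_of_mem_Pfin h1)

theorem LCtx.cellMk_four_dvd (X : LCtx W p T b L₀ eps eP) (P : Finset ℕ) :
    4 ∣ cellLevel L₀ P := by
  obtain ⟨M, hM, -, -⟩ := X.BP.shape
  exact Dvd.dvd.mul_right (hM ▸ Dvd.intro_left M rfl) _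

/-- the Taylor-Wiles context at a cell level. -/
theorem LCtx.cellMk_mtw (X : LCtx W p T b L₀ eps eP) {hp2 : p ≠ 2} {t F C₀ a m n K : ℕ}
    {qv : Fin t → Nat.Primes} (Fr : Frm p hp2 T W.apOfModel (rbarB b) t F C₀ a m n K qv)
    {P : Finset ℕ} (hP : P ⊆ Pfin W (rbarB b) L₀) {Lc : ℕ} (hLc : Lc = cellLevel L₀ P) :
    MTW p T W.apOfModel Lc t n qv :=
  Fr.tw Lc (fun _ hr hd => X.cellMk_mem_T hP hr (hLc ▸ hd))
    (hLc ▸ X.cellMk_four_dvd P)

/-- **(Ma)** : the field `atp` at every cell level. -/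
theorem LCtx.cellMk_atp_Ma (hLow : LowerStmt) (X : LCtx W p T b L₀ eps eP) {hp2 : p ≠ 2}
    {t F C₀ a m n K : ℕ} {qv : Fin t → Nat.Primes}
    (Fr : Frm p hp2 T W.apOfModel (rbarB b) t F C₀ a m n K qv) {P : Finset ℕ}
    (hP : P ⊆ Pfin W (rbarB b) L₀) (hpL : p ∣ L₀) (Lc : ℕ) [NeZero Lc]
    (hLc : Lc = cellLevel L₀ P) {G : AddSubgroup (JZero (lvl Lc (extP qv) t))}
    (le : G ≤ thetaPart (lvl Lc (extP qv) t) p (↑(cutS T qv) : Set ℕ) W.apOfModel)
    (gal : ∀ g : GQ, ∀ x ∈ G, g • x ∈ G) {a' : ℕ} (hpa : ∀ x ∈ G, p ^ a' • x = 0) :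
    LocPSt p eP a' (G : Set (JZero (lvl Lc (extP qv) t))) := by
  have hp : p.Prime := Fact.out
  obtain ⟨L₁, hL⟩ : ∃ L₁, L₀ = L₁ * p := by
    obtain ⟨c, hc⟩ := hpL
    exact ⟨c, by rw [hc, mul_comm]⟩
  have hcl : cellLevel L₀ P = cellLevel L₁ P * p := by rw [hL, cellLevel_mul]
  have : NeZero (cellLevel L₁ P) := ⟨fun h0 => NeZero.ne Lc (by rw [hLc, hcl, h0, zero_mul])⟩
  have TC : MTW p T W.apOfModel Lc t n qv := X.cellMk_mtw Fr hP hLc
  have h4L₁ : 4 ∣ L₁ := by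
    obtain ⟨M, hM, -, -⟩ := X.BP.shape
    have h1 : 4 ∣ L₁ * p := by rw [← hL, hM]; exact Dvd.intro_left M rfl
    have h2 : Nat.Coprime 4 p := by
      have : Nat.Coprime (2 ^ 2) p :=
        Nat.Coprime.pow_left _ ((Nat.coprime_primes Nat.prime_two hp).2 (Ne.symm X.C.hp2))
      simpa using this
    exact h2.dvd_of_dvd_mul_right h1
  have h4L' : 4 ∣ cellLevel L₁ P := Dvd.dvd.mul_right h4L₁ _
  have TC' : MTW p T W.apOfModel (cellLevel L₁ P) t n qv :=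
    Fr.tw _ (fun r hr hd => X.cellMk_mem_T hP hr (by
      rw [hcl]; exact Dvd.dvd.mul_right hd p)) h4L'
  obtain ⟨h, hpush⟩ := X.cell_push_eq_zero hLow hL hP (cellLevel L₁ P) rfl TC' Lc hLc
  have hpΔ : (p : ℤ) ∣ W.Δ := by
    by_contra hg
    exact X.BP.goodp hg hpL
  have hpM : ¬ p ∣ lvl (cellLevel L₁ P) (extP qv) t := by
    intro hd
    have h1 := X.cellMk_not_sq_dvd_lvl hP TC.notT hp X.C.p_mem X.C.hp2 (qv := qv)
    apply h1
    rw [← hLc, h, pow_two]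
    exact Nat.mul_dvd_mul_right hd p
  exact X.locPSt_of_new hpΔ h hpM (Or.inl (h4L'.trans (dvd_lvl _ _ _))) (subset_cutS T qv)
    (fun r hr hd => TC.mem_cutS t hr hd) le gal hpa fun x hx => hpush x (le hx)

/-- **the constructor of `IsCell`, `p` not raised.** -/
theorem LCtx.isCell_of' (hLow : LowerStmt) (X : LCtx W p T b L₀ eps eP) {hp2 : p ≠ 2}
    {t F C₀ a m n K : ℕ} {qv : Fin t → Nat.Primes}
    (Fr : Frm p hp2 T W.apOfModel (rbarB b) t F C₀ a m n K qv) {P : Finset ℕ}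
    (hP : P ⊆ Pfin W (rbarB b) L₀) (hpP : p ∉ P) (Lc : ℕ) [NeZero Lc]
    (hLc : Lc = cellLevel L₀ P) (G : AddSubgroup (JZero (lvl Lc (extP qv) t)))
    (le : G ≤ thetaPart (lvl Lc (extP qv) t) p (↑(cutS T qv) : Set ℕ) W.apOfModel)
    (gal : ∀ g : GQ, ∀ x ∈ G, g • x ∈ G) (box : ∀ x ∈ G, InBox p qv a x)
    (new : ∀ x ∈ G, ∀ i : Fin t, Tower.IsNewAt (lvl Lc (extP qv) t) (qv i) x)
    (st : ∀ q ∈ P, LocSt q (eps q) (G : Set (JZero (lvl Lc (extP qv) t))))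
    (two_ur : ¬ Ram (rbarB b) 2 → 2 ∉ P → LocUr 2 (G : Set (JZero (lvl Lc (extP qv) t))))
    (two_unip : Ram (rbarB b) 2 ∨ 2 ∈ P → LocUnip 2 (G : Set (JZero (lvl Lc (extP qv) t)))) :
    IsCell p T W.apOfModel (rbarB b) eps eP Lc qv a P G := by
  have hp : p.Prime := Fact.out
  refine X.isCell_of hP Lc hLc (X.cellMk_mtw Fr hP hLc).notT a G le gal box new (fun q hq _ => st q hq)
    two_ur two_unip fun hpLc => ?_
  refine X.cellMk_atp_Ma hLow Fr hP ?_ Lc hLc le gal fun x hx => (box x hx).1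
  rw [hLc, cellLevel] at hpLc
  rcases (Nat.Prime.dvd_mul hp).1 hpLc with h | h
  · exact h
  · have hP' : ∀ q' ∈ P.erase 2, q'.Prime := fun q' h =>
      X.prime_of_mem_Pfin (hP (Finset.mem_of_mem_erase h))
    exact absurd (Finset.mem_of_mem_erase ((cellMk_dvd_prod_primes_iff hP' hp).1 h)) hpP

end Fermat.Agent.ML
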