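import Fermat.Agent.ML.Main.Cell
import Fermat.Agent.ML.Low.Rho.Main
import Fermat.Agent.RIB.Main.GenOut
import Fermat.Agent.S56.Asm.Places

/-!
# ML / Main / StepSplit : the case split of the contract **(C-STEP)** of `ML/Main/Cell.lean`

`StepCellStmt` is ONE `Prop`; its proof has four kinds of stages.  This file contains only logic (it never looks inside `IsCell`):

* `MCtx.not_ram_of_occ` : `θ` occurs at the level `L`, `q ∤ L p` ⟹ `rbar0` is unramified at `q`;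
  `LCtx.not_ram_of_mem_Pfin` : `rbar0` is unramified at every `q ∈ Pfin`, `q ≠ p`;
* `FrobScalar rbar0 q` : the Frobenius elements at `q` are scalar;  `frobScalar_of_one`, `not_scalar_of_not_frobScalar` :
  for `rbar0` unramified at `q` this can be tested on ONE Frobenius element at ONE place;
* `rkS` : the order of raising : `2`, then the soft primes (non-hard and semi-hard), then the hard primes, then `p`;
* the sub-contracts `StepTwoStmt`, `StepSoftStmt`, `StepHardStmt`, `StepPStmt`;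
* `stepCell_of : StepTwoStmt → StepSoftStmt → StepHardStmt → StepPStmt → StepCellStmt`.
-/

set_option autoImplicit false

noncomputable section

open AlgebraicCurve ModularCurve

namespace Fermat.Agent.ML

open Fermat.Agent.RIB Fermat.Agent.RIB.Rho Fermat.Agent.ML.ESide Fermat.Agent.S56
  Fermat.Agent.S56.Flat
open scoped Pointwise

local notation "Qbar" => AlgebraicClosure ℚ
local notation "GQ" => (AlgebraicClosure ℚ ≃ₐ[ℚ] AlgebraicClosure ℚ)
local notation "M₂" => Matrix (Fin 2) (Fin 2)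

/-! ### ramification of `rbar0` and occurrence -/

/-- if `θ` occurs at the level `L` then `rbar0` is unramified outside `L p`. -/
theorem MCtx.not_ram_of_occ {p : ℕ} [Fact p.Prime] {T : Finset ℕ} {θ : ℕ → ℤ}
    {rbar0 : GQ →* M₂ (ZMod p)} (C : MCtx p T θ rbar0) {L : ℕ} [NeZero L]
    (hL : ∀ r : ℕ, r.Prime → r ∣ L * p → r ∈ T) (hW : WS L p (↑T : Set ℕ) θ ≠ ⊥) {q : ℕ}
    (hq : q.Prime) (hqL : ¬ q ∣ L * p) : ¬ Ram rbar0 q := by
  rintro ⟨A, hA, σ, hσ, h1⟩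
  obtain ⟨R, _, _, _, _, _, π0, ρ, Φ, H⟩ := Low.rhoOut C T (Finset.Subset.refl T) L hL hW
  apply h1
  rw [← H.lift σ, H.unram hq hqL A hA hσ]
  exact Matrix.map_one _ (map_zero _) (map_one _)

/-! ### the set `Pfin` -/

theorem mem_Pfin {W : WeierstrassCurve ℤ} (hΔ : W.Δ ≠ 0) {p : ℕ} {rbar0 : GQ →* M₂ (ZMod p)}
    {L₀ q : ℕ} : q ∈ Pfin W rbar0 L₀ ↔
      q.Prime ∧ (q : ℤ) ∣ W.Δ ∧ (¬ q ∣ L₀ ∨ (q = 2 ∧ ¬ Ram rbar0 2)) := by
  classical
  rw [Pfin, Finset.mem_filter, Nat.mem_primeFactors, Int.natCast_dvd]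
  have : W.Δ.natAbs ≠ 0 := Int.natAbs_ne_zero.2 hΔ
  tauto

section LCtx

variable {W : WeierstrassCurve ℤ} {p : ℕ} [Fact p.Prime] {T : Finset ℕ}
  {b : Module.Basis (Fin 2) (ZMod p) (TorsW W p)} {L₀ : ℕ} [NeZero L₀] {eps : ℕ → ℤ} {eP : GQ → ℤ}

theorem LCtx.prime_of_mem_Pfin (X : LCtx W p T b L₀ eps eP) {q : ℕ}
    (hq : q ∈ Pfin W (rbarB b) L₀) : q.Prime := ((mem_Pfin X.H.hΔ).1 hq).1

theorem LCtx.dvd_of_mem_Pfin (X : LCtx W p T b L₀ eps eP) {q : ℕ}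
    (hq : q ∈ Pfin W (rbarB b) L₀) : (q : ℤ) ∣ W.Δ := ((mem_Pfin X.H.hΔ).1 hq).2.1

theorem LCtx.two_dvd (X : LCtx W p T b L₀ eps eP) : 2 ∣ L₀ := by
  obtain ⟨M, hM, -, -⟩ := X.BP.shape
  exact hM ▸ Dvd.dvd.mul_left (by norm_num) M

/-- an odd prime of `Pfin` does not divide the base level. -/
theorem LCtx.not_dvd_of_mem_Pfin (X : LCtx W p T b L₀ eps eP) {q : ℕ}
    (hq : q ∈ Pfin W (rbarB b) L₀) (hq2 : q ≠ 2) : ¬ q ∣ L₀ := by
  rcases ((mem_Pfin X.H.hΔ).1 hq).2.2 with h | ⟨h, -⟩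
  · exact h
  · exact absurd h hq2

/-- `rbar0` is unramified at the primes to be raised (`≠ p`). -/
theorem LCtx.not_ram_of_mem_Pfin (X : LCtx W p T b L₀ eps eP) {q : ℕ}
    (hq : q ∈ Pfin W (rbarB b) L₀) (hqp : q ≠ p) : ¬ Ram (rbarB b) q := by
  have hp : p.Prime := Fact.out
  have hqpr := X.prime_of_mem_Pfin hq
  rcases ((mem_Pfin X.H.hΔ).1 hq).2.2 with h | ⟨h, h'⟩
  · refine X.C.not_ram_of_occ X.BP.levT X.BP.occ hqpr fun hd => ?_
    rcases (Nat.Prime.dvd_mul hqpr).1 hd with h1 | h1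
    · exact h h1
    · exact hqp ((Nat.prime_dvd_prime_iff_eq hqpr hp).1 h1)
  · exact h ▸ h'

end LCtx

/-! ### scalar Frobenius -/

/-- the Frobenius elements at `q` are scalar. -/
def FrobScalar {p : ℕ} (rbar0 : GQ →* M₂ (ZMod p)) (q : ℕ) : Prop :=
  ∀ A : ValuationSubring Qbar, A.LiesOverPrime q → ∀ φ : GQ, A.IsFrobeniusAt φ q →
    ∃ c : ZMod p, rbar0 φ = c • (1 : M₂ (ZMod p))

/-- no Frobenius element at `q` is scalar. -/
def FrobNonScalar {p : ℕ} (rbar0 : GQ →* M₂ (ZMod p)) (q : ℕ) : Prop :=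
  ∀ A : ValuationSubring Qbar, A.LiesOverPrime q → ∀ φ : GQ, A.IsFrobeniusAt φ q →
    ∀ c : ZMod p, rbar0 φ ≠ c • (1 : M₂ (ZMod p))

/-- for `rbar0` unramified at `q`, two Frobenius elements at `q` have conjugate images. -/
theorem exists_conj_frob {p : ℕ} {rbar0 : GQ →* M₂ (ZMod p)} {q : ℕ} (hq : q.Prime)
    (hur : ¬ Ram rbar0 q) {A A' : ValuationSubring Qbar} (hA : A.LiesOverPrime q)
    (hA' : A'.LiesOverPrime q) {φ φ' : GQ} (hφ : A.IsFrobeniusAt φ q)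
    (hφ' : A'.IsFrobeniusAt φ' q) : ∃ g : GQ, rbar0 φ' = rbar0 g * rbar0 φ * rbar0 g⁻¹ := by
  obtain ⟨g, rfl⟩ := Bridge.exists_smul_eq hq hA hA'
  have h1 := (Bridge.isFrobeniusAt_smul_iff hq hA).1 hφ'
  have h2 := unram_of_not_ram hur A hA _ (Places.inv_mul_mem_inertia hφ h1)
  have h3 : rbar0 (g⁻¹ * φ' * g) = rbar0 φ := by
    have : rbar0 (g⁻¹ * φ' * g) = rbar0 φ * rbar0 (φ⁻¹ * (g⁻¹ * φ' * g)) := by
      rw [← map_mul]
      congr 1
      group
    rw [this, h2, mul_one]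
  refine ⟨g, ?_⟩
  rw [← h3, ← map_mul, ← map_mul]
  congr 1
  group

/-- scalar at ONE Frobenius element of ONE place ⟹ scalar (with the same scalar) at all of them. -/
theorem frobScalar_of_one {p : ℕ} {rbar0 : GQ →* M₂ (ZMod p)} {q : ℕ} (hq : q.Prime)
    (hur : ¬ Ram rbar0 q) {A : ValuationSubring Qbar} (hA : A.LiesOverPrime q) {φ : GQ}
    (hφ : A.IsFrobeniusAt φ q) {c : ZMod p} (hc : rbar0 φ = c • (1 : M₂ (ZMod p))) :
    ∀ A' : ValuationSubring Qbar, A'.LiesOverPrime q → ∀ φ' : GQ, A'.IsFrobeniusAt φ' q →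
      rbar0 φ' = c • (1 : M₂ (ZMod p)) := by
  intro A' hA' φ' hφ'
  obtain ⟨g, hg⟩ := exists_conj_frob hq hur hA hA' hφ hφ'
  rw [hg, hc, Matrix.mul_smul, mul_one, Matrix.smul_mul, ← map_mul, mul_inv_cancel, map_one]

theorem frobNonScalar_of_not {p : ℕ} {rbar0 : GQ →* M₂ (ZMod p)} {q : ℕ} (hq : q.Prime)
    (hur : ¬ Ram rbar0 q) (h : ¬ FrobScalar rbar0 q) : FrobNonScalar rbar0 q := by
  intro A hA φ hφ c hc
  exact h fun A' hA' φ' hφ' => ⟨c, frobScalar_of_one hq hur hA hφ hc A' hA' φ' hφ'⟩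

/-! ### the order of raising -/

open Classical in
/-- the order of raising: `2`, the soft primes, the hard primes, `p`. -/
def rkS {p : ℕ} (rbar0 : GQ →* M₂ (ZMod p)) (q : ℕ) : ℕ :=
  if q = 2 then 0 else if q = p then 3 else if FrobScalar rbar0 q then 2 else 1

section rk

variable {p : ℕ} (rbar0 : GQ →* M₂ (ZMod p))

theorem rkS_two : rkS rbar0 2 = 0 := by simp [rkS]

theorem rkS_p (hp2 : p ≠ 2) : rkS rbar0 p = 3 := by simp [rkS, hp2]

theorem rkS_hard {q : ℕ} (h2 : q ≠ 2) (hp : q ≠ p) (h : FrobScalar rbar0 q) :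
    rkS rbar0 q = 2 := by simp [rkS, h2, hp, h]

theorem rkS_soft {q : ℕ} (h2 : q ≠ 2) (hp : q ≠ p) (h : ¬ FrobScalar rbar0 q) :
    rkS rbar0 q = 1 := by simp [rkS, h2, hp, h]

theorem eq_two_of_rkS {q : ℕ} (h : rkS rbar0 q = 0) : q = 2 := by
  by_contra h2
  by_cases hp : q = p
  · simp [rkS, h2, hp] at h
    exact h2 (hp.trans h)
  · by_cases hs : FrobScalar rbar0 q <;> simp [rkS, h2, hp, hs] at h

end rk

/-! ### the sub-contracts -/

/-- the conclusion of a step. -/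
def StepConcl (W : WeierstrassCurve ℤ) (p : ℕ) [Fact p.Prime] (hp2 : p ≠ 2) (T : Finset ℕ)
    (b : Module.Basis (Fin 2) (ZMod p) (TorsW W p)) (L₀ : ℕ) (eps : ℕ → ℤ) (eP : GQ → ℤ) (t : ℕ)
    (P : Finset ℕ) (q : ℕ) : Prop :=
  ∃ F₀ C₀ : ℕ, ∀ (a m n K : ℕ) (qv : Fin t → Nat.Primes),
    Frm p hp2 T W.apOfModel (rbarB b) t F₀ C₀ a m n K qv →
    CellBig p T W.apOfModel (rbarB b) eps eP L₀ qv a m P →
    CellBig p T W.apOfModel (rbarB b) eps eP L₀ qv a m (insert q P)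

/-- **(C-STEP-2)** : raising `2` (the first stage).   (AT-2 (N2)) -/
def StepTwoStmt : Prop :=
  ∀ (W : WeierstrassCurve ℤ) (p : ℕ) [Fact p.Prime] (T : Finset ℕ)
    (b : Module.Basis (Fin 2) (ZMod p) (TorsW W p)) (L₀ : ℕ) [NeZero L₀] (eps : ℕ → ℤ)
    (eP : GQ → ℤ) (X : LCtx W p T b L₀ eps eP) (t : ℕ),
    2 ∈ Pfin W (rbarB b) L₀ → StepConcl W p X.C.hp2 T b L₀ eps eP t ∅ 2

/-- **(C-STEP-SOFT)** : raising a soft prime `q` (odd, `≠ p`, Frobenius not scalar: non-hard or semi-hard); only `2` and soft primes have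
been raised before.   (RAISE) -/
def StepSoftStmt : Prop :=
  ∀ (W : WeierstrassCurve ℤ) (p : ℕ) [Fact p.Prime] (T : Finset ℕ)
    (b : Module.Basis (Fin 2) (ZMod p) (TorsW W p)) (L₀ : ℕ) [NeZero L₀] (eps : ℕ → ℤ)
    (eP : GQ → ℤ) (X : LCtx W p T b L₀ eps eP) (t : ℕ) (P : Finset ℕ) (q : ℕ),
    P ⊆ Pfin W (rbarB b) L₀ → q ∈ Pfin W (rbarB b) L₀ → q ∉ P → q ≠ 2 → q ≠ p →
    FrobNonScalar (rbarB b) q → p ∉ P → (2 ∈ Pfin W (rbarB b) L₀ → 2 ∈ P) →
    (∀ q' ∈ P, q' ≠ 2 → FrobNonScalar (rbarB b) q') →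
    StepConcl W p X.C.hp2 T b L₀ eps eP t P q

/-- **(C-STEP-HARD)** : raising a hard prime `q` (odd, `≠ p`, Frobenius scalar); `2` and all the soft primes have been raised before, `p` has
not.   (HARD) -/
def StepHardStmt : Prop :=
  ∀ (W : WeierstrassCurve ℤ) (p : ℕ) [Fact p.Prime] (T : Finset ℕ)
    (b : Module.Basis (Fin 2) (ZMod p) (TorsW W p)) (L₀ : ℕ) [NeZero L₀] (eps : ℕ → ℤ)
    (eP : GQ → ℤ) (X : LCtx W p T b L₀ eps eP) (t : ℕ) (P : Finset ℕ) (q : ℕ),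
    P ⊆ Pfin W (rbarB b) L₀ → q ∈ Pfin W (rbarB b) L₀ → q ∉ P → q ≠ 2 → q ≠ p →
    FrobScalar (rbarB b) q → p ∉ P → (2 ∈ Pfin W (rbarB b) L₀ → 2 ∈ P) →
    (∀ q' ∈ Pfin W (rbarB b) L₀, q' ≠ 2 → q' ≠ p → ¬ FrobScalar (rbarB b) q' → q' ∈ P) →
    StepConcl W p X.C.hp2 T b L₀ eps eP t P q

/-- **(C-STEP-P)** : raising `p` (the last stage, case (Mb)).   (AT-P) -/
def StepPStmt : Prop :=
  ∀ (W : WeierstrassCurve ℤ) (p : ℕ) [Fact p.Prime] (T : Finset ℕ)
    (b : Module.Basis (Fin 2) (ZMod p) (TorsW W p)) (L₀ : ℕ) [NeZero L₀] (eps : ℕ → ℤ)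
    (eP : GQ → ℤ) (X : LCtx W p T b L₀ eps eP) (t : ℕ),
    p ∈ Pfin W (rbarB b) L₀ →
    StepConcl W p X.C.hp2 T b L₀ eps eP t ((Pfin W (rbarB b) L₀).erase p) p

/-- **the case split.** -/
theorem stepCell_of (h2 : StepTwoStmt) (hS : StepSoftStmt) (hH : StepHardStmt) (hP : StepPStmt) :
    StepCellStmt := by
  intro W p _ T b L₀ _ eps eP X t
  have hp2 : p ≠ 2 := X.C.hp2
  refine ⟨rkS (rbarB b), fun P q hPf hq hqP hle hge => ?_⟩
  show StepConcl W p X.C.hp2 T b L₀ eps eP t P q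
  by_cases hq2 : q = 2
  · -- `q = 2`
    subst hq2
    have hPe : P = ∅ := by
      refine Finset.eq_empty_of_forall_notMem fun q' hq' => ?_
      have h1 := hle q' hq'
      rw [rkS_two] at h1
      have h3 := eq_two_of_rkS _ (Nat.le_zero.1 h1)
      exact hqP (h3 ▸ hq')
    subst hPe
    exact h2 W p T b L₀ eps eP X t hq
  have h2P : 2 ∈ Pfin W (rbarB b) L₀ → 2 ∈ P := by
    intro h
    by_contra hn
    have h1 := hge 2 h hn
    rw [rkS_two] at h1
    exact hq2 (eq_two_of_rkS _ (Nat.le_zero.1 h1))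
  by_cases hqp : q = p
  · -- `q = p`
    subst hqp
    have hPe : P = (Pfin W (rbarB b) L₀).erase q := by
      ext q'
      rw [Finset.mem_erase]
      constructor
      · exact fun h => ⟨fun h' => hqP (h' ▸ h), hPf h⟩
      · rintro ⟨hne, hf⟩
        by_contra hn
        have h1 := hge q' hf hn
        rw [rkS_p _ hp2] at h1
        by_cases h22 : q' = 2
        · rw [h22, rkS_two] at h1
          omega
        · by_cases hs : FrobScalar (rbarB b) q'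
          · rw [rkS_hard _ h22 hne hs] at h1
            omega
          · rw [rkS_soft _ h22 hne hs] at h1
            omega
    rw [hPe]
    exact hP W q T b L₀ eps eP X t hq
  by_cases hs : FrobScalar (rbarB b) q
  · -- hard
    have hrk := rkS_hard (rbarB b) hq2 hqp hs
    refine hH W p T b L₀ eps eP X t P q hPf hq hqP hq2 hqp hs ?_ h2P ?_
    · intro hpP
      have h1 := hle p hpP
      rw [rkS_p _ hp2, hrk] at h1
      omega
    · intro q' hf h22 hne hs'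
      by_contra hn
      have h1 := hge q' hf hn
      rw [hrk, rkS_soft _ h22 hne hs'] at h1
      omega
  · -- soft
    have hrk := rkS_soft (rbarB b) hq2 hqp hs
    have hpP : p ∉ P := by
      intro hpP
      have h1 := hle p hpP
      rw [rkS_p _ hp2, hrk] at h1
      omega
    refine hS W p T b L₀ eps eP X t P q hPf hq hqP hq2 hqp
      (frobNonScalar_of_not (X.prime_of_mem_Pfin hq) (X.not_ram_of_mem_Pfin hq hqp) hs) hpP h2P ?_
    intro q' hq' h22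
    have hne : q' ≠ p := fun h => hpP (h ▸ hq')
    refine frobNonScalar_of_not (X.prime_of_mem_Pfin (hPf hq'))
      (X.not_ram_of_mem_Pfin (hPf hq') hne) fun hs' => ?_
    have h1 := hle q' hq'
    rw [hrk, rkS_hard _ h22 hne hs'] at h1
    omega

end Fermat.Agent.ML
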