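import Fermat.Agent.ML.Main.StepSplit
import Fermat.Agent.ML.Main.LocCalc
import Fermat.Agent.ML.TWFree.Inst.InBox
import Fermat.Agent.SS.Mod.S34Wire
import Fermat.Agent.SS.Top35.SMO

/-!
# ML / Main / CellMk : the common constructor of `IsCell`

The fields `ur`, `unip` and the `LocUnip`-half of `st` are AUTOMATIC at the odd primes (good, resp. multiplicative reduction of `J₀(N)`):

* `cellMk_locUr` : `q ∤ N p` ⟹ `LocUr q` on the `p`-power torsion of `J₀(N)`;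
* `cellMk_locUnip` : `q ‖ N`, `q ≠ p` ⟹ `LocUnip q` (two elements of inertia) on the `p`-power torsion of `J₀(N)`;
* `LCtx.cellMk_not_sq_dvd_lvl`, `LCtx.not_dvd_lvl` : the arithmetic of the level of a cell;
* `LCtx.isCell_of` : the constructor.
-/

set_option autoImplicit false

noncomputable section

open AlgebraicCurve ModularCurve

namespace Fermat.Agent.ML

open Fermat.Agent.RIB Fermat.Agent.RIB.Rho Fermat.Agent.ML.ESide Fermat.Agent.GAL

local notation "Qbar" => AlgebraicClosure ℚ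
local notation "GQ" => (AlgebraicClosure ℚ ≃ₐ[ℚ] AlgebraicClosure ℚ)
local notation "M₂" => Matrix (Fin 2) (Fin 2)

section Loc

variable {N p q : ℕ} [NeZero N]

/-- good reduction. -/
theorem cellMk_locUr (hq : q.Prime) (hqN : ¬ q ∣ N * p) :
    LocUr q {x : JZero N | ∃ n : ℕ, p ^ n • x = 0} :=
  fun A hA τ hτ x hx => (SS.es_all N p).1 q hq hqN A hA τ hτ x hx

omit [NeZero N] in
/-- `σ^n = 1 + n (σ - 1)` if `(σ - 1)² = 0`. -/
theorem cellMk_pow_smul (σ : GQ) (x : JZero N) (h : σ • (σ • x - x) = σ • x - x) (n : ℕ) :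
    σ ^ n • x = x + n • (σ • x - x) := by
  induction n with
  | zero => simp
  | succ n ih =>
    rw [pow_succ', mul_smul, ih, smul_add, gal_nsmul, h, succ_nsmul]
    abel

/-- multiplicative reduction : inertia is unipotent, in the bilinear form. -/
theorem cellMk_locUnip (hq : q.Prime) (hp : p.Prime) (hqp : q ≠ p) (hqN : q ∣ N)
    (hq2 : ¬ q ^ 2 ∣ N) : LocUnip q {x : JZero N | ∃ n : ℕ, p ^ n • x = 0} := by
  intro A hA τ hτ τ' hτ' x hx
  obtain ⟨k, hk⟩ := hx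
  have hun := SS.unip_of_cuspOrd (fun M q _ _ _ => SS.cuspOrd M q) hq hp hqp hqN hq2
  -- `(σ - 1)² = 0` on the `p`-power torsion
  have hsq : ∀ σ ∈ A.inertiaSubgroupIn ℚ, ∀ y : JZero N, (∃ n : ℕ, p ^ n • y = 0) →
      σ • (σ • y - y) = σ • y - y := by
    intro σ hσ y hy
    have h := hun A hA σ hσ y hy
    rw [smul_sub, sub_eq_sub_iff_add_eq_add, ← sub_eq_zero, ← h, two_nsmul]
    abel
  let X : AddSubgroup (JZero N) := (nsmulAddMonoidHom (p ^ k) : JZero N →+ JZero N).ker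
  have hXm : ∀ y ∈ X, p ^ k • y = 0 := fun y hy => hy
  have hst : ∀ σ : GQ, ∀ y ∈ X, σ • y ∈ X := fun σ y hy => by
    show p ^ k • (σ • y) = 0
    rw [← gal_nsmul, hXm y hy, gal_zero]
  obtain ⟨τ₀, hτ₀, hgen⟩ := TWFree.exists_tau0_gen hq hA X (fun σ _ y hy => hst σ y hy) (p ^ k)
    (pow_ne_zero _ hp.ne_zero) hXm (p ^ k)
    (Nat.Coprime.pow_left _ ((Nat.coprime_primes hp hq).2 (Ne.symm hqp)))
    (fun σ hσ y hy => by
      rw [cellMk_pow_smul σ y (hsq σ hσ y ⟨k, hy⟩), nsmul_sub, ← gal_nsmul, hXm y hy, gal_zero,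
        sub_zero, add_zero])
  obtain ⟨n, hn⟩ := hgen τ hτ
  obtain ⟨n', hn'⟩ := hgen τ' hτ'
  have hxX : x ∈ X := hk
  set d : JZero N := τ₀ • x - x with hd
  have hdX : d ∈ X := X.sub_mem (hst τ₀ x hxX) hxX
  have h0 : τ₀ • d = d := hsq τ₀ hτ₀ x ⟨k, hk⟩
  have e1 : τ • x - x = n • d := by
    rw [hn x hxX, cellMk_pow_smul τ₀ x (hsq τ₀ hτ₀ x ⟨k, hk⟩)]
    abel
  have e2 : τ' • d = d := by
    rw [hn' d hdX, cellMk_pow_smul τ₀ d (hsq τ₀ hτ₀ d ⟨k, hdX⟩), h0, sub_self, smul_zero, add_zero]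
  rw [e1, gal_nsmul, e2]

end Loc

section Level

variable {W : WeierstrassCurve ℤ} {p : ℕ} [Fact p.Prime] {T : Finset ℕ}
  {b : Module.Basis (Fin 2) (ZMod p) (TorsW W p)} {L₀ : ℕ} [NeZero L₀] {eps : ℕ → ℤ} {eP : GQ → ℤ}

/-- a prime of `T` does not divide the Taylor-Wiles part of the level. -/
theorem cellMk_not_dvd_prod_extP {t : ℕ} {qv : Fin t → Nat.Primes} (hnotT : ∀ i, ((qv i : Nat.Primes) : ℕ) ∉ T)
    {q : ℕ} (hq : q.Prime) (hqT : q ∈ T) :
    ¬ q ∣ ∏ j ∈ Finset.range t, (extP qv j * extP qv j) := by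
  intro h
  obtain ⟨j, hj, hd⟩ := (Prime.dvd_finsetProd_iff hq.prime _).1 h
  have hd' : q ∣ extP qv j := (Nat.Prime.dvd_mul hq).1 hd |>.elim id id
  have hjt : j < t := Finset.mem_range.1 hj
  rw [show j = ((⟨j, hjt⟩ : Fin t) : ℕ) from rfl, extP_of_lt] at hd'
  have := (Nat.prime_dvd_prime_iff_eq hq (qv ⟨j, hjt⟩).2).1 hd'
  exact hnotT ⟨j, hjt⟩ (this ▸ hqT)

/-- a prime divides `∏_{q' ∈ P'} q'` (`P'` a set of primes) iff it belongs to `P'`. -/
theorem cellMk_dvd_prod_primes_iff {P' : Finset ℕ} (hP' : ∀ q' ∈ P', q'.Prime) {q : ℕ} (hq : q.Prime) :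
    q ∣ ∏ q' ∈ P', q' ↔ q ∈ P' := by
  constructor
  · intro h
    obtain ⟨q', hq', hd⟩ := (Prime.dvd_finsetProd_iff hq.prime _).1 h
    rwa [(Nat.prime_dvd_prime_iff_eq hq (hP' q' hq')).1 hd]
  · exact fun h => Finset.dvd_prod_of_mem _ h

/-- an odd prime of `T` divides the level of a cell iff it divides `L₀` or is raised. -/
theorem LCtx.cellMk_dvd_lvl_iff (X : LCtx W p T b L₀ eps eP) {P : Finset ℕ}
    (hP : P ⊆ Pfin W (rbarB b) L₀) {t : ℕ} {qv : Fin t → Nat.Primes}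
    (hnotT : ∀ i, ((qv i : Nat.Primes) : ℕ) ∉ T) {q : ℕ} (hq : q.Prime) (hqT : q ∈ T)
    (hq2 : q ≠ 2) : q ∣ lvl (cellLevel L₀ P) (extP qv) t ↔ q ∣ L₀ ∨ q ∈ P := by
  have hP' : ∀ q' ∈ P.erase 2, q'.Prime := fun q' h =>
    X.prime_of_mem_Pfin (hP (Finset.mem_of_mem_erase h))
  rw [lvl_eq_prod, cellLevel, Nat.Prime.dvd_mul hq, Nat.Prime.dvd_mul hq, cellMk_dvd_prod_primes_iff hP' hq,
    Finset.mem_erase]
  constructor
  · rintro ((h | h) | h)
    · exact Or.inl h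
    · exact Or.inr h.2
    · exact absurd h (cellMk_not_dvd_prod_extP hnotT hq hqT)
  · rintro (h | h)
    · exact Or.inl (Or.inl h)
    · exact Or.inl (Or.inr ⟨hq2, h⟩)

/-- the level of a cell is squarefree at the odd primes of `T`. -/
theorem LCtx.cellMk_not_sq_dvd_lvl (X : LCtx W p T b L₀ eps eP) {P : Finset ℕ}
    (hP : P ⊆ Pfin W (rbarB b) L₀) {t : ℕ} {qv : Fin t → Nat.Primes}
    (hnotT : ∀ i, ((qv i : Nat.Primes) : ℕ) ∉ T) {q : ℕ} (hq : q.Prime) (hqT : q ∈ T)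
    (hq2 : q ≠ 2) : ¬ q ^ 2 ∣ lvl (cellLevel L₀ P) (extP qv) t := by
  have hP' : ∀ q' ∈ P.erase 2, q'.Prime := fun q' h =>
    X.prime_of_mem_Pfin (hP (Finset.mem_of_mem_erase h))
  obtain ⟨M, hM, -, hsq⟩ := X.BP.shape
  have hTW := cellMk_not_dvd_prod_extP hnotT hq hqT
  have h4 : ¬ q ∣ 4 := fun h => by
    have : q ∣ 2 ^ 2 := by simpa using h
    exact hq2 ((Nat.prime_dvd_prime_iff_eq hq Nat.prime_two).1 (hq.dvd_of_dvd_pow this))
  rw [lvl_eq_prod, cellLevel]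
  intro hd
  by_cases hqP : q ∈ P
  · -- `q` is raised : `q ∤ L₀`
    have hqL : ¬ q ∣ L₀ := X.not_dvd_of_mem_Pfin (hP hqP) hq2
    have hmem : q ∈ P.erase 2 := Finset.mem_erase.2 ⟨hq2, hqP⟩
    rw [← Finset.mul_prod_erase _ _ hmem] at hd
    have hne : ¬ q ∣ ∏ q' ∈ (P.erase 2).erase q, q' := by
      rw [cellMk_dvd_prod_primes_iff (fun q' h => hP' q' (Finset.mem_of_mem_erase h)) hq]
      exact Finset.notMem_erase q _
    have e : L₀ * (q * ∏ q' ∈ (P.erase 2).erase q, q') *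
        ∏ j ∈ Finset.range t, (extP qv j * extP qv j) =
        q * (L₀ * (∏ q' ∈ (P.erase 2).erase q, q') *
          ∏ j ∈ Finset.range t, (extP qv j * extP qv j)) := by ring
    rw [e, pow_two] at hd
    have hd' := Nat.dvd_of_mul_dvd_mul_left hq.pos hd
    rcases (Nat.Prime.dvd_mul hq).1 hd' with h | h
    · rcases (Nat.Prime.dvd_mul hq).1 h with h | h
      · exact hqL h
      · exact hne h
    · exact hTW h
  · -- `q` is not raised
    have hne : ¬ q ∣ ∏ q' ∈ P.erase 2, q' := by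
      rw [cellMk_dvd_prod_primes_iff hP' hq]
      exact fun h => hqP (Finset.mem_of_mem_erase h)
    have e : L₀ * (∏ q' ∈ P.erase 2, q') * ∏ j ∈ Finset.range t, (extP qv j * extP qv j) =
        M * (4 * (∏ q' ∈ P.erase 2, q') * ∏ j ∈ Finset.range t, (extP qv j * extP qv j)) := by
      rw [hM]; ring
    rw [e] at hd
    have hc : Nat.Coprime (q ^ 2)
        (4 * (∏ q' ∈ P.erase 2, q') * ∏ j ∈ Finset.range t, (extP qv j * extP qv j)) := by
      refine Nat.Coprime.pow_left _ ((Nat.Prime.coprime_iff_not_dvd hq).2 fun h => ?_)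
      rcases (Nat.Prime.dvd_mul hq).1 h with h | h
      · rcases (Nat.Prime.dvd_mul hq).1 h with h | h
        · exact h4 h
        · exact hne h
      · exact hTW h
    have hdM : q ^ 2 ∣ M := hc.dvd_of_dvd_mul_right hd
    rw [pow_two] at hdM
    exact hq.one_lt.ne' (Nat.isUnit_iff.1 (hsq q hdM))

end Level

section Mk

variable {W : WeierstrassCurve ℤ} {p : ℕ} [Fact p.Prime] {T : Finset ℕ}
  {b : Module.Basis (Fin 2) (ZMod p) (TorsW W p)} {L₀ : ℕ} [NeZero L₀] {eps : ℕ → ℤ} {eP : GQ → ℤ}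

/-- **the common constructor of `IsCell`** : everything at the odd primes `≠ p`, except `LocSt` at the raised primes, is automatic. -/
theorem LCtx.isCell_of (X : LCtx W p T b L₀ eps eP) {P : Finset ℕ}
    (hP : P ⊆ Pfin W (rbarB b) L₀) (Lc : ℕ) [NeZero Lc] (hLc : Lc = cellLevel L₀ P) {t : ℕ}
    {qv : Fin t → Nat.Primes} (hnotT : ∀ i, ((qv i : Nat.Primes) : ℕ) ∉ T) (a : ℕ)
    (G : AddSubgroup (JZero (lvl Lc (extP qv) t)))
    (le : G ≤ thetaPart (lvl Lc (extP qv) t) p (↑(cutS T qv) : Set ℕ) W.apOfModel)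
    (gal : ∀ g : GQ, ∀ x ∈ G, g • x ∈ G) (box : ∀ x ∈ G, InBox p qv a x)
    (new : ∀ x ∈ G, ∀ i : Fin t, Tower.IsNewAt (lvl Lc (extP qv) t) (qv i) x)
    (st : ∀ q ∈ P, q ≠ p → LocSt q (eps q) (G : Set (JZero (lvl Lc (extP qv) t))))
    (two_ur : ¬ Ram (rbarB b) 2 → 2 ∉ P → LocUr 2 (G : Set (JZero (lvl Lc (extP qv) t))))
    (two_unip : Ram (rbarB b) 2 ∨ 2 ∈ P → LocUnip 2 (G : Set (JZero (lvl Lc (extP qv) t))))
    (atp : p ∣ Lc → LocPSt p eP a (G : Set (JZero (lvl Lc (extP qv) t)))) :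
    IsCell p T W.apOfModel (rbarB b) eps eP Lc qv a P G := by
  have hp : p.Prime := Fact.out
  have hsub : (G : Set (JZero (lvl Lc (extP qv) t))) ⊆ {x | ∃ n : ℕ, p ^ n • x = 0} :=
    fun x hx => (le hx).1
  -- odd primes of `T`, `≠ p`
  have hodd : ∀ q : ℕ, q.Prime → q ∈ T → q ≠ 2 → q ≠ p →
      LocUnip q (G : Set (JZero (lvl Lc (extP qv) t))) ∧
      (¬ q ∣ L₀ → q ∉ P → LocUr q (G : Set (JZero (lvl Lc (extP qv) t)))) := by
    intro q hq hqT hq2 hqp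
    have hiff : q ∣ lvl Lc (extP qv) t ↔ q ∣ L₀ ∨ q ∈ P := by
      rw [hLc]; exact X.cellMk_dvd_lvl_iff hP hnotT hq hqT hq2
    have hsq : ¬ q ^ 2 ∣ lvl Lc (extP qv) t := by
      rw [hLc]; exact X.cellMk_not_sq_dvd_lvl hP hnotT hq hqT hq2
    have hur : ¬ q ∣ lvl Lc (extP qv) t → LocUr q (G : Set (JZero (lvl Lc (extP qv) t))) :=
      fun hnd => (cellMk_locUr hq fun hd => by
        rcases (Nat.Prime.dvd_mul hq).1 hd with h | h
        · exact hnd h
        · exact hqp ((Nat.prime_dvd_prime_iff_eq hq hp).1 h)).mono hsub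
    refine ⟨?_, fun h1 h2 => hur fun hd => (hiff.1 hd).elim h1 h2⟩
    by_cases hd : q ∣ lvl Lc (extP qv) t
    · exact (cellMk_locUnip hq hp hqp hd hsq).mono hsub
    · exact (hur hd).locUnip
  refine ⟨le, gal, box, new, fun q hqP hqp => ⟨st q hqP hqp, ?_⟩, fun q hq hqT hqP hqp hram => ?_,
    fun q hq hqp hram => ?_, atp⟩
  · by_cases hq2 : q = 2
    · subst hq2
      exact two_unip (Or.inr hqP)
    · exact (hodd q (X.prime_of_mem_Pfin (hP hqP))
        (X.hbadT q (X.prime_of_mem_Pfin (hP hqP)) (X.dvd_of_mem_Pfin (hP hqP))) hq2 hqp).1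
  · by_cases hq2 : q = 2
    · subst hq2
      exact two_ur hram hqP
    · exact (hodd q hq hqT hq2 hqp).2 (fun hd => hram (X.BP.ram q hq hd hq2 hqp)) hqP
  · by_cases hq2 : q = 2
    · subst hq2
      exact two_unip (Or.inl hram)
    · have hqT : q ∈ T := by
        by_contra hqT
        obtain ⟨A, hA, σ, hσ, h1⟩ := hram
        exact h1 (X.C.unramT q hq hqT A hA σ hσ)
      exact (hodd q hq hqT hq2 hqp).1

end Mk

end Fermat.Agent.ML
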