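import Fermat.Agent.ML.Main.Asm1
import Fermat.Agent.ML.Low.Lower

/-!
# ML / Main / Asm2 : `LowerStmt` from helper94's `Low.lower`

The remaining contracts of LOWER are `Low.SqStmt` ((A), [SQ]) and `Low.GenStmtB` ((GEN) for LOWER-B), for every `MCtx`.
-/

set_option autoImplicit false

noncomputable section

open AlgebraicCurve ModularCurve

namespace Fermat.Agent.ML

open Fermat.Agent.RIB

local notation "GQ" => (AlgebraicClosure ℚ ≃ₐ[ℚ] AlgebraicClosure ℚ)
local notation "M₂" => Matrix (Fin 2) (Fin 2)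

/-- contract (A) of LOWER, for all contexts. -/
def SqAll : Prop :=
  ∀ (p : ℕ) [Fact p.Prime], (p = 3 ∨ p = 5) → ∀ (T : Finset ℕ) (θ : ℕ → ℤ)
    (rbar0 : GQ →* M₂ (ZMod p)), MCtx p T θ rbar0 → Low.SqStmt p T θ

/-- contract (GEN) of LOWER-B, for all contexts. -/
def GenBAll : Prop :=
  ∀ (p : ℕ) [Fact p.Prime], (p = 3 ∨ p = 5) → ∀ (T : Finset ℕ) (θ : ℕ → ℤ)
    (rbar0 : GQ →* M₂ (ZMod p)), MCtx p T θ rbar0 → Low.GenStmtB p T θ rbar0

theorem lowerStmt_of (hA : SqAll) (hB : GenBAll) : LowerStmt := by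
  intro p _ hp35 T θ rbar0 C M₁ _ hodd hcube hsq hT hocc
  have hM1 : M₁ ≠ 0 := fun h0 => NeZero.ne (M₁ * 4) (by rw [h0, zero_mul])
  haveI : NeZero M₁ := ⟨hM1⟩
  have hp : p.Prime := Fact.out
  obtain ⟨M, _, h1, h2, h3, -, h5⟩ := Low.lower C (hA p hp35 T θ rbar0 C) (hB p hp35 T θ rbar0 C)
    hodd hsq (fun q hq _ => hcube q hq) (fun r hr hrd => by
      rcases (Nat.Prime.dvd_mul hr).1 hrd with h | h
      · rcases (Nat.Prime.dvd_mul hr).1 h with h | h
        · exact hT r hr h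
        · have : r ∣ 2 ^ 2 := by simpa using h
          rw [(Nat.prime_dvd_prime_iff_eq hr Nat.prime_two).1 (hr.dvd_of_dvd_pow this)]
          exact C.two_mem
      · rw [(Nat.prime_dvd_prime_iff_eq hr hp).1 h]
        exact C.p_mem) hocc
  exact ⟨M, inferInstance, h1, h2, h3, h5⟩

end Fermat.Agent.ML
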