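import Fermat.Agent.ML.Main.Spec1

/-!
# ML / Main / Asm1 : the assembly of LAYER 1 of S59

* `start59p` : START + (G1) : an odd cube-free `M₁`, `p² ∤ M₁`, `p ∤ M₁` if `W` is good at `p`, with `WS (M₁ * 4) ≠ ⊥`.
* `base_of_lower_type2 : LowerStmt → Type2Stmt → BaseStmt`.
* `s59_of_base_lift : BaseStmt → LiftStmt →` the statement of S59.
-/

set_option autoImplicit false

noncomputable section

open AlgebraicCurve ModularCurve

namespace Fermat.Agent.ML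

open Fermat.Agent.RIB Fermat.Agent.ML.ESide

local notation "Qbar" => AlgebraicClosure ℚ
local notation "GQ" => (AlgebraicClosure ℚ ≃ₐ[ℚ] AlgebraicClosure ℚ)
local notation "M₂" => Matrix (Fin 2) (Fin 2)

/-- an odd prime dividing `M * 4` divides `M`. -/
theorem dvd_of_dvd_mul_four {p M : ℕ} (hp : p.Prime) (hp2 : p ≠ 2) (h : p ∣ M * 4) : p ∣ M := by
  rcases (Nat.Prime.dvd_mul hp).1 h with h | h
  · exact h
  · exfalso
    have h2 : p ∣ 2 ^ 2 := by simpa using h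
    exact hp2 ((Nat.prime_dvd_prime_iff_eq hp Nat.prime_two).1 (hp.dvd_of_dvd_pow h2))

/-- **[START + G1]** -/
theorem start59p {p : ℕ} (hp : p.Prime) (hp2 : p ≠ 2) (W : WeierstrassCurve ℤ) (hΔ : W.Δ ≠ 0)
    (hirr : W.ModRepIsIrreducible p)
    (M₀ : ℕ) [NeZero M₀] (hres₀ : W.IsResiduallyModularOfLevel p M₀) (hM₀ : ¬ p ^ 2 ∣ M₀)
    (hM₀3 : ∀ q : ℕ, q.Prime → q ≠ p → ¬ q ^ 3 ∣ M₀) :
    ∃ (M₁ : ℕ) (_ : NeZero (M₁ * 4)), Odd M₁ ∧ M₁ ∣ M₀ ∧ ¬ p ^ 2 ∣ M₁ ∧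
      (∀ q : ℕ, q.Prime → ¬ q ^ 3 ∣ M₁) ∧ (W.IsGoodPrimeFor p → ¬ p ∣ M₁) ∧
      ∀ S : Set ℕ, (↑(S40.badS W p (M₁ * 4)) : Set ℕ) ⊆ S → WS (M₁ * 4) p S W.apOfModel ≠ ⊥ := by
  obtain ⟨M₁, hodd, hd1, hd2⟩ := exists_odd_part (NeZero.ne M₀)
    (hM₀3 2 Nat.prime_two (Ne.symm hp2))
  have hM1 : M₁ ≠ 0 := fun h0 => NeZero.ne M₀ (Nat.eq_zero_of_zero_dvd (h0 ▸ hd1))
  have hne : M₁ * 4 ≠ 0 := mul_ne_zero hM1 (by norm_num)
  haveI : NeZero (M₁ * 4) := ⟨hne⟩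
  have hsq : ¬ p ^ 2 ∣ M₁ := fun h => hM₀ (h.trans hd1)
  have hcube : ∀ q : ℕ, q.Prime → ¬ q ^ 3 ∣ M₁ := fun q hq h => by
    by_cases hqp : q = p
    · subst hqp
      exact hM₀ ((pow_dvd_pow q (by norm_num)).trans (h.trans hd1))
    · exact hM₀3 q hq hqp (h.trans hd1)
  have hres1 : W.IsResiduallyModularOfLevel p (M₁ * 4) :=
    isResiduallyModularOfLevel_of_dvd hd2 hres₀
  by_cases hcase : W.IsGoodPrimeFor p ∧ p ∣ M₁
  · obtain ⟨hgood, Mr, rfl⟩ := hcase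
    have hMr0 : Mr ≠ 0 := fun h0 => hM1 (by rw [h0, mul_zero])
    have hne2 : Mr * 4 ≠ 0 := mul_ne_zero hMr0 (by norm_num)
    haveI : NeZero (Mr * 4) := ⟨hne2⟩
    have hpM2 : ¬ p ∣ Mr := fun h => hsq (by rw [pow_two]; exact Nat.mul_dvd_mul_left p h)
    have hres2 : W.IsResiduallyModularOfLevel p (Mr * 4 * p) := by
      have e : Mr * 4 * p = p * Mr * 4 := by ring
      rw [e]
      exact hres1
    have hres3 : W.IsResiduallyModularOfLevel p (Mr * 4) :=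
      lower_p_good W hΔ hp hp2 hgood hirr (fun h => hpM2 (dvd_of_dvd_mul_four hp hp2 h))
        (Dvd.dvd.mul_left (by norm_num) Mr) hres2
    have hd21 : Mr ∣ p * Mr := Dvd.intro_left p rfl
    refine ⟨Mr, ⟨hne2⟩, ?_, hd21.trans hd1, fun h => hsq (h.trans hd21),
      fun q hq h => hcube q hq (h.trans hd21), fun _ => hpM2, fun S hS => ?_⟩
    · exact (Nat.odd_mul.1 hodd).2
    · exact WS_ne_bot_of_dvd W hΔ hp dvd_rfl hres3 S hS
  · refine ⟨M₁, ⟨hne⟩, hodd, hd1, hsq, hcube, fun hg hd => hcase ⟨hg, hd⟩, fun S hS => ?_⟩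
    exact WS_ne_bot_of_dvd W hΔ hp dvd_rfl hres1 S hS

/-- if `M * 4 = L₁ * p`, `p` an odd prime, then `M = M' * p` and `L₁ = M' * 4`. -/
theorem exists_of_mul_four_eq {p M L₁ : ℕ} (hp : p.Prime) (hp2 : p ≠ 2) (h : M * 4 = L₁ * p) :
    ∃ M' : ℕ, M = M' * p ∧ L₁ = M' * 4 := by
  obtain ⟨M', rfl⟩ := dvd_of_dvd_mul_four hp hp2 (Dvd.intro_left L₁ h.symm)
  refine ⟨M', mul_comm _ _, ?_⟩
  have h1 : (M' * 4) * p = L₁ * p := by rw [← h]; ring
  exact (Nat.eq_of_mul_eq_mul_right hp.pos h1).symm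

/-- **BASE** from LOWER and AT-2: the `p`-split (Ma)/(Mb) is pure logic. -/
theorem base_of_lower_type2 (hLow : LowerStmt) (h2 : Type2Stmt) : BaseStmt := by
  intro W p _ H T hbadT b C M₁ _ hodd hcube hsq hT hgood hocc
  have hp : p.Prime := H.prime
  have hp2 : p ≠ 2 := H.ne_two
  have key := hLow p H.hp35 T W.apOfModel (rbarB b) C M₁ hodd hcube hsq hT hocc
  obtain ⟨M, _, hMd, hMsq, hMocc, hMram⟩ := key
  have hModd : Odd M := Odd.of_dvd_nat hodd hMd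
  -- the `p`-split
  have pre : ∃ (L₀ : ℕ) (_ : NeZero L₀), BasePre W p T (rbarB b) L₀ := by
    by_cases hs : ∃ (L₁ : ℕ) (_ : NeZero L₁), M * 4 = L₁ * p ∧
        WS L₁ p (↑T : Set ℕ) W.apOfModel ≠ ⊥
    · obtain ⟨L₁, i, hL₁, hW₁⟩ := hs
      obtain ⟨M', rfl, rfl⟩ := exists_of_mul_four_eq hp hp2 hL₁
      have hd : M' ∣ M' * p := Dvd.intro p rfl
      have hpM' : ¬ p ∣ M' := fun h =>
        hp.one_lt.ne' (Nat.isUnit_iff.1 (hMsq p (Nat.mul_dvd_mul_right h p)))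
      have hpL : ¬ p ∣ M' * 4 := fun h => hpM' (dvd_of_dvd_mul_four hp hp2 h)
      refine ⟨M' * 4, i, ⟨⟨M', rfl, (Nat.odd_mul.1 hModd).1, hMsq.squarefree_of_dvd hd⟩, ?_, ?_,
        fun _ => hpL, fun L₂ _ hL₂ => absurd (Dvd.intro_left L₂ hL₂.symm) hpL, hW₁⟩⟩
      · intro r hr hrd
        rcases (Nat.Prime.dvd_mul hr).1 hrd with h | h
        · rcases (Nat.Prime.dvd_mul hr).1 h with h | h
          · exact hT r hr ((h.trans hd).trans hMd)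
          · have : r ∣ 2 ^ 2 := by simpa using h
            rw [(Nat.prime_dvd_prime_iff_eq hr Nat.prime_two).1 (hr.dvd_of_dvd_pow this)]
            exact C.two_mem
        · rw [(Nat.prime_dvd_prime_iff_eq hr hp).1 h]
          exact C.p_mem
      · intro q hq hqd hq2 hqp
        exact hMram q hq ((dvd_of_dvd_mul_four hq hq2 hqd).trans hd) hqp
    · refine ⟨M * 4, inferInstance, ⟨⟨M, rfl, hModd, hMsq⟩, ?_, ?_, ?_, ?_, hMocc⟩⟩
      · intro r hr hrd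
        rcases (Nat.Prime.dvd_mul hr).1 hrd with h | h
        · rcases (Nat.Prime.dvd_mul hr).1 h with h | h
          · exact hT r hr (h.trans hMd)
          · have : r ∣ 2 ^ 2 := by simpa using h
            rw [(Nat.prime_dvd_prime_iff_eq hr Nat.prime_two).1 (hr.dvd_of_dvd_pow this)]
            exact C.two_mem
        · rw [(Nat.prime_dvd_prime_iff_eq hr hp).1 h]
          exact C.p_mem
      · intro q hq hqd hq2 hqp
        exact hMram q hq (dvd_of_dvd_mul_four hq hq2 hqd) hqp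
      · intro hg hd
        exact hgood hg ((dvd_of_dvd_mul_four hp hp2 hd).trans hMd)
      · intro L₁ _ hL₁
        by_contra hne
        exact hs ⟨L₁, inferInstance, hL₁, hne⟩
  obtain ⟨L₀, i, hpre⟩ := pre
  exact ⟨L₀, i, { toBasePre := hpre, occ2 := h2 W p H T hbadT b C L₀ hpre }⟩

/-- **LAYER 1** : the statement of S59 from the contracts BASE and LIFT. -/
theorem s59_of_base_lift (hB : BaseStmt) (hL : LiftStmt) (p : ℕ) (hp : p = 3 ∨ p = 5)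
    (W : WeierstrassCurve ℤ) (hΔ : W.Δ ≠ 0) (hW : W.IsSemistableModel)
    (hirr : W.ModRepIsIrreducible p) (M₀ : ℕ) [NeZero M₀]
    (hres₀ : W.IsResiduallyModularOfLevel p M₀) (hM₀ : ¬ p ^ 2 ∣ M₀)
    (hM₀3 : ∀ q : ℕ, q.Prime → q ≠ p → ¬ q ^ 3 ∣ M₀) :
    Mlc1IsModularModelOfExactConductorLevel W := by
  have H : Hyp59 W p := ⟨hp, hΔ, hW, hirr⟩
  have hpp : p.Prime := H.prime
  have hp2 : p ≠ 2 := H.ne_two
  haveI : Fact p.Prime := ⟨hpp⟩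
  have hM04 : M₀ * 4 ≠ 0 := mul_ne_zero (NeZero.ne M₀) (by norm_num)
  set T : Finset ℕ := S40.badS W p (M₀ * 4) with hTdef
  have hmemT : ∀ r : ℕ, r.Prime → r ∉ T → W.IsGoodPrimeFor r ∧ ¬ r ∣ M₀ * 4 ∧ r ≠ p :=
    fun r hr h => (S40.notMem_badS_iff hΔ hM04 hr).1 h
  have h2T : 2 ∈ T := by
    by_contra h
    exact (hmemT 2 Nat.prime_two h).2.1 (Dvd.dvd.mul_left (by norm_num) M₀)
  have hpT : p ∈ T := by
    by_contra h
    exact (hmemT p hpp h).2.2 rfl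
  have hbadT : ∀ r : ℕ, r.Prime → (r : ℤ) ∣ W.Δ → r ∈ T := fun r hr hd => by
    by_contra h
    exact (hmemT r hr h).1 hd
  obtain ⟨M₁, _, hodd, hd1, hsq, hcube, hgood, hocc⟩ :=
    start59p hpp hp2 W hΔ hirr M₀ hres₀ hM₀ hM₀3
  have hM1T : ∀ q : ℕ, q.Prime → q ∣ M₁ → q ∈ T := fun q hq hd => by
    by_contra h
    exact (hmemT q hq h).2.1 ((hd.trans hd1).mul_right 4)
  have hsub : (↑(S40.badS W p (M₁ * 4)) : Set ℕ) ⊆ (↑T : Set ℕ) := by
    intro r hr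
    rw [Finset.mem_coe] at hr ⊢
    rw [S40.badS, Finset.mem_insert, Finset.mem_union] at hr
    rw [hTdef, S40.badS, Finset.mem_insert, Finset.mem_union]
    rcases hr with h | h | h
    · exact Or.inl h
    · exact Or.inr (Or.inl h)
    · refine Or.inr (Or.inr ?_)
      rw [Nat.mem_primeFactors] at h ⊢
      exact ⟨h.1, h.2.1.trans (Nat.mul_dvd_mul_right hd1 4), hM04⟩
  obtain ⟨b, C⟩ := exists_mctx (W := W) (p := p) hΔ hW hp2 hirr T h2T hpT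
    (fun r hr h => (hmemT r hr h).1)
  obtain ⟨L₀, _, P⟩ := hB W p H T hbadT b C M₁ hodd hcube hsq hM1T hgood (hocc _ hsub)
  haveI : NeZero (finLevel W L₀) := ⟨finLevel_ne_zero W (NeZero.ne L₀)⟩
  have hmod : ModStmt W p (finLevel W L₀) T := hL W p H T hbadT b C L₀ P _ rfl
  obtain ⟨M, hLM, hModd, hMsq⟩ := P.shape
  obtain ⟨M', hM', hM'odd, hM'sq⟩ := finLevel_shape W hLM hModd hMsq
  have hpr : ∀ q ∈ Rz W L₀, q.Prime := fun q hq => prime_of_mem_Rz hq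
  refine top59 hΔ hW hpp hp2 hirr ?_ ?_ ?_ ?_ hmod
  · intro ℓ hℓ hd
    rcases (Nat.Prime.dvd_mul hℓ).1 hd with h | h
    · exact P.levT ℓ hℓ (h.mul_right p)
    · exact hbadT ℓ hℓ ((mem_Rz hΔ).1 ((prime_dvd_prod_iff hpr hℓ).1 h)).2.1
  · intro ℓ hℓ hd
    by_cases h : ℓ ∣ L₀
    · exact h.mul_right _
    · exact Dvd.dvd.mul_left ((prime_dvd_prod_iff hpr hℓ).2 ((mem_Rz hΔ).2 ⟨hℓ, hd, h⟩)) _
  · intro q hq
    rw [hM']
    exact not_cube_dvd_of_shape hM'odd hM'sq q hq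
  · rw [hM']
    exact not_sq_dvd_of_shape hM'sq p hpp hp2

end Fermat.Agent.ML
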