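import Fermat.Agent.ML.Main.Cell

/-!
# ML / Main / CellAsm : the assembly of layer 2b

`eigTop_of_cells : ESignStmt → BaseCellStmt → StepCellStmt → FinCellStmt → EigTopStmt`, hence
`lift_of_cells : … → LiftStmt`.
-/

set_option autoImplicit false

noncomputable section

open AlgebraicCurve ModularCurve

namespace Fermat.Agent.ML

open Fermat.Agent.RIB Fermat.Agent.RIB.Rho Fermat.Agent.ML.ESide Fermat.Agent.S56
  Fermat.Agent.S56.Flat

local notation "Qbar" => AlgebraicClosure ℚ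
local notation "GQ" => (AlgebraicClosure ℚ ≃ₐ[ℚ] AlgebraicClosure ℚ)
local notation "M₂" => Matrix (Fin 2) (Fin 2)

/-- finitely many statements `∃ F C, Q i F C`, monotone in `(F, C)`, hold for one pair `(F, C)`. -/
theorem exists_uniform {ι : Type*} (s : Finset ι) (Q : ι → ℕ → ℕ → Prop)
    (hmono : ∀ i F C F' C', Q i F C → F ≤ F' → C ≤ C' → Q i F' C')
    (h : ∀ i ∈ s, ∃ F C, Q i F C) : ∃ F C, ∀ i ∈ s, Q i F C := by
  classical
  induction s using Finset.induction_on with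
  | empty => exact ⟨0, 0, fun i hi => absurd hi (Finset.notMem_empty i)⟩
  | insert a s _ ih =>
    obtain ⟨F₁, C₁, h₁⟩ := ih fun i hi => h i (Finset.mem_insert_of_mem hi)
    obtain ⟨F₂, C₂, h₂⟩ := h a (Finset.mem_insert_self a s)
    refine ⟨F₁ + F₂, C₁ + C₂, fun i hi => ?_⟩
    rcases Finset.mem_insert.1 hi with rfl | hi
    · exact hmono _ _ _ _ _ h₂ (Nat.le_add_left _ _) (Nat.le_add_left _ _)
    · exact hmono _ _ _ _ _ (h₁ i hi) (Nat.le_add_right _ _) (Nat.le_add_right _ _)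

/-- raising the primes of a finite set in the order of a rank function. -/
theorem raise_induction (Pf : Finset ℕ) (rk : ℕ → ℕ) (Big : Finset ℕ → Prop)
    (hstep : ∀ (P : Finset ℕ) (q : ℕ), P ⊆ Pf → q ∈ Pf → q ∉ P → (∀ q' ∈ P, rk q' ≤ rk q) →
      (∀ q' ∈ Pf, q' ∉ P → rk q ≤ rk q') → Big P → Big (insert q P))
    (h0 : Big ∅) : Big Pf := by
  classical
  have key : ∀ (j : ℕ) (P : Finset ℕ), P ⊆ Pf → (Pf \ P).card = j →
      (∀ q' ∈ P, ∀ q'' ∈ Pf, q'' ∉ P → rk q' ≤ rk q'') → Big P → Big Pf := by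
    intro j
    induction j with
    | zero =>
      intro P hP hc _ hB
      have h1 : Pf \ P = ∅ := Finset.card_eq_zero.1 hc
      have h2 : Pf ⊆ P := Finset.sdiff_eq_empty_iff_subset.1 h1
      rwa [Finset.Subset.antisymm h2 hP]
    | succ j ih =>
      intro P hP hc hinv hB
      have hne : (Pf \ P).Nonempty := by
        rw [← Finset.card_pos, hc]
        exact Nat.succ_pos j
      obtain ⟨q, hq, hmin⟩ := Finset.exists_min_image (Pf \ P) rk hne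
      obtain ⟨hqf, hqP⟩ := Finset.mem_sdiff.1 hq
      have hmin' : ∀ q' ∈ Pf, q' ∉ P → rk q ≤ rk q' := fun q' h1 h2 =>
        hmin q' (Finset.mem_sdiff.2 ⟨h1, h2⟩)
      refine ih (insert q P) (Finset.insert_subset hqf hP) ?_ ?_
        (hstep P q hP hqf hqP (fun q' hq' => hinv q' hq' q hqf hqP) hmin' hB)
      · have h3 : Pf \ insert q P = (Pf \ P).erase q := by
          ext x
          simp only [Finset.mem_sdiff, Finset.mem_insert, Finset.mem_erase, not_or]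
          tauto
        rw [h3, Finset.card_erase_of_mem hq, hc]
        rfl
      · intro q' hq' q'' hq''f hq''P
        have h4 : q'' ∉ P := fun h => hq''P (Finset.mem_insert_of_mem h)
        rcases Finset.mem_insert.1 hq' with rfl | hq'
        · exact hmin' q'' hq''f h4
        · exact hinv q' hq' q'' hq''f h4
  exact key _ ∅ (Finset.empty_subset _) rfl (fun q' hq' => absurd hq' (Finset.notMem_empty q')) h0

/-- the final level is the level of the cells in the state `Pfin`. -/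
theorem cellLevel_Pfin (W : WeierstrassCurve ℤ) {p : ℕ} (rbar0 : GQ →* M₂ (ZMod p)) {L₀ : ℕ}
    (h2 : 2 ∣ L₀) : cellLevel L₀ (Pfin W rbar0 L₀) = finLevel W L₀ := by
  have h : (Pfin W rbar0 L₀).erase 2 = Rz W L₀ := by
    ext q
    simp only [Pfin, Rz, Finset.mem_erase, Finset.mem_filter]
    constructor
    · rintro ⟨hq2, hq, h | ⟨h, -⟩⟩
      · exact ⟨hq, h⟩
      · exact absurd h hq2
    · rintro ⟨hq, h⟩
      exact ⟨fun h' => h (h' ▸ h2), hq, Or.inl h⟩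
  rw [cellLevel, finLevel, h]

/-- the primes of the final level are in `T`. -/
theorem mem_T_of_dvd_finLevel {W : WeierstrassCurve ℤ} (hΔ : W.Δ ≠ 0) {p : ℕ} {T : Finset ℕ}
    (hbadT : ∀ r : ℕ, r.Prime → (r : ℤ) ∣ W.Δ → r ∈ T) {L₀ : ℕ}
    (hlev : ∀ r : ℕ, r.Prime → r ∣ L₀ * p → r ∈ T) {r : ℕ} (hr : r.Prime)
    (hd : r ∣ finLevel W L₀ * p) : r ∈ T := by
  have e : finLevel W L₀ * p = (L₀ * p) * ∏ q ∈ Rz W L₀, q := by rw [finLevel]; ring
  rw [e] at hd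
  rcases (Nat.Prime.dvd_mul hr).1 hd with h | h
  · exact hlev r hr h
  · have h1 := (prime_dvd_prod_iff (fun q hq => prime_of_mem_Rz hq) hr).1 h
    exact hbadT r hr ((mem_Rz hΔ).1 h1).2.1

/-- **layer 2b.** -/
theorem eigTop_of_cells (hE : ESignStmt) (hBase : BaseCellStmt) (hStep : StepCellStmt)
    (hFin : FinCellStmt) : EigTopStmt := by
  intro W p _ H T hbadT b C L₀ _ BP L _ hL
  classical
  obtain ⟨⟨eps, heps⟩, hP⟩ := hE W p H
  obtain ⟨eP, heP⟩ : ∃ eP : GQ → ℤ, (p : ℤ) ∣ W.Δ → SignP W p eP := by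
    by_cases hd : (p : ℤ) ∣ W.Δ
    · obtain ⟨eP, h⟩ := hP hd
      exact ⟨eP, fun _ => h⟩
    · exact ⟨fun _ => 1, fun h => absurd h hd⟩
  have X : LCtx W p T b L₀ eps eP := ⟨H, hbadT, C, BP, heps, heP⟩
  obtain ⟨t, ht⟩ := C.exists_frm H.hp35
  refine ⟨t, fun k => ?_⟩
  obtain ⟨Fb, Cb, hb⟩ := hBase W p T b L₀ eps eP X t
  obtain ⟨rk, hs⟩ := hStep W p T b L₀ eps eP X t
  obtain ⟨Ff, Cf, hf⟩ := hFin W p T b L₀ eps eP X t k
  set Pf := Pfin W (rbarB b) L₀ with hPf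
  -- uniform constants for the steps
  obtain ⟨Fs, Cs, hs'⟩ := exists_uniform (Pf.powerset ×ˢ Pf)
    (fun i F₀ C₀ => i.1 ⊆ Pf → i.2 ∈ Pf → i.2 ∉ i.1 → (∀ q' ∈ i.1, rk q' ≤ rk i.2) →
      (∀ q' ∈ Pf, q' ∉ i.1 → rk i.2 ≤ rk q') →
      ∀ (a m n K : ℕ) (qv : Fin t → Nat.Primes),
        Frm p X.C.hp2 T W.apOfModel (rbarB b) t F₀ C₀ a m n K qv →
        CellBig p T W.apOfModel (rbarB b) eps eP L₀ qv a m i.1 →
        CellBig p T W.apOfModel (rbarB b) eps eP L₀ qv a m (insert i.2 i.1))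
    (fun i F₀ C₀ F' C' h hF hC h1 h2 h3 h4 h5 a m n K qv hfr =>
      h h1 h2 h3 h4 h5 a m n K qv (hfr.mono hF hC))
    (fun i _ => by
      by_cases hadm : i.1 ⊆ Pf ∧ i.2 ∈ Pf ∧ i.2 ∉ i.1 ∧ (∀ q' ∈ i.1, rk q' ≤ rk i.2) ∧
          (∀ q' ∈ Pf, q' ∉ i.1 → rk i.2 ≤ rk q')
      · obtain ⟨h1, h2, h3, h4, h5⟩ := hadm
        obtain ⟨F₀, C₀, h⟩ := hs i.1 i.2 h1 h2 h3 h4 h5
        exact ⟨F₀, C₀, fun _ _ _ _ _ => h⟩
      · exact ⟨0, 0, fun h1 h2 h3 h4 h5 => absurd ⟨h1, h2, h3, h4, h5⟩ hadm⟩)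
  obtain ⟨a, m, n, K, qv, hfr⟩ := ht (Fb + Fs + Ff) (Cb + Cs + Cf)
  have hfr' : Frm p X.C.hp2 T W.apOfModel (rbarB b) t (Fb + Fs + Ff) (Cb + Cs + Cf) a m n K qv :=
    hfr
  have h0 := hb a m n K qv (hfr'.mono (by omega) (by omega))
  have hbig : CellBig p T W.apOfModel (rbarB b) eps eP L₀ qv a m Pf :=
    raise_induction Pf rk _ (fun P q h1 h2 h3 h4 h5 hB =>
      hs' (P, q) (Finset.mem_product.2 ⟨Finset.mem_powerset.2 h1, h2⟩) h1 h2 h3 h4 h5 a m n K qv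
        (hfr'.mono (by omega) (by omega)) hB) h0
  obtain ⟨M, hLM, -, -⟩ := BP.shape
  have h2L : 2 ∣ L₀ := hLM ▸ Dvd.dvd.mul_left (by norm_num) M
  have h4L : 4 ∣ L := by
    rw [hL, finLevel, hLM]
    exact Dvd.dvd.mul_right (Dvd.intro_left M rfl) _
  have hLc : L = cellLevel L₀ Pf := by rw [hL, hPf, cellLevel_Pfin W (rbarB b) h2L]
  obtain ⟨G, hG, hGm⟩ := hbig L hLc
  obtain ⟨B, hB1, hB2, hB3⟩ := exists_EK H.hΔ H.ne_two H.hirr T
    (fun r hr hrT => ⟨fun hd => hrT (hbadT r hr hd), fun h => hrT (h ▸ C.p_mem)⟩) b C.nf K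
  obtain ⟨x, hxG, hx, hxk⟩ := hf a m n K qv (hfr'.mono (by omega) (by omega)) L hLc G hG hGm B hB1
    hB2 hB3
  exact ⟨n, K, qv, B,
    hfr.tw L (fun r hr hd => mem_T_of_dvd_finLevel H.hΔ hbadT BP.levT hr (hL ▸ hd)) h4L, hB2, x,
    hG.le hxG, hx, hxk⟩

/-- **LIFT from the four contracts on cells.** -/
theorem lift_of_cells (hE : ESignStmt) (hBase : BaseCellStmt) (hStep : StepCellStmt)
    (hFin : FinCellStmt) : LiftStmt :=
  lift_of_eigTop (eigTop_of_cells hE hBase hStep hFin)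

end Fermat.Agent.ML
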