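import Fermat.Agent.ML.Main.Cell

/-!
# ML / Main / CellNew : a Galois-stable subgroup of a cell is a cell

`IsCell.mono` : `G' ≤ G`, `G'` Galois stable, `G` a cell  ⟹  `G'` a cell (same state, same box).

-/

set_option autoImplicit false

noncomputable section

open AlgebraicCurve ModularCurve

namespace Fermat.Agent.ML

open Fermat.Agent.RIB Fermat.Agent.RIB.Rho Fermat.Agent.ML.ESide Fermat.Agent.S56 Fermat.Agent.S56.Flat

local notation "Qbar" => AlgebraicClosure ℚ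
local notation "GQ" => (AlgebraicClosure ℚ ≃ₐ[ℚ] AlgebraicClosure ℚ)
local notation "M₂" => Matrix (Fin 2) (Fin 2)

/-- a Galois-stable subgroup of a cell is a cell. -/
theorem IsCell.mono {p : ℕ} [Fact p.Prime] {T : Finset ℕ} {θ : ℕ → ℤ}
    {rbar0 : GQ →* M₂ (ZMod p)} {eps : ℕ → ℤ} {eP : GQ → ℤ} {Lc : ℕ} [NeZero Lc] {t : ℕ}
    {qv : Fin t → Nat.Primes} {a : ℕ} {P : Finset ℕ}
    {G G' : AddSubgroup (JZero (lvl Lc (extP qv) t))}
    (hG : IsCell p T θ rbar0 eps eP Lc qv a P G) (hle : G' ≤ G)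
    (hgal : ∀ g : GQ, ∀ x ∈ G', g • x ∈ G') : IsCell p T θ rbar0 eps eP Lc qv a P G' where
  le := hle.trans hG.le
  gal := hgal
  box := fun x hx => hG.box x (hle hx)
  new := fun x hx i => hG.new x (hle hx) i
  st := fun q hq hqp =>
    ⟨fun A hA σ hσ τ hτ x hx => (hG.st q hq hqp).1 A hA σ hσ τ hτ x (hle hx),
      fun A hA τ hτ τ' hτ' x hx => (hG.st q hq hqp).2 A hA τ hτ τ' hτ' x (hle hx)⟩
  ur := fun q hq hqT hqP hqp hR A hA τ hτ x hx => hG.ur q hq hqT hqP hqp hR A hA τ hτ x (hle hx)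
  unip := fun q hq hqp hR A hA τ hτ τ' hτ' x hx =>
    hG.unip q hq hqp hR A hA τ hτ τ' hτ' x (hle hx)
  atp := fun hp s₁ h₁ s₂ h₂ x hx c hc => hG.atp hp s₁ h₁ s₂ h₂ x (hle hx) c hc

end Fermat.Agent.ML
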