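import Fermat.Agent.ML.Main.Cell
import Fermat.Agent.ML.ESide.Steinberg
import Fermat.Agent.ML.EOrd.Strict
import Fermat.Agent.Common.PlaceBridge

/-!
# ML / Main / ESign : the contract **(E-SIGN)** of `ML/Main/Cell.lean` is a theorem

* `signE_exists` : the signs `eps q` of `W` at the bad primes `q ≠ p`.  `ESide.exists_steinberg` gives a sign for ONE place `A ∣ q`;
  all the places above `q` are conjugate (`Bridge.exists_smul_eq`) and the three Steinberg relations are stable under conjugation,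
  so the same sign works for every place.
* `signP_exists` : the sign character at `p` = `EOrd.strict_at_p` at the place `Ap p`.
* `eSignStmt : ESignStmt`.
-/

set_option autoImplicit false

noncomputable section

namespace Fermat.Agent.ML

open Fermat.Agent.S56 Fermat.Agent.S56.Flat Fermat.Agent.HW
open scoped Pointwise

local notation "Qbar" => AlgebraicClosure ℚ
local notation "GQ" => (AlgebraicClosure ℚ ≃ₐ[ℚ] AlgebraicClosure ℚ)

section aux

variable {W : WeierstrassCurve ℤ}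

theorem eq_gsub (g : GQ) (x y : S58.EQ W) : g • (x - y) = g • x - g • y :=
  map_sub (DistribSMul.toAddMonoidHom (S58.EQ W) g) x y

theorem eq_gzsmul (g : GQ) (n : ℤ) (x : S58.EQ W) : g • (n • x) = n • g • x :=
  map_zsmul (DistribSMul.toAddMonoidHom (S58.EQ W) g) n x

theorem eq_gnsmul (g : GQ) (n : ℕ) (x : S58.EQ W) : g • (n • x) = n • g • x :=
  map_nsmul (DistribSMul.toAddMonoidHom (S58.EQ W) g) n x

theorem eq_gzero (g : GQ) : g • (0 : S58.EQ W) = 0 :=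
  map_zero (DistribSMul.toAddMonoidHom (S58.EQ W) g)

end aux

/-- the Steinberg relations at ONE place `A ∣ q` give them at all the places above `q`. -/
theorem locSt_of_place (W : WeierstrassCurve ℤ) {q : ℕ} (hq : q.Prime) (ε : ℤ) (m : ℕ)
    (A : ValuationSubring Qbar) (hA : A.LiesOverPrime q)
    (h : ∀ φ : GQ, A.IsFrobeniusAt φ q → ∀ P : S58.EQ W, m • P = 0 →
      (∀ τ ∈ A.inertiaSubgroupIn ℚ, φ • (τ • P - P) = (ε * (q : ℤ)) • (τ • P - P)) ∧
      (∀ τ ∈ A.inertiaSubgroupIn ℚ, τ • (φ • P - ε • P) = φ • P - ε • P) ∧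
      φ • (φ • P - ε • P) = (ε * (q : ℤ)) • (φ • P - ε • P)) :
    LocSt q ε {x : S58.EQ W | m • x = 0} := by
  intro A' hA' σ hσ τ hτ x hx
  obtain ⟨g, rfl⟩ := Bridge.exists_smul_eq hq hA hA'
  rw [Bridge.isFrobeniusAt_smul_iff hq hA] at hσ
  rw [Bridge.mem_inertia_smul_iff hq hA] at hτ
  have hx' : m • (g⁻¹ • x) = 0 := by
    rw [← eq_gnsmul, show m • x = 0 from hx, eq_gzero]
  obtain ⟨h1, h2, h3⟩ := h _ hσ (g⁻¹ • x) hx'
  have h1' := h1 _ hτ
  have h2' := h2 _ hτ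
  have eσ : ∀ y : S58.EQ W, g • ((g⁻¹ * σ * g) • (g⁻¹ • y)) = σ • y := by
    intro y
    rw [mul_smul, mul_smul, smul_inv_smul, smul_inv_smul]
  have eτ : ∀ y : S58.EQ W, g • ((g⁻¹ * τ * g) • (g⁻¹ • y)) = τ • y := by
    intro y
    rw [mul_smul, mul_smul, smul_inv_smul, smul_inv_smul]
  have eσ' : ∀ y : S58.EQ W, (g⁻¹ * σ * g) • (g⁻¹ • y) = g⁻¹ • (σ • y) := by
    intro y
    rw [mul_smul, mul_smul, smul_inv_smul]
  have eτ' : ∀ y : S58.EQ W, (g⁻¹ * τ * g) • (g⁻¹ • y) = g⁻¹ • (τ • y) := by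
    intro y
    rw [mul_smul, mul_smul, smul_inv_smul]
  refine ⟨?_, ?_, ?_⟩
  · have := congrArg (fun y => g • y) h1'
    rw [eτ', ← eq_gsub, eσ', eq_gzsmul, smul_inv_smul, smul_inv_smul] at this
    exact this
  · have := congrArg (fun y => g • y) h2'
    rw [eσ', ← eq_gzsmul, ← eq_gsub, eτ', smul_inv_smul, smul_inv_smul] at this
    exact this
  · have := congrArg (fun y => g • y) h3
    rw [eσ', ← eq_gzsmul, ← eq_gsub, eσ', eq_gzsmul, smul_inv_smul, smul_inv_smul] at this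
    exact this

/-- **[E-ST]** for all the places : the signs of `W`. -/
theorem signE_exists {W : WeierstrassCurve ℤ} {p : ℕ} (H : Hyp59 W p) : ∃ eps : ℕ → ℤ, SignE W p eps := by
  classical
  have hp : p.Prime := H.prime
  have key : ∀ q : ℕ, ∃ ε : ℤ, q.Prime → q ≠ p → (q : ℤ) ∣ W.Δ → (ε = 1 ∨ ε = -1) ∧
      ∀ K : ℕ, LocSt q ε {x : S58.EQ W | p ^ K • x = 0} := by
    intro q
    by_cases hq : q.Prime ∧ q ≠ p ∧ (q : ℤ) ∣ W.Δ
    · obtain ⟨hq, hqp, hqΔ⟩ := hq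
      obtain ⟨A, hA⟩ := S54.exists_liesOverPrime hq
      obtain ⟨ε, hε, h⟩ := ESide.exists_steinberg W hq H.hΔ hqΔ (H.hss q hq hqΔ) A hA
      refine ⟨ε, fun _ _ _ => ⟨hε, fun K => ?_⟩⟩
      refine locSt_of_place W hq ε (p ^ K) A hA (h (p ^ K) (H.odd.pow) ?_)
      intro hd
      exact hqp ((Nat.prime_dvd_prime_iff_eq hq hp).1 (hq.dvd_of_dvd_pow hd))
    · exact ⟨1, fun h1 h2 h3 => absurd ⟨h1, h2, h3⟩ hq⟩
  choose eps heps using key
  exact ⟨eps, fun q hq hqp hqΔ => heps q hq hqp hqΔ⟩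

/-- **[E-ORD]** at the place `Ap p` : the sign character of `W` at `p`. -/
theorem signP_exists {W : WeierstrassCurve ℤ} {p : ℕ} [Fact p.Prime] (H : Hyp59 W p)
    (hpΔ : (p : ℤ) ∣ W.Δ) : ∃ eP : GQ → ℤ, SignP W p eP := by
  have hA : (Ap p).LiesOverPrime p := CFT.LS.liesOverPrime_primeLocalPlace _
  obtain ⟨e, h1, h2, h3, h4⟩ := EOrd.strict_at_p W H.hΔ H.prime H.ne_two H.hirr hpΔ
    (H.hss p H.prime hpΔ) (Ap p) hA
  exact ⟨e, h1, h2, h3, fun K s₁ hs₁ s₂ hs₂ x hx a ha => h4 K s₁ hs₁ s₂ hs₂ x hx a ha⟩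

/-- **(E-SIGN)**. -/
theorem eSignStmt : ESignStmt :=
  fun _ _ _ H => ⟨signE_exists H, fun hpΔ => signP_exists H hpΔ⟩

end Fermat.Agent.ML
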