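import Fermat.Agent.ML.Main.Ctx
import Fermat.Agent.ML.Low.Main.PerLevel
import Fermat.Agent.ML.Rho.Joint
import Fermat.Agent.RIB.Grow.Tau
import Fermat.Agent.SS.Top35.SMO

/-!
# ML / Main / Eig : Galois eigenclasses and their descent along the Taylor-Wiles tower   (layer 2a of S59)

* `IsEig tE x` (`tE : G_ℚ → ℤ/m`, `tE g = tr rE(g)`) : `m x = 0` and `g + χ(g) g⁻¹ = tE(g)` on the whole Galois orbit of `x`.
  This is `x ∈ X[PP]` (`PP = ker πE`), expressed by the Galois action ONLY : it is transported by all equivariant maps.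
* `IsEig.hecke` : `T_r x = a_r x` for `r ∤ N p` (Eichler-Shimura).
* `IsEig.step` : `x ∈ thetaPart (L l l)`, `IsEig`, `p^(2B) x ≠ 0` ⟹ `∃ v ∈ thetaPart L`, `IsEig`, `p^B v ≠ 0`.
* `IsEig.descend` : the same along the tower `lvl L₀ (extP qv) i`.
-/

set_option autoImplicit false

noncomputable section

open AlgebraicCurve ModularCurve

namespace Fermat.Agent.ML

open Fermat.Agent.RIB Fermat.Agent.RIB.Rho Fermat.Agent.GAL

local notation "Qbar" => AlgebraicClosure ℚ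
local notation "GQ" => (AlgebraicClosure ℚ ≃ₐ[ℚ] AlgebraicClosure ℚ)
local notation "M₂" => Matrix (Fin 2) (Fin 2)

/-- Galois eigenclass modulo `m` with the traces `tE`. -/
def IsEig {N m : ℕ} [NeZero m] (tE : GQ → ZMod m) (x : JZero N) : Prop :=
  m • x = 0 ∧ ∀ (h g : GQ) (a c : ℤ), (a : ZMod m) = chiM m g → (c : ZMod m) = tE g →
    g • h • x + a • g⁻¹ • h • x = c • h • x

section aux

variable {N : ℕ}

theorem gal_zero (σ : GQ) : σ • (0 : JZero N) = 0 :=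
  map_zero (DistribSMul.toAddMonoidHom (JZero N) σ)

theorem gal_nsmul (σ : GQ) (n : ℕ) (x : JZero N) : σ • (n • x) = n • σ • x :=
  map_nsmul (DistribSMul.toAddMonoidHom (JZero N) σ) n x

theorem gal_zsmul (σ : GQ) (n : ℤ) (x : JZero N) : σ • (n • x) = n • σ • x :=
  map_zsmul (DistribSMul.toAddMonoidHom (JZero N) σ) n x

theorem zsmul_nsmul_comm {X : Type*} [AddCommGroup X] (a : ℤ) (k : ℕ) (y : X) :
    a • (k • y) = k • (a • y) := by
  rw [← natCast_zsmul, ← natCast_zsmul, ← mul_zsmul, mul_comm, mul_zsmul]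

end aux

namespace IsEig

variable {N m : ℕ} [NeZero m] {tE : GQ → ZMod m}

theorem smul {x : JZero N} (hx : IsEig tE x) (σ : GQ) : IsEig tE (σ • x) := by
  refine ⟨by rw [← gal_nsmul, hx.1, gal_zero], fun h g a c ha hc => ?_⟩
  have := hx.2 (h * σ) g a c ha hc
  rwa [mul_smul] at this

theorem sub {x y : JZero N} (hx : IsEig tE x) (hy : IsEig tE y) : IsEig tE (x - y) := by
  refine ⟨by rw [nsmul_sub, hx.1, hy.1, sub_zero], fun h g a c ha hc => ?_⟩
  have h1 := hx.2 h g a c ha hc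
  have h2 := hy.2 h g a c ha hc
  rw [smul_sub, smul_sub, smul_sub, zsmul_sub, zsmul_sub, ← h1, ← h2]
  abel

theorem nsmul {x : JZero N} (hx : IsEig tE x) (k : ℕ) : IsEig tE (k • x) := by
  refine ⟨by rw [← mul_nsmul', mul_comm, mul_nsmul', hx.1, smul_zero], fun h g a c ha hc => ?_⟩
  have h1 := hx.2 h g a c ha hc
  rw [gal_nsmul, gal_nsmul, gal_nsmul, zsmul_nsmul_comm, zsmul_nsmul_comm, ← nsmul_add, h1]

/-- `(τ - 1)² x = 0` if `tE τ = 2`, `χ τ = 1`. -/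
theorem unip {x : JZero N} (hx : IsEig tE x) {τ : GQ} (h1 : chiM m τ = 1) (h2 : tE τ = 2) :
    τ • (τ • x - x) = τ • x - x := by
  have h := hx.2 1 τ 1 2 (by rw [h1, Int.cast_one]) (by rw [h2]; norm_num)
  rw [one_smul, one_zsmul] at h
  have h' := congrArg (fun y => τ • y) h
  simp only [smul_add, smul_inv_smul, gal_zsmul] at h'
  rw [smul_sub]
  have e : τ • τ • x = (2 : ℤ) • τ • x - x := by rw [← h']; abel
  rw [e, two_zsmul]
  abel

/-- **Eichler-Shimura** : a Galois eigenclass is a Hecke eigenclass. -/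
theorem hecke [NeZero N] {p k : ℕ} (hm : m = p ^ k) {x : JZero N} (hx : IsEig tE x) {r : ℕ}
    (hr : r.Prime) (hrN : ¬ r ∣ N * p) {A : ValuationSubring Qbar} (hA : A.LiesOverPrime r)
    {φ : GQ} (hφ : A.IsFrobeniusAt φ r) (c : ℤ) (h1 : chiM m φ = (r : ZMod m))
    (h2 : tE φ = (c : ZMod m)) : heckeOperatorBar N ⟨r, hr⟩ x = c • x := by
  have hx' : ∃ n : ℕ, p ^ n • (φ⁻¹ • x) = 0 :=
    ⟨k, by rw [← hm, ← gal_nsmul, hx.1, gal_zero]⟩
  have h := (SS.es_all N p).2 r hr hrN A hA φ hφ (φ⁻¹ • x) hx'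
  rw [smul_inv_smul] at h
  have h3 := hx.2 1 φ (r : ℤ) c (by rw [h1, Int.cast_natCast]) h2.symm
  rw [one_smul, natCast_zsmul] at h3
  rw [← h3]
  rw [sub_add_eq_add_sub, sub_eq_zero] at h
  exact h.symm

end IsEig

section Step

variable {p : ℕ} [Fact p.Prime] {T : Finset ℕ} {θ : ℕ → ℤ} {rbar0 : GQ →* M₂ (ZMod p)}
  {S : Finset ℕ} {L l ν : ℕ} [NeZero L] [NeZero l] {m : ℕ} [NeZero m] {tE : GQ → ZMod m}

/-- the components of an eigenclass `iota v`. -/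
theorem IsEig.of_iota (EC : MCtx p T θ rbar0) (SC : MStep p T θ S L l ν) {v : Fin 3 → JZero L}
    (hv : ∀ i, v i ∈ thetaPart L p (↑S : Set ℕ) θ) (h : IsEig tE (iota L l v)) (i : Fin 3) :
    IsEig tE (v i) := by
  have hinj := Low.ctrl_inj EC SC
  refine ⟨?_, fun h' g a c ha hc => ?_⟩
  · have h0 : (m • v) = 0 := hinj (m • v)
      (fun j => (thetaPart L p (↑S : Set ℕ) θ).nsmul_mem (hv j) m) (by rw [map_nsmul, h.1])
    exact congrFun h0 i
  · have e := h.2 h' g a c ha hc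
    set w : Fin 3 → JZero L :=
      (fun j => g • h' • v j) + a • (fun j => g⁻¹ • h' • v j) - c • (fun j => h' • v j) with hw
    have hw0 : w = 0 := by
      refine hinj w (fun j => ?_) ?_
      · exact (thetaPart L p (↑S : Set ℕ) θ).sub_mem
          ((thetaPart L p (↑S : Set ℕ) θ).add_mem
            (smul_mem_thetaPart g (smul_mem_thetaPart h' (hv j)))
            ((thetaPart L p (↑S : Set ℕ) θ).zsmul_mem
              (smul_mem_thetaPart g⁻¹ (smul_mem_thetaPart h' (hv j))) a))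
          ((thetaPart L p (↑S : Set ℕ) θ).zsmul_mem (smul_mem_thetaPart h' (hv j)) c)
      · rw [hw, map_sub, map_add, map_zsmul, map_zsmul,
          iota_smul L l g (fun j => h' • v j), iota_smul L l g⁻¹ (fun j => h' • v j),
          iota_smul L l h' v, e, sub_self]
    have := congrFun hw0 i
    rw [hw] at this
    simp only [Pi.sub_apply, Pi.add_apply, Pi.smul_apply, Pi.zero_apply] at this
    exact sub_eq_zero.1 this

/-- **one step of the descent.** -/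
theorem IsEig.step (EC : MCtx p T θ rbar0) (SC : MStep p T θ S L l ν) {k : ℕ} (hm : m = p ^ k)
    (hur : ∀ A : ValuationSubring Qbar, A.LiesOverPrime l → ∀ τ ∈ A.inertiaSubgroupIn ℚ,
      chiM m τ = 1 ∧ tE τ = 2)
    {x : JZero (L * l * l)} (hxθ : x ∈ thetaPart (L * l * l) p (↑S : Set ℕ) θ) (hx : IsEig tE x)
    (B : ℕ) (hB : p ^ (2 * B) • x ≠ 0) :
    ∃ v ∈ thetaPart L p (↑S : Set ℕ) θ, IsEig tE v ∧ p ^ B • v ≠ 0 := by
  have hp : p.Prime := Fact.out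
  obtain ⟨A, hA⟩ := S54.exists_liesOverPrime SC.hl
  -- the finite group
  let X : AddSubgroup (JZero (L * l * l)) :=
    { carrier := {y | y ∈ thetaPart (L * l * l) p (↑S : Set ℕ) θ ∧ m • y = 0}
      zero_mem' := ⟨AddSubgroup.zero_mem _, smul_zero _⟩
      add_mem' := fun {a b} ha hb => ⟨AddSubgroup.add_mem _ ha.1 hb.1, by
        rw [nsmul_add, ha.2, hb.2, add_zero]⟩
      neg_mem' := fun {a} ha => ⟨AddSubgroup.neg_mem _ ha.1, by rw [neg_nsmul, ha.2, neg_zero]⟩ }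
  have hlp : l ≠ p := fun h => SC.hlT (h ▸ EC.p_mem)
  obtain ⟨τ₀, hτ₀, hfix⟩ := exists_tau0 SC.hl hA X
    (fun τ _ y hy => ⟨smul_mem_thetaPart τ hy.1, by rw [← gal_nsmul, hy.2, gal_zero]⟩)
    m (NeZero.ne m) (fun y hy => hy.2) (p ^ ν)
    (Nat.Coprime.pow_left _ ((Nat.coprime_primes hp SC.hl).2 (Ne.symm hlp)))
    (fun τ hτ y hy => Low.rho_ord EC SC hA τ hτ y hy.1)
  obtain ⟨hc1, hc2⟩ := hur A hA τ₀ hτ₀
  -- an eigenclass fixed by inertia
  obtain ⟨y, hyθ, hy, hyfix, hyB⟩ : ∃ y ∈ thetaPart (L * l * l) p (↑S : Set ℕ) θ, IsEig tE y ∧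
      τ₀ • y = y ∧ p ^ B • y ≠ 0 := by
    by_cases h0 : p ^ B • (τ₀ • x - x) = 0
    · refine ⟨p ^ B • x, AddSubgroup.nsmul_mem _ hxθ _, hx.nsmul _, ?_, ?_⟩
      · rw [nsmul_sub, sub_eq_zero] at h0
        rw [gal_nsmul, h0]
      · rw [← mul_nsmul', ← pow_add, ← two_mul]
        exact hB
    · exact ⟨τ₀ • x - x, AddSubgroup.sub_mem _ (smul_mem_thetaPart τ₀ hxθ) hxθ,
        (hx.smul τ₀).sub hx, hx.unip hc1 hc2, h0⟩
  obtain ⟨v, hv, hvy⟩ := Low.ctrl_surj EC SC hA y hyθ (hfix y ⟨hyθ, hy.1⟩ hyfix)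
  have hex : ∃ i, p ^ B • v i ≠ 0 := by
    by_contra hcon
    push_neg at hcon
    apply hyB
    have : p ^ B • v = 0 := funext hcon
    rw [← hvy, ← map_nsmul, this, map_zero]
  obtain ⟨i, hi⟩ := hex
  exact ⟨v i, hv i, IsEig.of_iota EC SC hv (hvy ▸ hy) i, hi⟩

end Step

section Tower

variable {p : ℕ} [Fact p.Prime] {T : Finset ℕ} {θ : ℕ → ℤ} {rbar0 : GQ →* M₂ (ZMod p)}
  {L₀ t n : ℕ} [NeZero L₀] {qv : Fin t → Nat.Primes} {m : ℕ} [NeZero m] {tE : GQ → ZMod m}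

/-- **the descent along the Taylor-Wiles tower.** -/
theorem IsEig.descend (EC : MCtx p T θ rbar0) (TC : MTW p T θ L₀ t n qv) {k : ℕ} (hm : m = p ^ k)
    (hur : ∀ l : ℕ, l.Prime → l ∉ T → ∀ A : ValuationSubring Qbar, A.LiesOverPrime l →
      ∀ τ ∈ A.inertiaSubgroupIn ℚ, chiM m τ = 1 ∧ tE τ = 2) (B : ℕ) :
    ∀ i : ℕ, i ≤ t → ∀ x ∈ thetaPart (lvl L₀ (extP qv) i) p (↑(cutS T qv) : Set ℕ) θ,
      IsEig tE x → p ^ (2 ^ i * B) • x ≠ 0 →
      ∃ v ∈ thetaPart L₀ p (↑(cutS T qv) : Set ℕ) θ, IsEig tE v ∧ p ^ B • v ≠ 0 := by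
  intro i
  induction i with
  | zero =>
    intro _ x hxθ hx hB
    rw [pow_zero, one_mul] at hB
    exact ⟨x, hxθ, hx, hB⟩
  | succ i ih =>
    intro hi x hxθ hx hB
    have SC := TC.step (i := i) (by omega)
    have hB' : p ^ (2 * (2 ^ i * B)) • x ≠ 0 := by
      rwa [← mul_assoc, ← pow_succ']
    obtain ⟨v, hvθ, hv, hvB⟩ := IsEig.step EC SC hm (hur _ SC.hl SC.hlT) hxθ hx _ hB'
    exact ih (by omega) v hvθ hv hvB

end Tower

end Fermat.Agent.ML
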