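import Fermat.Agent.ML.Main.Cell
import Fermat.Agent.ML.Raise.Final

/-!
# ML / Main / EndK : [END] of layer 2b of S59

* `isEig_of_pp` : `(R, πE, ρ, Φ)` = (RHO) modulo `m` on `X`; a class `x ∈ X[PP]`, `PP = ker πE`, is a Galois eigenclass
  `IsEig (tr rE) x`.
* `pp_le_of_gen` : `PP ≤ J + (x) + (p)`, `πE J = 0`, `πE (x i) ∈ (p)`  ⟹  `PP ≤ J + (x i - [πE (x i)])`.
* `fin_abs` : the ABSTRACT end (no raised hard prime) : (RHO) on the cell `G` itself, (GEN) in ideal form with at most `r` generators,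
  the numerics in Galois form  ⟹  an eigenclass `x ∈ G` with `p^k x ≠ 0`.
* `fin_abs_pp` : the same from `∃ v, PP v = 0 ∧ p^k v ≠ 0`   (for `Hard.finalF`).
-/

set_option autoImplicit false

noncomputable section

open AlgebraicCurve ModularCurve

namespace Fermat.Agent.ML

open Fermat.Agent.RIB Fermat.Agent.RIB.Rho Fermat.Agent.GAL

local notation "Qbar" => AlgebraicClosure ℚ
local notation "GQ" => (AlgebraicClosure ℚ ≃ₐ[ℚ] AlgebraicClosure ℚ)
local notation "M₂" => Matrix (Fin 2) (Fin 2)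

/-- on a class killed by `m`, `z.val` and any integer lifting `z` act in the same way. -/
theorem val_nsmul_eq_zsmul {A : Type*} [AddCommGroup A] {m : ℕ} [NeZero m] {w : A}
    (hw : m • w = 0) (z : ZMod m) (a : ℤ) (ha : (a : ZMod m) = z) : z.val • w = a • w := by
  have h1 : ((z.val : ℤ) : ZMod m) = (a : ZMod m) := by
    rw [ha, Int.cast_natCast, ZMod.natCast_zmod_val]
  obtain ⟨k, hk⟩ := (ZMod.intCast_eq_intCast_iff_dvd_sub _ _ _).1 h1
  have h2 : a = (z.val : ℤ) + k * (m : ℤ) := by rw [mul_comm, ← hk]; ring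
  rw [h2, add_zsmul, mul_zsmul, natCast_zsmul, natCast_zsmul, hw, smul_zero, add_zero]

section PP

variable {L m : ℕ} [NeZero L] [NeZero m] {X : AddSubgroup (JZero L)} {rE : GQ →* M₂ (ZMod m)}
  {R : Type} [CommRing R] [Algebra (ZMod m) R] [Module R ↥X] {πE : R →ₐ[ZMod m] ZMod m}
  {ρ : GQ →* M₂ R} {Φ : M₂ R →ₐ[R] Module.End R ↥X}

/-- the trace identity on `X`. -/
theorem endK_trace_smul (_H : Rho.IsRhoK L m X rE πE ρ Φ) (g : GQ) (y : ↥X) :
    (ρ g).trace • y = Φ (ρ g) y + (ρ g).det • Φ (ρ g⁻¹) y := by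
  have h1 : ρ g + (ρ g).det • ρ g⁻¹ = (ρ g).trace • (1 : M₂ R) := by
    rw [Rho.EM.det_smul_inv, Rho.EM.add_adjugate]
  have h2 := congrArg (fun A => Φ A y) h1
  simp only [map_add, map_smul, map_one, LinearMap.add_apply, LinearMap.smul_apply,
    Module.End.one_apply] at h2
  exact h2.symm

/-- `πE (tr ρ g) = tr rE g`. -/
theorem endK_piE_trace (H : Rho.IsRhoK L m X rE πE ρ Φ) (g : GQ) :
    πE (ρ g).trace = (rE g).trace := by
  rw [← H.toE g, Matrix.trace_fin_two, Matrix.trace_fin_two, map_add]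
  rfl

/-- **[END-1]** : `X[PP]` consists of Galois eigenclasses. -/
theorem isEig_of_pp (H : Rho.IsRhoK L m X rE πE ρ Φ) (hXm : ∀ x ∈ X, m • x = 0) (x : ↥X)
    (hx : ∀ a : R, πE a = 0 → a • x = 0) : IsEig (fun g => (rE g).trace) (x : JZero L) := by
  refine ⟨hXm x.1 x.2, fun h g a c ha hc => ?_⟩
  set y : ↥X := Φ (ρ h) x with hy
  have hyv : (y : JZero L) = h • (x : JZero L) := H.act h x
  have h1 := endK_trace_smul H g y
  have h2 : (ρ g).trace • y = algebraMap (ZMod m) R (rE g).trace • y := by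
    have h3 : ((ρ g).trace - algebraMap (ZMod m) R (rE g).trace) • y = 0 := by
      rw [hy, ← map_smul, hx _ (by rw [map_sub, endK_piE_trace H, AlgHom.commutes, Algebra.algebraMap_self_apply, sub_self]), map_zero]
    rw [sub_smul, sub_eq_zero] at h3
    exact h3
  rw [h2, H.det g] at h1
  have h4 := congrArg (fun w : ↥X => (w : JZero L)) h1
  simp only [AddSubgroup.coe_add] at h4
  rw [H.alg, H.alg, H.act g y, H.act g⁻¹ y, hyv] at h4
  rw [val_nsmul_eq_zsmul (hXm _ (hyv ▸ y.2)) _ c hc,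
    val_nsmul_eq_zsmul (w := g⁻¹ • h • (x : JZero L)) ?_ _ a ha] at h4
  · exact h4.symm
  · rw [← gal_nsmul, ← gal_nsmul, hXm x.1 x.2, gal_zero, gal_zero]

end PP

section Gen

variable {p K : ℕ} {R : Type*} [CommRing R] [Algebra (ZMod (p ^ K)) R]

/-- **[END-2]** : generators of `PP = ker πE` from generators of `PP` modulo `p`. -/
theorem pp_le_of_gen (πE : R →ₐ[ZMod (p ^ K)] ZMod (p ^ K)) (J : Ideal R)
    (hJ : ∀ a ∈ J, πE a = 0) {κ : Type*} (x : κ → R)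
    (hx : ∀ i, ∃ e : ZMod (p ^ K), πE (x i) = (p : ZMod (p ^ K)) * e)
    (hgen : ∀ a, πE a = 0 → a ∈ J ⊔ Ideal.span (Set.range x) ⊔ Ideal.span {(p : R)}) :
    ∀ a, πE a = 0 →
      a ∈ J ⊔ Ideal.span (Set.range fun i => x i - algebraMap (ZMod (p ^ K)) R (πE (x i))) := by
  set I : Ideal R :=
    J ⊔ Ideal.span (Set.range fun i => x i - algebraMap (ZMod (p ^ K)) R (πE (x i))) with hI
  have hIπ : ∀ a ∈ I, πE a = 0 := by
    have : I ≤ RingHom.ker (πE : R →+* ZMod (p ^ K)) := by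
      rw [hI]
      refine sup_le (fun a ha => hJ a ha) (Ideal.span_le.2 ?_)
      rintro _ ⟨i, rfl⟩
      show πE _ = 0
      rw [map_sub, AlgHom.commutes, Algebra.algebraMap_self_apply, sub_self]
    exact fun a ha => this ha
  -- one step
  have hstep : ∀ a, πE a = 0 → ∃ b, πE b = 0 ∧ a - (p : R) * b ∈ I := by
    intro a ha
    have h1 : J ⊔ Ideal.span (Set.range x) ⊔ Ideal.span {(p : R)} ≤ I ⊔ Ideal.span {(p : R)} := by
      refine sup_le (sup_le (le_sup_of_le_left le_sup_left) (Ideal.span_le.2 ?_)) le_sup_right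
      rintro _ ⟨i, rfl⟩
      obtain ⟨e, he⟩ := hx i
      have h2 : x i = (x i - algebraMap (ZMod (p ^ K)) R (πE (x i))) +
          algebraMap (ZMod (p ^ K)) R e * (p : R) := by
        rw [he, map_mul, map_natCast]; ring
      rw [h2]
      exact Ideal.add_mem _
        (Ideal.mem_sup_left (Ideal.mem_sup_right (Ideal.subset_span ⟨i, rfl⟩)))
        (Ideal.mem_sup_right (Ideal.mul_mem_left _ _ (Ideal.subset_span rfl)))
    obtain ⟨i₁, hi₁, w, hw, e⟩ := Submodule.mem_sup.1 (h1 (hgen a ha))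
    obtain ⟨b, rfl⟩ := Ideal.mem_span_singleton'.1 hw
    refine ⟨b - algebraMap (ZMod (p ^ K)) R (πE b), by rw [map_sub, AlgHom.commutes, Algebra.algebraMap_self_apply, sub_self], ?_⟩
    have h3 : (p : ZMod (p ^ K)) * πE b = 0 := by
      have := congrArg πE e
      rw [map_add, hIπ i₁ hi₁, zero_add, ha, map_mul, map_natCast, mul_comm] at this
      exact this
    have h4 : (p : R) * algebraMap (ZMod (p ^ K)) R (πE b) = 0 := by
      rw [← map_natCast (algebraMap (ZMod (p ^ K)) R), ← map_mul, h3, map_zero]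
    have h5 : a - (p : R) * (b - algebraMap (ZMod (p ^ K)) R (πE b)) = i₁ := by
      rw [mul_sub, h4, sub_zero, ← e]; ring
    rw [h5]
    exact hi₁
  have hit : ∀ n : ℕ, ∀ a, πE a = 0 → ∃ b, πE b = 0 ∧ a - (p : R) ^ n * b ∈ I := by
    intro n
    induction n with
    | zero => exact fun a ha => ⟨a, ha, by simp⟩
    | succ n ih =>
      intro a ha
      obtain ⟨b, hb, h1⟩ := ih a ha
      obtain ⟨c, hc, h2⟩ := hstep b hb
      refine ⟨c, hc, ?_⟩
      have : a - (p : R) ^ (n + 1) * c = (a - (p : R) ^ n * b) + (p : R) ^ n * (b - (p : R) * c) := by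
        ring
      rw [this]
      exact Ideal.add_mem _ h1 (Ideal.mul_mem_left _ _ h2)
  intro a ha
  obtain ⟨b, -, h⟩ := hit K a ha
  have h0 : (p : R) ^ K = 0 := by
    rw [← Nat.cast_pow, ← map_natCast (algebraMap (ZMod (p ^ K)) R), ZMod.natCast_self, map_zero]
  rwa [h0, zero_mul, sub_zero] at h

end Gen

section Fin

variable {N p m : ℕ} [NeZero N] [NeZero m] {G : AddSubgroup (JZero N)} {rE : GQ →* M₂ (ZMod m)}
  {R : Type} [CommRing R] [Algebra (ZMod m) R] [Module R ↥G] {πE : R →ₐ[ZMod m] ZMod m}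
  {ρ : GQ →* M₂ R} {Φ : M₂ R →ₐ[R] Module.End R ↥G}

/-- `z(τ) = tr ρ(τ) - 2` acts as `zOp τ` if `χ(τ) = 1`. -/
theorem endK_z_smul (H : Rho.IsRhoK N m G rE πE ρ Φ) {τ : GQ} (hχ : chiM m τ = 1)
    (x : ↥G) : ((((ρ τ).trace - 2) • x : ↥G) : JZero N) = zOp τ (x : JZero N) := by
  rw [sub_smul, endK_trace_smul H, H.det, hχ, map_one, one_smul, AddSubgroup.coe_sub,
    AddSubgroup.coe_add, H.act, H.act, zOp]
  congr 1
  rw [← Nat.cast_ofNat (R := R), Nat.cast_smul_eq_nsmul]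
  rfl

theorem endK_z_pow_smul (H : Rho.IsRhoK N m G rE πE ρ Φ) {τ : GQ} (hχ : chiM m τ = 1)
    (n : ℕ) (x : ↥G) :
    ((((ρ τ).trace - 2) ^ n • x : ↥G) : JZero N) = (zOp τ)^[n] (x : JZero N) := by
  induction n generalizing x with
  | zero => simp
  | succ n ih => rw [pow_succ, mul_smul, ih, endK_z_smul H hχ, Function.iterate_succ_apply]

/-- **[END]**, from a class killed by `PP`. -/
theorem fin_abs_pp (H : Rho.IsRhoK N m G rE πE ρ Φ) (hGm : ∀ x ∈ G, m • x = 0) {c : ℕ}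
    (h : ∃ v : ↥G, (∀ b : R, πE b = 0 → b • v = 0) ∧ c • v ≠ 0) :
    ∃ x ∈ G, IsEig (fun g => (rE g).trace) x ∧ c • x ≠ 0 := by
  obtain ⟨v, hv, hc⟩ := h
  exact ⟨v.1, v.2, isEig_of_pp H hGm v hv, fun h0 => hc (Subtype.ext h0)⟩

/-- padding a finite family by zeros. -/
theorem exists_fin_span_eq {A : Type*} [CommRing A] {κ : Type*} [Fintype κ] {r : ℕ}
    (hκ : Fintype.card κ ≤ r) (u : κ → A) :
    ∃ y : Fin r → A, (∀ j, y j = 0 ∨ ∃ i, y j = u i) ∧
      Ideal.span (Set.range u) ≤ Ideal.span (Set.range y) := by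
  classical
  obtain ⟨f⟩ : Nonempty (κ ↪ Fin r) :=
    Function.Embedding.nonempty_of_card_le (by rwa [Fintype.card_fin])
  refine ⟨Function.extend f u (fun _ => 0), fun j => ?_, Ideal.span_le.2 ?_⟩
  · by_cases hj : ∃ i, f i = j
    · obtain ⟨i, rfl⟩ := hj
      exact Or.inr ⟨i, f.injective.extend_apply u _ i⟩
    · exact Or.inl (Function.extend_apply' u _ j hj)
  · rintro _ ⟨i, rfl⟩
    exact Ideal.subset_span ⟨f i, f.injective.extend_apply u _ i⟩

/-- **[END]**, the abstract end (no raised hard prime). -/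
theorem fin_abs (hp : p.Prime) {K : ℕ} (hm : m = p ^ K) (H : Rho.IsRhoK N m G rE πE ρ Φ)
    {r a d e k : ℕ} (haK : a ≤ K) (τ : Fin r → GQ) (hχ : ∀ i, chiM m (τ i) = 1)
    (hτE : ∀ i, (rE (τ i)).trace = 2) (hpa : ∀ x ∈ G, p ^ a • x = 0)
    (hza : ∀ i, ∀ x ∈ G, (zOp (τ i))^[a] x = 0)
    (hcogen : Nat.card {x : JZero N // x ∈ G ∧ p • x = 0 ∧ ∀ i, zOp (τ i) x = 0} ≤ p ^ d)
    (he : p ^ d < 2 ^ e) (J : Ideal R) (hJE : ∀ b ∈ J, πE b = 0)
    (hJG : ∀ b ∈ J, ∀ x : ↥G, b • x = 0) {κ : Type*} [Fintype κ] (hκ : Fintype.card κ ≤ r)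
    (u : κ → R) (hu : ∀ i, ∃ c : ZMod m, πE (u i) = (p : ZMod m) * c)
    (hgen : ∀ b : R, πE b = 0 → b ∈ J ⊔ Ideal.span (Set.range u) ⊔ Ideal.span {(p : R)})
    (hbig : p ^ (d * k * (e * ((r + 1) * a + 1)) ^ r) < Nat.card G) :
    ∃ x ∈ G, IsEig (fun g => (rE g).trace) x ∧ p ^ k • x ≠ 0 := by
  subst hm
  have hGm : ∀ x ∈ G, p ^ K • x = 0 := fun x hx => by
    obtain ⟨c, rfl⟩ := Nat.exists_eq_add_of_le haK
    rw [pow_add, mul_nsmul, hpa x hx, smul_zero]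
  have : Finite ↥G :=
    Set.Finite.to_subtype ((finite_torsion_JZero N (p ^ K) (NeZero.ne _)).subset fun x hx => hGm x hx)
  refine fin_abs_pp H hGm ?_
  -- the generators of `PP`
  have hPP := pp_le_of_gen πE J hJE u hu hgen
  obtain ⟨y, hy0, hyu⟩ := exists_fin_span_eq hκ
    (fun i => u i - algebraMap (ZMod (p ^ K)) R (πE (u i)))
  have hyE : ∀ j, πE (y j) = 0 := fun j => by
    rcases hy0 j with h | ⟨i, h⟩
    · rw [h, map_zero]
    · rw [h, map_sub, AlgHom.commutes, Algebra.algebraMap_self_apply, sub_self]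
  have hPPy : ∀ b : R, πE b = 0 → ∃ w : Fin r → R, ∀ x : ↥G, b • x = ∑ j, w j • y j • x := by
    intro b hb
    obtain ⟨j₀, hj₀, s, hs, rfl⟩ := Submodule.mem_sup.1 (hPP b hb)
    obtain ⟨w, rfl⟩ := (Ideal.mem_span_range_iff_exists_fun).1 (hyu hs)
    refine ⟨w, fun x => ?_⟩
    rw [add_smul, hJG j₀ hj₀ x, zero_add, Finset.sum_smul]
    exact Finset.sum_congr rfl fun j _ => mul_smul _ _ _
  set z : Fin r → R := fun i => (ρ (τ i)).trace - 2 with hz
  have hzE : ∀ i, πE (z i) = 0 := fun i => by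
    rw [hz]
    simp only [map_sub, endK_piE_trace H, hτE i, map_ofNat, sub_self]
  have hcast : ∀ (n : ℕ) (x : ↥G), (p : R) ^ n • x = (p ^ n) • x := fun n x => by
    rw [← Nat.cast_pow, Nat.cast_smul_eq_nsmul]
  have hcog : Nat.card ↥(Submodule.torsionBy R ↥G (p : R) ⊓ ⨅ i, Submodule.torsionBy R ↥G (z i)) ≤
      p ^ d := by
    refine le_trans ?_ hcogen
    have hfin : Finite {x : JZero N // x ∈ G ∧ p • x = 0 ∧ ∀ i, zOp (τ i) x = 0} :=
      Finite.of_injective (fun x => (⟨x.1, x.2.1⟩ : ↥G)) fun x x' h =>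
        Subtype.ext (congrArg (fun w : ↥G => (w : JZero N)) h)
    have hmem : ∀ x : ↥(Submodule.torsionBy R ↥G (p : R) ⊓ ⨅ i, Submodule.torsionBy R ↥G (z i)),
        (x.1.1 : JZero N) ∈ G ∧ p • (x.1.1 : JZero N) = 0 ∧ ∀ i, zOp (τ i) (x.1.1 : JZero N) = 0 := by
      intro x
      refine ⟨x.1.2, ?_, fun i => ?_⟩
      · have h1 := (Submodule.mem_torsionBy_iff _ _).1 (Submodule.mem_inf.1 x.2).1
        rw [Nat.cast_smul_eq_nsmul] at h1
        exact congrArg Subtype.val h1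
      · have h1 := (Submodule.mem_torsionBy_iff _ _).1
          ((Submodule.mem_iInf _).1 (Submodule.mem_inf.1 x.2).2 i)
        rw [← endK_z_smul H (hχ i)]
        exact congrArg Subtype.val h1
    exact Nat.card_le_card_of_injective
      (fun x => (⟨x.1.1, hmem x⟩ : {x : JZero N // x ∈ G ∧ p • x = 0 ∧ ∀ i, zOp (τ i) x = 0}))
      fun x x' h => Subtype.ext (Subtype.ext (congrArg
        (fun w : {x : JZero N // x ∈ G ∧ p • x = 0 ∧ ∀ i, zOp (τ i) x = 0} => (w : JZero N)) h))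
  obtain ⟨v, -, hvy, hv⟩ := Raise.final2 (A := R) (X := ↥G) (a := a) (d := d) (e := e) (B := k)
    (B' := k + 1) hp z y
    (fun x => by rw [hcast]; exact Subtype.ext (hpa x.1 x.2))
    (fun i x => Subtype.ext (by rw [endK_z_pow_smul H (hχ i)]; exact hza i x.1 x.2))
    hcog he (fun j => by
      obtain ⟨n, hn⟩ := H.nil (y j) (hyE j)
      exact ⟨n, fun x => by rw [hn]; exact zero_smul R x⟩)
    ⊤ (fun i => by
      obtain ⟨w, hw⟩ := hPPy (z i) (hzE i)
      exact ⟨0, w, fun x _ => by rw [mul_zero, hw x, zero_smul R x, zero_add]⟩)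
    (by
      have : Nat.card (⊤ : Submodule R ↥G) = Nat.card ↥G :=
        Nat.card_congr (Submodule.topEquiv (R := R) (M := ↥G)).toEquiv
      rw [this]
      exact hbig) le_rfl
  refine ⟨v, fun b hb => ?_, fun h0 => ?_⟩
  · obtain ⟨w, hw⟩ := hPPy b hb
    rw [hw v]
    exact Finset.sum_eq_zero fun j _ => by rw [hvy j, smul_zero]
  · have h1 := addOrderOf_dvd_of_nsmul_eq_zero h0
    rw [hv] at h1
    exact absurd (Nat.pow_dvd_pow_iff_le_right hp.one_lt |>.1 h1) (by omega)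

/-- an element of `ℤ/m` which vanishes modulo `p` is a multiple of `p`. -/
theorem exists_eq_p_mul_of_castHom {p m : ℕ} [NeZero m] (hpm : p ∣ m) (z : ZMod m)
    (hz : ZMod.castHom hpm (ZMod p) z = 0) : ∃ c : ZMod m, z = (p : ZMod m) * c := by
  rw [← ZMod.natCast_zmod_val z, map_natCast, ZMod.natCast_eq_zero_iff] at hz
  obtain ⟨c, hc⟩ := hz
  exact ⟨(c : ZMod m), by rw [← Nat.cast_mul, ← hc, ZMod.natCast_zmod_val]⟩

/-- **[END]**, in the form of the conclusion of `MCtx.gen_stage` (`π0 = (reduction mod p) ∘ πE`). -/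
theorem fin_abs' (hp : p.Prime) {K : ℕ} (hm : m = p ^ K) (hpm : p ∣ m)
    (H : Rho.IsRhoK N m G rE πE ρ Φ)
    {r a d e k : ℕ} (haK : a ≤ K) (τ : Fin r → GQ) (hχ : ∀ i, chiM m (τ i) = 1)
    (hτE : ∀ i, (rE (τ i)).trace = 2) (hpa : ∀ x ∈ G, p ^ a • x = 0)
    (hza : ∀ i, ∀ x ∈ G, (zOp (τ i))^[a] x = 0)
    (hcogen : Nat.card {x : JZero N // x ∈ G ∧ p • x = 0 ∧ ∀ i, zOp (τ i) x = 0} ≤ p ^ d)
    (he : p ^ d < 2 ^ e) (J : Ideal R) (hJE : ∀ b ∈ J, πE b = 0)
    (hJG : ∀ b ∈ J, ∀ x : ↥G, b • x = 0) (π0 : R →+* ZMod p)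
    (hπ0 : ∀ b, π0 b = ZMod.castHom hpm (ZMod p) (πE b))
    {κ : Type*} [Fintype κ] (hκ : Fintype.card κ ≤ r)
    (u : κ → R) (hu : ∀ i, π0 (u i) = 0)
    (hgen : RingHom.ker π0 ≤ J ⊔ Ideal.span (Set.range u) ⊔ Ideal.span {(p : R)})
    (hbig : p ^ (d * k * (e * ((r + 1) * a + 1)) ^ r) < Nat.card G) :
    ∃ x ∈ G, IsEig (fun g => (rE g).trace) x ∧ p ^ k • x ≠ 0 :=
  fin_abs hp hm H haK τ hχ hτE hpa hza hcogen he J hJE hJG hκ u
    (fun i => exists_eq_p_mul_of_castHom hpm _ (by rw [← hπ0, hu i]))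
    (fun b hb => hgen (by rw [RingHom.mem_ker, hπ0, hb, map_zero])) hbig

end Fin

end Fermat.Agent.ML
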