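import Fermat.Agent.ML.Main.Cell

/-!
# ML / Main / FrmPos : a frame has at least one Taylor-Wiles prime : `0 < t`

The contracts of `ML/Main/Cell.lean` quantify over ALL `t : ℕ`, whereas the TWFREE numerics (`TWFree.twfree`, the `K`-cubes) need `0 < t`.
There is no case `t = 0` : `TWGenL .. t qv` applied to the CONSTANT representation (`Λ = F = A = 𝔽_p`, `rA = rbar0`, `J = ⊥`) with the
local conditions `L v = B¹_loc` (so `∏ #L v ≤ #k^(3 #S₀)`, i.e. `d = 1`, `e = 0` is allowed) gives `1 ≤ t`.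

* `MCtx.pos_of_twGenL` : `TWGenL p _ (mapK (kM p) rbar0) (toP T) t qv → 0 < t`;
* `Frm.t_pos`          : `Frm p hp2 T θ rbar0 t F C₀ a m n K qv → 0 < t`.
-/

set_option autoImplicit false

noncomputable section

namespace Fermat.Agent.ML

open Fermat.Agent.RIB Fermat.Agent.S56 Fermat.Agent.S56.Gen
open CFT (levS levAll decomp Z1 B1 d01)

local notation "GQ" => (AlgebraicClosure ℚ ≃ₐ[ℚ] AlgebraicClosure ℚ)
local notation "M₂" => Matrix (Fin 2) (Fin 2)

variable {p : ℕ} [Fact p.Prime] {T : Finset ℕ} {θ : ℕ → ℤ} {rbar0 : GQ →* M₂ (ZMod p)}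

/-- the local coboundaries have at most `#k³` elements. -/
theorem card_B1loc_le_cube {k : Type} [Field k] [Finite k] (rbar : GQ →* M2 k) (v : Nat.Primes) :
    Nat.card ↥(B1loc (adRep rbar) v) ≤ Nat.card k ^ 3 := by
  have h1 : Nat.card ↥(B1loc (adRep rbar) v) ≤ Nat.card ↥(sl2 k) := by
    unfold B1loc B1
    exact Nat.card_le_card_of_surjective
      (LinearMap.rangeRestrict (d01 (locRep (adRep rbar) v)))
      (LinearMap.surjective_rangeRestrict _)
  exact h1.trans LocQ.card_sl2_le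

/-- **`TWGenL` forces `0 < t`.** -/
theorem MCtx.pos_of_twGenL (C : MCtx p T θ rbar0) {t : ℕ} {qv : Fin t → Nat.Primes}
    (h : TWGenL p (two_ne_zero_kM C.hp2) (mapK (kM p) rbar0) (toP T) t qv) : 0 < t := by
  classical
  have hsm := isSmooth_adRep (mapK (kM p) rbar0) (C.cont_mapK _)
  have hcard : (∏ v ∈ toP T, Nat.card ↥(B1loc (adRep (mapK (kM p) rbar0)) v)) *
      Nat.card (kM p) ^ 1 ≤ Nat.card (kM p) ^ (3 * (toP T).card + 1 + 0) := by
    have h1 : (∏ v ∈ toP T, Nat.card ↥(B1loc (adRep (mapK (kM p) rbar0)) v)) ≤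
        ∏ _v ∈ toP T, Nat.card (kM p) ^ 3 :=
      Finset.prod_le_prod' fun v _ => card_B1loc_le_cube _ v
    rw [Finset.prod_const, ← pow_mul] at h1
    calc _ ≤ Nat.card (kM p) ^ (3 * (toP T).card) * Nat.card (kM p) ^ 1 :=
          Nat.mul_le_mul_right _ h1
      _ = _ := by rw [← pow_add]
  have H : GenHypL p (two_ne_zero_kM C.hp2) (mapK (kM p) rbar0) (toP T) (Finset.univ.image qv)
      (fun v => B1loc (adRep (mapK (kM p) rbar0)) v)
      (piKL (kM p) (AlgHom.id (ZMod p) (ZMod p))) rbar0 ⊥ :=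
    { lift := fun σ => by
        rw [mapK_apply]
        rfl
      det := fun σ => ⟨(rbar0 σ).det, rfl⟩
      tr := eq_top_iff.2 fun a _ => (Algebra.adjoin (ZMod p) _).algebraMap_mem a
      lev := exists_level_of_unram rbar0 C.cont _ fun q hq A hA σ hσ =>
        C.unramT q q.2 (fun h' => hq (Finset.mem_union_left _ (mem_toP'.2 h'))) A hA σ hσ
      J_le := fun a ha => by rw [Ideal.mem_bot.1 ha, map_zero]
      loc := fun v _ φ _ => by
        have h0 : resLoc (kM p) v (coc (two_ne_zero_kM C.hp2) (pushRep φ rbar0)) = 0 := by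
          funext σ
          have h1 : (pushRep φ rbar0 (σ : GQ)).map TrivSqZeroExt.snd = 0 := by
            ext i l
            show (φ (rbar0 σ i l)).snd = 0
            have h2 := φ.commutes (rbar0 σ i l)
            rw [Algebra.algebraMap_self_apply] at h2
            rw [h2]
            rfl
          rw [resLoc_apply, coc, cocM, h1, zero_mul, map_zero]
          rfl
        rw [h0]
        exact Submodule.zero_mem _ }
  obtain ⟨h1, -⟩ := h (fun v => B1loc (adRep (mapK (kM p) rbar0)) v) (fun v _ => le_rfl)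
    (fun v _ => B1loc_le_Z1loc _ hsm v) 1 0 hcard (ZMod p) (ZMod p) (ZMod p)
    Function.surjective_id (AlgHom.id (ZMod p) (ZMod p)) rbar0 ⊥ H
  omega

/-- **a frame has at least one Taylor-Wiles prime.** -/
theorem Frm.t_pos (C : MCtx p T θ rbar0) {hp2 : p ≠ 2} {t F C₀ a m n K : ℕ}
    {qv : Fin t → Nat.Primes} (h : Frm p hp2 T θ rbar0 t F C₀ a m n K qv) : 0 < t :=
  C.pos_of_twGenL h.gen

end Fermat.Agent.ML
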