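import Fermat.Agent.ML.Main.Spec1
import Fermat.Agent.ML.Main.Eig
import Fermat.Agent.ML.Top.Card
import Fermat.Agent.ML.ESide.RE

/-!
# ML / Main / Lift1 : layer 2a of S59 :  `EigTopStmt → LiftStmt`

`EigTopStmt` : ONE `t`; for every `k` there are Taylor-Wiles primes `qv : Fin t → Nat.Primes` for the FINAL level `L`, an exponent
`K`, a basis `B` of `W[p^(K+1)]` and a Galois eigenclass `x` (for `rE = rEB B`) in the `θ`-part of `J₀(L ∏ qv²)` with `p^k x ≠ 0`.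

Nothing else of the tower survives in this contract: no ring, no new part, no set of primes to avoid.
-/

set_option autoImplicit false

noncomputable section

open AlgebraicCurve ModularCurve

namespace Fermat.Agent.ML

open Fermat.Agent.RIB Fermat.Agent.RIB.Rho Fermat.Agent.ML.ESide

local notation "Qbar" => AlgebraicClosure ℚ
local notation "GQ" => (AlgebraicClosure ℚ ≃ₐ[ℚ] AlgebraicClosure ℚ)
local notation "M₂" => Matrix (Fin 2) (Fin 2)

/-- eigenclasses of large order at the top of a Taylor-Wiles tower over the level `L`. -/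
def EigTop (W : WeierstrassCurve ℤ) (p : ℕ) [Fact p.Prime] (T : Finset ℕ) (L : ℕ) [NeZero L] : Prop :=
  ∃ t : ℕ, ∀ k : ℕ, ∃ (n K : ℕ) (qv : Fin t → Nat.Primes)
    (B : Module.Basis (Fin 2) (ZMod (p ^ (K + 1))) (TorsW W (p ^ (K + 1)))),
    MTW p T W.apOfModel L t n qv ∧ Rho.EK (p ^ (K + 1)) T W.apOfModel (rEB B) ∧
    ∃ x ∈ thetaPart (lvl L (extP qv) t) p (↑(cutS T qv) : Set ℕ) W.apOfModel,
      IsEig (fun g => (rEB B g).trace) x ∧ p ^ k • x ≠ 0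

/-- the contract **EIGTOP**. -/
def EigTopStmt : Prop :=
  ∀ (W : WeierstrassCurve ℤ) (p : ℕ) [Fact p.Prime], Hyp59 W p → ∀ (T : Finset ℕ),
    (∀ r : ℕ, r.Prime → (r : ℤ) ∣ W.Δ → r ∈ T) →
    ∀ b : Module.Basis (Fin 2) (ZMod p) (TorsW W p), MCtx p T W.apOfModel (rbarB b) →
    ∀ (L₀ : ℕ) [NeZero L₀], BasePlan W p T (rbarB b) L₀ →
    ∀ (L : ℕ) [NeZero L], L = finLevel W L₀ → EigTop W p T L

/-- `EigTop ⟹ ModStmt`. -/
theorem modStmt_of_eigTop {W : WeierstrassCurve ℤ} {p : ℕ} [Fact p.Prime] (hp2 : p ≠ 2)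
    {T : Finset ℕ} (hbadT : ∀ r : ℕ, r.Prime → (r : ℤ) ∣ W.Δ → r ∈ T)
    {rbar0 : GQ →* M₂ (ZMod p)} (C : MCtx p T W.apOfModel rbar0) {L : ℕ} [NeZero L]
    (h : EigTop W p T L) : ModStmt W p L T := by
  have hp : p.Prime := Fact.out
  obtain ⟨t, ht⟩ := h
  refine modStmt_of_exponent fun k _ => ?_
  obtain ⟨n, K, qv, B, TC, E, x, hxθ, hx, hxk⟩ := ht (2 ^ t * k)
  have hodd : Odd (p ^ (K + 1)) := odd_pow_of_ne_two hp2 _
  have hur : ∀ l : ℕ, l.Prime → l ∉ T → ∀ A : ValuationSubring Qbar, A.LiesOverPrime l →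
      ∀ τ ∈ A.inertiaSubgroupIn ℚ, chiM (p ^ (K + 1)) τ = 1 ∧ (rEB B τ).trace = 2 := by
    intro l hl hlT A hA τ hτ
    have hlp : l ≠ p := fun h => hlT (h ▸ C.p_mem)
    have h1 : rEB B τ = 1 := rEB_unram B hodd hl
      (Nat.Coprime.pow_left _ ((Nat.coprime_primes hp hl).2 (Ne.symm hlp)))
      (fun hd => hlT (hbadT l hl hd)) A hA hτ
    refine ⟨?_, ?_⟩
    · rw [← E.det τ, h1, Matrix.det_one]
    · rw [h1, Matrix.trace_one, Fintype.card_fin]
      norm_num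
  obtain ⟨v, -, hv, hvk⟩ := IsEig.descend C TC rfl hur k t le_rfl x hxθ hx hxk
  refine ⟨v, ⟨K + 1, hv.1⟩, hvk, fun r _ hrT => ?_⟩
  obtain ⟨A, hA⟩ := S54.exists_liesOverPrime r.2
  obtain ⟨φ, hφ⟩ := S54.exists_isFrobeniusAt_of_liesOverPrime r.2 A hA
  obtain ⟨e1, e2⟩ := E.frob r r.2 hrT A hA φ hφ
  exact hv.hecke rfl r.2 (fun hd => hrT (TC.lev r r.2 hd)) hA hφ (W.apOfModel r)
    (by rw [← E.det φ, e2]) e1

/-- **layer 2a.** -/
theorem lift_of_eigTop (h : EigTopStmt) : LiftStmt :=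
  fun W p _ H T hbadT b C L₀ _ BP L _ hL =>
    modStmt_of_eigTop H.ne_two hbadT C (h W p H T hbadT b C L₀ BP L hL)

end Fermat.Agent.ML
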