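import Fermat.Agent.ML.Main.Fin.Gen
import Fermat.Agent.ML.Rho.FlatSub
import Fermat.Agent.ML.Rho.TraceRing
import Fermat.Agent.ML.Gen.StageP

/-!
# ML / Main / StepGen : [RHO-CELL] (GEN) at a stage, for ALL the steps

`G ≤ J₀(N)` a Galois stable subgroup at the LOWER level (a cell, or a whole box), `uA : J₀(N) → J₀(N')` equivariant, injective on `G`,
`V ≤ J₀(N')`, `H : Rho.IsRhoK N' (p^(K+1)) V (rEB B) πE ρ Φ`, `Gt = uA G` as an `R`-submodule of `V`.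

* `genHyp_stage` : helper55's `GenHypMZ` for `J = Ann_R(Gt) ⊔ I`, from the local conditions ON `G` in the vocabulary of `Main/Cell.lean`;
* `hflat_stage` : the tangent vectors which kill `Ann_R(Gt)` are flat (`p ∤ N`; `p ∣ N'` allowed);
* `step_gen` : `ker π0 ≤ Ann_R(Gt) ⊔ I ⊔ (x_1, …, x_g) ⊔ (p)`, `g = t - Σ_{v ∈ Rs} w v`.
-/

set_option autoImplicit false
set_option linter.unusedSectionVars false

noncomputable section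

open AlgebraicCurve ModularCurve

namespace Fermat.Agent.ML.Lift

open Fermat.Agent.GAL Fermat.Agent.RIB Fermat.Agent.RIB.Rho Fermat.Agent.ML.ESide Fermat.Agent.ML.Rho
  Fermat.Agent.S56 Fermat.Agent.S56.Flat Fermat.Agent.S56.Gen Fermat.Agent.ML.FinGen
open CFT (decomp)

local notation "Qbar" => AlgebraicClosure ℚ
local notation "GQ" => (AlgebraicClosure ℚ ≃ₐ[ℚ] AlgebraicClosure ℚ)
local notation "M₂" => Matrix (Fin 2) (Fin 2)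

/-- `GenHypMZ.of_act_sub` with the stage module embedded in `J₀(L)[p^n]`, `p ∤ L`. -/
theorem _root_.Fermat.Agent.ML.GenHypMZ.of_act_sub_jac {p : ℕ} [Fact p.Prime] {T : Finset ℕ}
    {θ : ℕ → ℤ} {rbar0 : GQ →* M2 (ZMod p)}
    {R V : Type} [CommRing R] [AddCommGroup V] [Module R V] [DistribMulAction GQ V]
    {ρ : GQ →* M2 R} {Φ : M2 R →ₐ[R] Module.End R V} [Finite V] (C : MCtx p T θ rbar0)
    (H : RhoAct ρ Φ) (hadj : Algebra.adjoin R (Set.range ρ) = ⊤) {π0 : R →+* ZMod p}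
    (hlift : ∀ σ, (ρ σ).map π0 = rbar0 σ) (hdet : ∀ σ, ∃ c : ℤ, (ρ σ).det = (c : R))
    (htr : Algebra.adjoin ℤ (Set.range fun σ => (ρ σ).trace) = ⊤)
    (hloc : ∀ a : R, π0 a ≠ 0 → IsUnit a)
    (hV : ∃ F : IntermediateField ℚ (AlgebraicClosure ℚ), FiniteDimensional ℚ F ∧
      ∀ σ : GQ, (∀ x ∈ F, σ x = x) → ∀ v : V, σ • v = v)
    (S₀ Q Rs : Finset Nat.Primes)
    (hur : ∀ q : Nat.Primes, q ∉ S₀ ∪ Q → ∀ A : ValuationSubring Qbar, A.LiesOverPrime (q : ℕ) →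
      ∀ σ ∈ A.inertiaSubgroupIn ℚ, ∀ v : V, σ • v = v)
    (G : Submodule R V) (hG : ∀ g : GQ, ∀ x ∈ G, g • x ∈ G) (hG0 : G ≠ ⊥)
    (I : Ideal R) (hI : ∀ a ∈ I, π0 a = 0)
    (hstrict : ∀ v ∈ Rs, ∃ M : M2 R, IsUnit (M.map π0) ∧
      ∀ σ ∈ decomp v, ConjConst ℤ (G.annihilator ⊔ I) M (ρ σ))
    (L : ℕ) [NeZero L] (hpL : ¬ p ∣ L) (n : ℕ)
    (ι : ↥G →+ JZero L) (hι : Function.Injective ι)
    (hιG : ∀ (g : GQ) (x : ↥G), ι ⟨g • (x : V), hG g x x.2⟩ = g • ι x)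
    (hn : ∀ x : ↥G, p ^ n • ι x = 0)
    (hdet1 : ∀ v ∈ S₀, v ≠ ExtCitation.pPrime p → ∀ σ ∈ inert v, (ρ σ).det = 1)
    (hmin : ∀ v ∈ S₀, v ∉ Rs → v ≠ ExtCitation.pPrime p → (∀ σ ∈ inert v, ∀ x ∈ G, σ • x = x) ∨
      ((∃ σ ∈ inert v, rbar0 σ ≠ 1) ∧ ∀ σ ∈ inert v, ∀ x ∈ G, σ • (σ • x - x) = σ • x - x)) :
    GenHypMZ p rbar0 S₀ Q Rs π0 ρ (G.annihilator ⊔ I) := by
  let _ := subGalAction G hG
  exact GenHypMZ.of_act_sub C H hadj hlift hdet htr hloc hV S₀ Q Rs hur G hG hG0 I hI hstrict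
    (AddMonoidHom.id ↥G) Function.injective_id (fun _ _ => rfl)
    (hasFlat_galAct_of_jac L hpL n ι hι (fun g x => hιG g x) hn) hdet1 hmin

section GJ

variable {L m : ℕ} [NeZero L] [NeZero m] {R : Type} [CommRing R] [Algebra (ZMod m) R]
  {X : AddSubgroup (JZero L)} [Module R ↥X] {rE : GQ →* M₂ (ZMod m)}
  {πE : R →ₐ[ZMod m] ZMod m} {ρ : GQ →* M₂ R} {Φ : M₂ R →ₐ[R] Module.End R ↥X}

/-- a submodule of `X` as a submodule of `V = X × Λ²`. -/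
def subJ (rE : GQ →* M₂ (ZMod m)) (πE : R →ₐ[ZMod m] ZMod m) (ρ : GQ →* M₂ R)
    (Φ : M₂ R →ₐ[R] Module.End R ↥X) (Gt : Submodule R ↥X) : Submodule R (VJ X rE πE ρ Φ) :=
  Submodule.map (LinearMap.inl R (XJ X ρ Φ) (EMJ rE πE)) (Gt : Submodule R (XJ X ρ Φ))

theorem mem_subJ {Gt : Submodule R ↥X} {v : VJ X rE πE ρ Φ} :
    v ∈ subJ rE πE ρ Φ Gt ↔ (v.1 : ↥X) ∈ Gt ∧ v.2 = 0 := by
  constructor
  · rintro ⟨x, hx, rfl⟩
    exact ⟨hx, rfl⟩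
  · rintro ⟨h1, h2⟩
    exact ⟨v.1, h1, Prod.ext rfl h2.symm⟩

theorem annihilator_subJ (Gt : Submodule R ↥X) :
    (subJ rE πE ρ Φ Gt).annihilator = Gt.annihilator := by
  ext a
  rw [Submodule.mem_annihilator, Submodule.mem_annihilator]
  constructor
  · intro h x hx
    have := h ((x : XJ X ρ Φ), (0 : EMJ rE πE)) (mem_subJ.2 ⟨hx, rfl⟩)
    exact congrArg Prod.fst this
  · intro h v hv
    obtain ⟨h1, h2⟩ := mem_subJ.1 hv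
    exact Prod.ext (h _ h1) (by show a • v.2 = 0; rw [h2, smul_zero])

end GJ

section Stage

variable {N N' m : ℕ} [NeZero N] [NeZero N'] [NeZero m] {R : Type} [CommRing R]
  [Algebra (ZMod m) R] {V : AddSubgroup (JZero N')} [Module R ↥V] {rE : GQ →* M₂ (ZMod m)}
  {πE : R →ₐ[ZMod m] ZMod m} {ρ : GQ →* M₂ R} {Φ : M₂ R →ₐ[R] Module.End R ↥V}
  (H : Fermat.Agent.ML.Rho.IsRhoK N' m V rE πE ρ Φ)
  {G : AddSubgroup (JZero N)} (hG : ∀ g : GQ, ∀ v ∈ G, g • v ∈ G)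
  {uA : JZero N →+ JZero N'} (hA : ∀ (g : GQ) v, uA (g • v) = g • uA v)
  (hAi : ∀ v ∈ G, uA v = 0 → v = 0)
  {Gt : Submodule R ↥V} (hGt : ∀ x : ↥V, x ∈ Gt ↔ ∃ v ∈ G, uA v = (x : JZero N'))

include hGt in
theorem exists_of_mem_subJ {x : VJ V rE πE ρ Φ} (hx : x ∈ subJ rE πE ρ Φ Gt) :
    ∃ v ∈ G, XJ.incl V ρ Φ x.1 = uA v ∧ x.2 = 0 := by
  obtain ⟨h1, h2⟩ := mem_subJ.1 hx
  obtain ⟨v, hv, h3⟩ := (hGt _).1 h1
  exact ⟨v, hv, h3.symm, h2⟩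

include H hG hA hGt in
/-- `uA G` is Galois stable in `V × Λ²`. -/
theorem subJ_gal (g : GQ) (x : VJ V rE πE ρ Φ) (hx : x ∈ subJ rE πE ρ Φ Gt) :
    g • x ∈ subJ rE πE ρ Φ Gt := by
  obtain ⟨v, hv, h1, h2⟩ := exists_of_mem_subJ hGt hx
  refine mem_subJ.2 ⟨(hGt _).2 ⟨g • v, hG g v hv, ?_⟩, ?_⟩
  · rw [hA, ← h1]
    exact (H.coe_gal g x.1).symm
  · show g • x.2 = 0
    rw [h2, smul_zero]

include H hA hGt in
theorem locUr_subJ {q : ℕ} (h : LocUr q (G : Set (JZero N))) :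
    LocUr q (subJ rE πE ρ Φ Gt : Set (VJ V rE πE ρ Φ)) := by
  intro A hA' τ hτ x hx
  obtain ⟨v, hv, h1, h2⟩ := exists_of_mem_subJ hGt hx
  refine H.ext_VJ ?_ ?_
  · show XJ.incl V ρ Φ (τ • x.1) = XJ.incl V ρ Φ x.1
    rw [H.coe_gal, h1, ← hA, h A hA' τ hτ v hv]
  · show τ • x.2 = x.2
    rw [h2, smul_zero]

include H hA hGt in
theorem locUnip_subJ {q : ℕ} (h : LocUnip q (G : Set (JZero N))) :
    LocUnip q (subJ rE πE ρ Φ Gt : Set (VJ V rE πE ρ Φ)) := by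
  intro A hA' τ hτ τ' hτ' x hx
  obtain ⟨v, hv, h1, h2⟩ := exists_of_mem_subJ hGt hx
  refine H.ext_VJ ?_ ?_
  · show XJ.incl V ρ Φ (τ' • (τ • x.1 - x.1)) = XJ.incl V ρ Φ (τ • x.1 - x.1)
    rw [H.coe_gal, map_sub, H.coe_gal, h1, ← hA, ← map_sub, ← hA, h A hA' τ hτ τ' hτ' v hv]
  · show τ' • (τ • x.2 - x.2) = τ • x.2 - x.2
    rw [h2, smul_zero, sub_zero, smul_zero]

include H hA hGt in
theorem locSt_subJ {q : ℕ} {ε : ℤ} (h : LocSt q ε (G : Set (JZero N))) :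
    LocSt q ε (subJ rE πE ρ Φ Gt : Set (VJ V rE πE ρ Φ)) := by
  intro A hA' σ hσ τ hτ x hx
  obtain ⟨v, hv, h1, h2⟩ := exists_of_mem_subJ hGt hx
  obtain ⟨a1, a2, a3⟩ := h A hA' σ hσ τ hτ v hv
  refine ⟨H.ext_VJ ?_ ?_, H.ext_VJ ?_ ?_, H.ext_VJ ?_ ?_⟩
  · show XJ.incl V ρ Φ (σ • (τ • x.1 - x.1)) = XJ.incl V ρ Φ ((ε * q) • (τ • x.1 - x.1))
    rw [H.coe_gal, map_zsmul, map_sub, H.coe_gal, h1, ← hA, ← map_sub, ← hA, a1, map_zsmul]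
  · show σ • (τ • x.2 - x.2) = (ε * q) • (τ • x.2 - x.2)
    rw [h2, smul_zero, sub_zero, smul_zero, smul_zero]
  · show XJ.incl V ρ Φ (τ • (σ • x.1 - ε • x.1)) = XJ.incl V ρ Φ (σ • x.1 - ε • x.1)
    rw [H.coe_gal, map_sub, H.coe_gal, map_zsmul, h1, ← hA, ← map_zsmul, ← map_sub, ← hA, a2]
  · show τ • (σ • x.2 - ε • x.2) = σ • x.2 - ε • x.2
    rw [h2, smul_zero, smul_zero, sub_zero, smul_zero]
  · show XJ.incl V ρ Φ (σ • (σ • x.1 - ε • x.1)) = XJ.incl V ρ Φ ((ε * q) • (σ • x.1 - ε • x.1))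
    rw [H.coe_gal, map_zsmul, map_sub, H.coe_gal, map_zsmul, h1, ← hA, ← map_zsmul, ← map_sub,
      ← hA, a3, map_zsmul]
  · show σ • (σ • x.2 - ε • x.2) = (ε * q) • (σ • x.2 - ε • x.2)
    rw [h2, smul_zero, smul_zero, sub_zero, smul_zero, smul_zero]

include H hA hGt in
theorem locPSt_subJ {p : ℕ} [Fact p.Prime] {e : GQ → ℤ} {k : ℕ}
    (h : LocPSt p e k (G : Set (JZero N))) :
    LocPSt p e k (subJ rE πE ρ Φ Gt : Set (VJ V rE πE ρ Φ)) := by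
  intro s₁ hs₁ s₂ hs₂ x hx a ha
  obtain ⟨v, hv, h1, h2⟩ := exists_of_mem_subJ hGt hx
  refine H.ext_VJ ?_ ?_
  · show XJ.incl V ρ Φ (s₁ • (s₂ • x.1 - e s₂ • x.1)) =
      XJ.incl V ρ Φ (((a : ℤ) * e s₁) • (s₂ • x.1 - e s₂ • x.1))
    rw [H.coe_gal, map_zsmul, map_sub, H.coe_gal, map_zsmul, h1, ← hA, ← map_zsmul, ← map_sub,
      ← hA, h s₁ hs₁ s₂ hs₂ v hv a ha, map_zsmul]
  · show s₁ • (s₂ • x.2 - e s₂ • x.2) = ((a : ℤ) * e s₁) • (s₂ • x.2 - e s₂ • x.2)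
    rw [h2, smul_zero, smul_zero, sub_zero, smul_zero, smul_zero]

include H hG hA hAi hGt in
/-- the inverse of `uA` on `uA G`. -/
theorem exists_iota : ∃ ι : ↥(subJ rE πE ρ Φ Gt) →+ JZero N, Function.Injective ι ∧
    (∀ (g : GQ) (x : ↥(subJ rE πE ρ Φ Gt)),
      ι ⟨g • (x : VJ V rE πE ρ Φ), subJ_gal H hG hA hGt g x x.2⟩ = g • ι x) ∧
    ∀ x, ι x ∈ G := by
  classical
  have key : ∀ x : ↥(subJ rE πE ρ Φ Gt), ∃ v, v ∈ G ∧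
      XJ.incl V ρ Φ (x : VJ V rE πE ρ Φ).1 = uA v ∧ (x : VJ V rE πE ρ Φ).2 = 0 := fun x => by
    obtain ⟨v, hv, h⟩ := exists_of_mem_subJ hGt x.2
    exact ⟨v, hv, h⟩
  choose vv hvG hvu hv2 using key
  have hinj : ∀ v ∈ G, ∀ v' ∈ G, uA v = uA v' → v = v' := by
    intro v hv v' hv' h
    exact sub_eq_zero.1 (hAi _ (G.sub_mem hv hv') (by rw [map_sub, h, sub_self]))
  refine ⟨AddMonoidHom.mk' vv fun x y => hinj _ (hvG _) _ (G.add_mem (hvG x) (hvG y)) ?_, ?_, ?_,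
    hvG⟩
  · rw [map_add, ← hvu, ← hvu, ← hvu, ← map_add]
    rfl
  · intro x y hxy
    have h : vv x = vv y := hxy
    exact Subtype.ext (H.ext_VJ (by rw [hvu, hvu, h]) (by rw [hv2, hv2]))
  · intro g x
    show vv _ = g • vv x
    refine hinj _ (hvG _) _ (hG g _ (hvG x)) ?_
    rw [hA, ← hvu, ← hvu]
    exact H.coe_gal g _

end Stage

section Main

variable {W : WeierstrassCurve ℤ} {p : ℕ} [Fact p.Prime] {T : Finset ℕ}
  {b : Module.Basis (Fin 2) (ZMod p) (TorsW W p)} {L₀ : ℕ} [NeZero L₀] {eps : ℕ → ℤ}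
  {eP : GQ → ℤ} (X : LCtx W p T b L₀ eps eP) {t K : ℕ} {qv : Fin t → Nat.Primes}
  {N N' : ℕ} [NeZero N] [NeZero N']
  (hlev : ∀ q : Nat.Primes, q ∉ toP T ∪ Finset.univ.image qv → ¬ (q : ℕ) ∣ N' * p)
  {V : AddSubgroup (JZero N')} [Finite ↥V]
  {B : Module.Basis (Fin 2) (ZMod (p ^ (K + 1))) (TorsW W (p ^ (K + 1)))}
  (C : TopCtx W p b K B N' V)
  {R : Type} [CommRing R] [IsLocalRing R] [Algebra (ZMod (p ^ (K + 1))) R] [Module R ↥V]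
  {πE : R →ₐ[ZMod (p ^ (K + 1))] ZMod (p ^ (K + 1))} {ρ : GQ →* M₂ R}
  {Φ : M₂ R →ₐ[R] Module.End R ↥V}
  (H : Fermat.Agent.ML.Rho.IsRhoK N' (p ^ (K + 1)) V (rEB B) πE ρ Φ)
  {G : AddSubgroup (JZero N)} (hG : ∀ g : GQ, ∀ v ∈ G, g • v ∈ G) (hG0 : ∃ v ∈ G, v ≠ 0)
  {uA : JZero N →+ JZero N'} (hA : ∀ (g : GQ) v, uA (g • v) = g • uA v)
  (hAV : ∀ v ∈ G, uA v ∈ V) (hAi : ∀ v ∈ G, uA v = 0 → v = 0)
  {Gt : Submodule R ↥V} (hGt : ∀ x : ↥V, x ∈ Gt ↔ ∃ v ∈ G, uA v = (x : JZero N'))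

include X C H hG hA hAi hGt in
/-- **flatness at a stage** : the tangent vectors which kill `Ann_R(uA G)` are flat, if `p ∤ N` (`p ∣ N'` allowed). -/
theorem hflat_stage (hpN : ¬ p ∣ N) {n : ℕ} (hn : ∀ v ∈ G, p ^ n • v = 0) {J : Ideal R}
    (hJ : Gt.annihilator ≤ J) (φ : R →+* DualNumber (kM p)) (hφ : IsTan p (pi0 πE) J φ) :
    HasFlat (Ap p).valuation (matAct (Ip p) (S53.mapRep φ ρ)) := by
  have hadj : Algebra.adjoin R (Set.range ρ) = ⊤ := X.C.adjoin_range_rho' (C.lift H)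
  obtain ⟨ι, hι, hιG, hιm⟩ := exists_iota H hG hA hAi hGt
  exact H.rhoAct.hasFlat_of_isTan_sub_jac hadj (subJ (rEB B) πE ρ Φ Gt) (subJ_gal H hG hA hGt) N
    hpN n ι hι hιG (fun x => hn _ (hιm x)) (by rw [annihilator_subJ]; exact hJ) φ hφ

include X hlev C H hG hG0 hA hAV hAi hGt in
/-- **(GEN) at a stage** : the hypotheses `GenHypMZ` for `J = Ann_R(uA G) ⊔ I`. -/
theorem genHyp_stage (Rs : Finset Nat.Primes) (I : Ideal R) (hI : ∀ a ∈ I, pi0 πE a = 0)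
    (hstrict : ∀ v ∈ Rs, ∃ M : M₂ R, IsUnit (M.map (pi0 πE)) ∧
      ∀ σ ∈ decomp v, ConjConst ℤ (Gt.annihilator ⊔ I) M (ρ σ))
    (hmin : ∀ v ∈ toP T, v ∉ Rs → v ≠ ExtCitation.pPrime p →
      LocUr (v : ℕ) (G : Set (JZero N)) ∨
        (Ram (rbarB b) (v : ℕ) ∧ LocUnip (v : ℕ) (G : Set (JZero N))))
    (hatp : (¬ p ∣ N ∧ ∃ n : ℕ, ∀ v ∈ G, p ^ n • v = 0) ∨
      ((∀ s ∈ (Ap p).inertiaSubgroupIn ℚ, eP s = 1) ∧
        ∃ a : ℕ, a ≤ K + 1 ∧ LocPSt p eP a (G : Set (JZero N)))) :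
    GenHypMZ p (rbarB b) (toP T) (Finset.univ.image qv) Rs (pi0 πE) ρ (Gt.annihilator ⊔ I) := by
  have hadj : Algebra.adjoin R (Set.range ρ) = ⊤ := X.C.adjoin_range_rho' (C.lift H)
  have hGJ := subJ_gal H hG hA hGt
  have hann := annihilator_subJ (rE := rEB B) (πE := πE) (ρ := ρ) (Φ := Φ) Gt
  have hur : ∀ q : Nat.Primes, q ∉ toP T ∪ Finset.univ.image qv →
      ∀ A : ValuationSubring Qbar, A.LiesOverPrime (q : ℕ) →
      ∀ σ ∈ A.inertiaSubgroupIn ℚ, ∀ v : VJ V (rEB B) πE ρ Φ, σ • v = v := by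
    intro q hq A hA' σ hσ v
    have hgood : W.IsGoodPrimeFor q := fun hd => hq (Finset.mem_union_left _
      (mem_toP'.2 (X.hbadT q q.2 hd)))
    have h3 := C.unram H q.2 (hlev q hq) hgood hA' hσ
    rw [← H.rhoAct.act, h3, map_one, Module.End.one_apply]
  have hne : subJ (rEB B) πE ρ Φ Gt ≠ ⊥ := by
    obtain ⟨v, hv, hv0⟩ := hG0
    intro h
    obtain ⟨x₀, hx₀⟩ : ∃ x₀ : VJ V (rEB B) πE ρ Φ, x₀ = ((⟨uA v, hAV v hv⟩ : ↥V), 0) := ⟨_, rfl⟩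
    have h1 : x₀ ∈ subJ (rEB B) πE ρ Φ Gt := by
      rw [hx₀]
      exact mem_subJ.2 ⟨(hGt _).2 ⟨v, hv, rfl⟩, rfl⟩
    rw [h, Submodule.mem_bot, hx₀] at h1
    have h2 : (⟨uA v, hAV v hv⟩ : ↥V) = 0 := congrArg Prod.fst h1
    exact hv0 (hAi v hv (congrArg Subtype.val h2))
  have hdet1 : ∀ v ∈ toP T, v ≠ ExtCitation.pPrime p → ∀ σ ∈ inert v, (ρ σ).det = 1 := by
    intro v _ hvp σ hσ
    exact C.det_inertia H v.2 (fun e => hvp (Subtype.ext e)) (liesOverPrime_primeLocalPlace v) hσ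
  have hminJ : ∀ v ∈ toP T, v ∉ Rs → v ≠ ExtCitation.pPrime p →
      (∀ σ ∈ inert v, ∀ x ∈ subJ (rEB B) πE ρ Φ Gt, σ • x = x) ∨
      ((∃ σ ∈ inert v, rbarB b σ ≠ 1) ∧
        ∀ σ ∈ inert v, ∀ x ∈ subJ (rEB B) πE ρ Φ Gt, σ • (σ • x - x) = σ • x - x) := by
    intro v hv hvR hvp
    rcases hmin v hv hvR hvp with h | ⟨hr, h⟩
    · exact Or.inl fun σ hσ x hx =>
        locUr_subJ H hA hGt h _ (liesOverPrime_primeLocalPlace v) σ hσ x hx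
    · exact Or.inr ⟨exists_inert_of_ram hr, fun σ hσ x hx =>
        locUnip_subJ H hA hGt h _ (liesOverPrime_primeLocalPlace v) σ hσ σ hσ x hx⟩
  rw [← hann] at hstrict ⊢
  rcases hatp with ⟨hpN, n, hn⟩ | ⟨heP, a, haK, hP⟩
  · obtain ⟨ι, hι, hιG, hιm⟩ := exists_iota H hG hA hAi hGt
    exact GenHypMZ.of_act_sub_jac (V := VJ V (rEB B) πE ρ Φ) X.C H.rhoAct hadj (C.lift H)
      (C.det_int H) (C.tr_int H) (fun a ha => TopCtx.isUnit_of_pi0 H ha) (C.level H) (toP T)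
      (Finset.univ.image qv) Rs hur _ hGJ hne I hI hstrict N hpN n ι hι hιG
      (fun x => hn _ (hιm x)) hdet1 hminJ
  · refine GenHypMZ.of_act (V := VJ V (rEB B) πE ρ Φ) X.C H.rhoAct hadj (C.lift H) (C.det_int H)
      (C.tr_int H) (fun a ha => TopCtx.isUnit_of_pi0 H ha) (C.level H) (toP T)
      (Finset.univ.image qv) Rs hur _ hGJ hne I hI hstrict
      (Or.inr ⟨fun σ => ((eP σ : ℤ) : R), fun σ hσ x _ => ?_, fun σ hσ τ hτ x hx => ?_⟩)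
      hdet1 hminJ
    · show ((eP σ : ℤ) : R) • x = x
      rw [heP σ hσ, Int.cast_one, one_smul]
    · show σ • (τ • x - ((eP τ : ℤ) : R) • x)
        = ((ρ σ).det * ((eP σ : ℤ) : R)) • (τ • x - ((eP τ : ℤ) : R) • x)
      have h := locPSt_subJ H hA hGt (locPSt_mono haK hP) σ hσ τ hτ x hx
        (chiM (p ^ (K + 1)) σ).val (fun μ hμ => cycloChar_spec _ σ hμ)
      have e1 : ((eP τ : ℤ) : R) • x = eP τ • x := Int.cast_smul_eq_zsmul R _ _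
      have e2 : (ρ σ).det * ((eP σ : ℤ) : R)
          = (((((chiM (p ^ (K + 1)) σ).val : ℕ) : ℤ) * eP σ : ℤ) : R) := by
        rw [H.det]
        conv_lhs => rw [← ZMod.natCast_zmod_val (chiM (p ^ (K + 1)) σ), map_natCast]
        push_cast
        rfl
      rw [e1, h, e2]
      exact (Int.cast_smul_eq_zsmul R _ _).symm

end Main

end Fermat.Agent.ML.Lift
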